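/-
GATE-Q / Q6 (helper16): Mathlib + Prelude-definitions only.

(i)  `exists_derangement`: a group `G` acting transitively on a set `X` with four elements, a normal
     subgroup `H` acting non-trivially: some `τ ∈ H` moves every point of `X`.
(ii) `no_root_of_frobenius_derangement`: `g ∈ ℤ[X]` monic with a Bezout certificate
     `a * g + b * g' = D`, `ℓ ∤ D`; a Frobenius element at a place `A` over `ℓ` which moves every
     root of `g` in `ℚ̄`: then `g` has no root modulo `ℓ`.
-/
import Mathlib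
import Fermat.Prelude.Def_FLTPrelim_Ramification
import Fermat.Prelude.Def_EllipticCurve_FrobeniusTrace

set_option autoImplicit false

namespace Fermat.Agent.G35.Irr3.Derange

open Polynomial

section Group

open MulAction

/-- Jordan's lemma: a transitive permutation group on at least two points contains a
derangement. -/
theorem exists_derangement_of_transitive {X : Type*} [Fintype X]
    (N : Subgroup (Equiv.Perm X)) (htr : ∀ x y : X, ∃ n ∈ N, n x = y)
    (hX : 2 ≤ Fintype.card X) : ∃ n ∈ N, ∀ x, n x ≠ x := by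
  classical
  by_contra hcon
  push Not at hcon
  haveI : Fintype N := Fintype.ofFinite _
  haveI : IsPretransitive N X :=
    ⟨fun x y => by obtain ⟨n, hn, h⟩ := htr x y; exact ⟨⟨n, hn⟩, h⟩⟩
  have hB := MulAction.sum_card_fixedBy_eq_card_orbits_mul_card_group N X
  haveI : Nonempty X := Fintype.card_pos_iff.mp (by omega)
  have hq : Fintype.card (Quotient (orbitRel N X)) = 1 := by
    haveI : Subsingleton (orbitRel.Quotient N X) :=
      (pretransitive_iff_subsingleton_quotient N X).mp inferInstance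
    haveI : Nonempty (orbitRel.Quotient N X) := ⟨Quotient.mk'' (Classical.arbitrary X)⟩
    rw [Fintype.card_eq_nat_card]
    exact Nat.card_unique
  rw [hq, one_mul] at hB
  have hle : ∀ n : N, (1 + if n = 1 then 1 else 0) ≤ Fintype.card (fixedBy X n) := by
    intro n
    by_cases hn : n = 1
    · subst hn
      rw [if_pos rfl]
      have : Fintype.card (fixedBy X (1 : N)) = Fintype.card X := by
        apply Fintype.card_of_subtype Finset.univ
        intro x
        simp
      omega
    · rw [if_neg hn]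
      obtain ⟨x, hx⟩ := hcon n n.2
      have : 0 < Fintype.card (fixedBy X n) := Fintype.card_pos_iff.mpr ⟨⟨x, hx⟩⟩
      omega
  have hsum : ∑ n : N, (1 + if n = 1 then 1 else 0) = Fintype.card N + 1 := by
    rw [Finset.sum_add_distrib, Finset.sum_ite_eq']
    simp
  have := Finset.sum_le_sum (fun n (_ : n ∈ (Finset.univ : Finset N)) => hle n)
  rw [hsum, hB] at this
  omega

variable {G X : Type*} [Group G] [MulAction G X]

/-- In a transitive action, a normal subgroup acting non-trivially moves every point. -/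
theorem exists_moving (H : Subgroup G) [hn : H.Normal] [IsPretransitive G X]
    (hH : ∃ h ∈ H, ∃ x : X, h • x ≠ x) (y : X) : ∃ h ∈ H, h • y ≠ y := by
  obtain ⟨h, hh, x, hx⟩ := hH
  obtain ⟨g, rfl⟩ := exists_smul_eq G x y
  refine ⟨g * h * g⁻¹, hn.conj_mem h hh g, ?_⟩
  rw [mul_smul, mul_smul, inv_smul_smul]
  intro heq
  exact hx (MulAction.injective g heq)

/-- the `H`-orbits of a normal subgroup all have the same cardinality (transitive ambient
action). -/
theorem ncard_orbit_smul (H : Subgroup G) [hn : H.Normal] (g : G) (x : X) :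
    (orbit H (g • x)).ncard = (orbit H x).ncard := by
  have himg : orbit H (g • x) = (fun y => g • y) '' orbit H x := by
    ext z
    constructor
    · rintro ⟨h, rfl⟩
      refine ⟨(g⁻¹ * (h : G) * g) • x, ⟨⟨g⁻¹ * h * g, ?_⟩, rfl⟩, ?_⟩
      · have := hn.conj_mem (h : G) h.2 g⁻¹
        rwa [inv_inv] at this
      · show g • (g⁻¹ * (h : G) * g) • x = h • g • x
        rw [Subgroup.smul_def, ← mul_smul, ← mul_smul]
        congr 1
        group
    · rintro ⟨y, ⟨h, rfl⟩, rfl⟩
      refine ⟨⟨g * h * g⁻¹, hn.conj_mem (h : G) h.2 g⟩, ?_⟩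
      show (g * (h : G) * g⁻¹) • g • x = g • h • x
      rw [Subgroup.smul_def, ← mul_smul, ← mul_smul]
      congr 1
      group
  rw [himg]
  exact Set.ncard_image_of_injective _ (MulAction.injective g)

/-- an element of `H` moving one point of a two-element `H`-orbit moves both. -/
theorem moves_all_of_two (H : Subgroup G) {x : X} (h2 : (orbit H x).ncard = 2) (h : H)
    (hm : ∃ y ∈ orbit H x, h • y ≠ y) : ∀ y ∈ orbit H x, h • y ≠ y := by
  obtain ⟨p, q, hpq, hO⟩ := Set.ncard_eq_two.mp h2
  obtain ⟨y0, hy0, hmv⟩ := hm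
  intro y1 hy1 hfix
  have hne : y0 ≠ y1 := by
    rintro rfl
    exact hmv hfix
  have himg : h • y0 ∈ orbit H x := by
    rw [← orbit_eq_iff.mpr hy0]
    exact mem_orbit _ _
  -- h • y0 ∈ {p, q} = {y0, y1}
  have hcases : h • y0 = y0 ∨ h • y0 = y1 := by
    rw [hO] at hy0 hy1 himg
    simp only [Set.mem_insert_iff, Set.mem_singleton_iff] at hy0 hy1 himg
    rcases hy0 with rfl | rfl <;> rcases hy1 with rfl | rfl <;> rcases himg with h' | h' <;>
      first
        | exact absurd rfl hne
        | exact Or.inl h'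
        | exact Or.inr h'
  rcases hcases with h' | h'
  · exact hmv h'
  · rw [← hfix] at h'
    exact hne (MulAction.injective h h')

/-- **The four-point derangement lemma.** -/
theorem exists_derangement [Fintype X] (hX : Fintype.card X = 4) [IsPretransitive G X]
    (H : Subgroup G) [hn : H.Normal] (hH : ∃ h ∈ H, ∃ x : X, h • x ≠ x) :
    ∃ τ ∈ H, ∀ x : X, τ • x ≠ x := by
  classical
  haveI : Nonempty X := Fintype.card_pos_iff.mp (by omega)
  obtain ⟨a⟩ := ‹Nonempty X›
  have hcardeq : ∀ x y : X, (orbit H x).ncard = (orbit H y).ncard := by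
    intro x y
    obtain ⟨g, rfl⟩ := exists_smul_eq G x y
    exact (ncard_orbit_smul H g x).symm
  have hge2 : ∀ x : X, 2 ≤ (orbit H x).ncard := by
    intro x
    obtain ⟨h, hh, hmv⟩ := exists_moving H hH x
    have hsub : ({x, h • x} : Set X) ⊆ orbit H x := by
      intro z hz
      rcases hz with rfl | rfl
      · exact mem_orbit_self _
      · exact ⟨⟨h, hh⟩, rfl⟩
    have := Set.ncard_le_ncard hsub (Set.toFinite _)
    rwa [Set.ncard_pair (Ne.symm hmv)] at this
  by_cases htop : orbit H a = Set.univ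
  · -- `H` is transitive
    let N : Subgroup (Equiv.Perm X) := H.map (toPermHom G X)
    have htr : ∀ x y : X, ∃ n ∈ N, n x = y := by
      intro x y
      have hx : x ∈ orbit H a := htop ▸ Set.mem_univ x
      have hy : y ∈ orbit H a := htop ▸ Set.mem_univ y
      obtain ⟨h1, rfl⟩ := hx
      obtain ⟨h2, rfl⟩ := hy
      refine ⟨toPermHom G X ((h2 : G) * (h1 : G)⁻¹),
        Subgroup.mem_map_of_mem _ (H.mul_mem h2.2 (H.inv_mem h1.2)), ?_⟩
      show ((h2 : G) * (h1 : G)⁻¹) • (h1 • a) = h2 • a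
      rw [Subgroup.smul_def, Subgroup.smul_def, ← mul_smul, inv_mul_cancel_right]
    obtain ⟨n, hnN, hder⟩ := exists_derangement_of_transitive N htr (by omega)
    obtain ⟨h, hh, rfl⟩ := Subgroup.mem_map.mp hnN
    exact ⟨h, hh, fun x => hder x⟩
  · -- two orbits of size two
    obtain ⟨c, hc⟩ : ∃ c, c ∉ orbit H a := by
      by_contra hcon
      push Not at hcon
      exact htop (Set.eq_univ_of_forall hcon)
    have hdisj : Disjoint (orbit H a) (orbit H c) := by
      rw [Set.disjoint_left]
      intro y hya hyc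
      apply hc
      rw [← orbit_eq_iff.mpr hya, orbit_eq_iff.mpr hyc]
      exact mem_orbit_self _
    have hunion := Set.ncard_union_eq hdisj (Set.toFinite _) (Set.toFinite _)
    have hle4 : (orbit H a ∪ orbit H c).ncard ≤ 4 := by
      have := Set.ncard_le_ncard (Set.subset_univ (orbit H a ∪ orbit H c)) (Set.toFinite _)
      rwa [Set.ncard_univ, Nat.card_eq_fintype_card, hX] at this
    have hac := hcardeq a c
    have ha2 := hge2 a
    have hda : (orbit H a).ncard = 2 := by omega
    have hdc : (orbit H c).ncard = 2 := by omega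
    have huniv : orbit H a ∪ orbit H c = Set.univ := by
      apply Set.eq_of_subset_of_ncard_le (Set.subset_univ _) _ (Set.toFinite _)
      rw [Set.ncard_univ, Nat.card_eq_fintype_card, hX, hunion, hda, hdc]
    obtain ⟨h1, hh1, hm1⟩ := exists_moving H hH a
    obtain ⟨h2, hh2, hm2⟩ := exists_moving H hH c
    have h1a := moves_all_of_two H hda ⟨h1, hh1⟩ ⟨a, mem_orbit_self _, hm1⟩
    have h2c := moves_all_of_two H hdc ⟨h2, hh2⟩ ⟨c, mem_orbit_self _, hm2⟩
    by_cases hA : ∃ y ∈ orbit H c, h1 • y ≠ y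
    · have h1c := moves_all_of_two H hdc ⟨h1, hh1⟩ hA
      refine ⟨h1, hh1, fun x => ?_⟩
      have hx : x ∈ orbit H a ∪ orbit H c := huniv ▸ Set.mem_univ x
      rcases hx with hx | hx
      · exact h1a x hx
      · exact h1c x hx
    · push Not at hA
      by_cases hB : ∃ y ∈ orbit H a, h2 • y ≠ y
      · have h2a := moves_all_of_two H hda ⟨h2, hh2⟩ hB
        refine ⟨h2, hh2, fun x => ?_⟩
        have hx : x ∈ orbit H a ∪ orbit H c := huniv ▸ Set.mem_univ x
        rcases hx with hx | hx
        · exact h2a x hx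
        · exact h2c x hx
      · push Not at hB
        refine ⟨h1 * h2, H.mul_mem hh1 hh2, fun x => ?_⟩
        have hx : x ∈ orbit H a ∪ orbit H c := huniv ▸ Set.mem_univ x
        rw [mul_smul]
        rcases hx with hx | hx
        · rw [hB x hx]
          exact h1a x hx
        · have hmem : h2 • x ∈ orbit H c := by
            rw [← orbit_eq_iff.mpr hx]
            exact ⟨⟨h2, hh2⟩, rfl⟩
          rw [hA _ hmem]
          exact h2c x hx

end Group

section Frob

variable {L : Type*} [Field L]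

/-- A Frobenius lift at `A` acts as the `q`-th power modulo the maximal ideal. -/
theorem frob_sub_pow_mem_nonunits {K : Type*} [Field K] [Algebra K L] {A : ValuationSubring L}
    {τ : L ≃ₐ[K] L} {q : ℕ} (hτ : A.IsFrobeniusAt τ q) {x : L} (hx : x ∈ A) :
    τ x - x ^ q ∈ A.nonunits := by
  have h := hτ.smul_residue_eq (IsLocalRing.residue A ⟨x, hx⟩)
  rw [← IsLocalRing.ResidueField.residue_smul, ← map_pow, ← sub_eq_zero, ← map_sub,
    IsLocalRing.residue_eq_zero_iff, A.valuation_lt_one_iff] at h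
  rw [A.mem_nonunits_iff]
  exact h

/-- Elements integral over `ℤ` lie in every valuation subring. -/
theorem mem_of_isIntegral_int (A : ValuationSubring L) {x : L} (hx : IsIntegral ℤ x) : x ∈ A := by
  have h1 : IsIntegral A x := hx.tower_top
  obtain ⟨y, hy⟩ := IsIntegrallyClosed.isIntegral_iff.mp h1
  rw [← hy]
  exact y.2

theorem intCast_mem (A : ValuationSubring L) (n : ℤ) : (n : L) ∈ A :=
  mem_of_isIntegral_int A (by simpa using (isIntegral_algebraMap (R := ℤ) (A := L) (x := n)))

/-- valuation of a product of elements of `A`, one of which is a non-unit. -/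
theorem val_multiset_prod_lt_one (A : ValuationSubring L) (M : Multiset L)
    (h1 : ∀ z ∈ M, z ∈ A) (h2 : ∃ z ∈ M, z ∈ A.nonunits) : M.prod ∈ A.nonunits := by
  classical
  obtain ⟨z, hz, hzn⟩ := h2
  obtain ⟨M', rfl⟩ := Multiset.exists_cons_of_mem hz
  rw [Multiset.prod_cons, A.mem_nonunits_iff, map_mul]
  have hM' : M'.prod ∈ A := by
    refine Multiset.prod_induction (· ∈ A) M' (fun a b ha hb => A.mul_mem _ _ ha hb) A.one_mem ?_
    intro a ha
    exact h1 a (Multiset.mem_cons_of_mem ha)
  have hzv : A.valuation z < 1 := (A.mem_nonunits_iff).mp hzn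
  have hMv : A.valuation M'.prod ≤ 1 := (A.valuation_le_one_iff _).mpr hM'
  exact mul_lt_one_of_lt_of_le hzv hMv

/-- if all elements of a multiset of elements of `A` are units of `A`, so is the product. -/
theorem exists_mem_nonunits_of_prod (A : ValuationSubring L) (M : Multiset L)
    (h1 : ∀ z ∈ M, z ∈ A) (h2 : M.prod ∈ A.nonunits) : ∃ z ∈ M, z ∈ A.nonunits := by
  by_contra hcon
  push Not at hcon
  have hall : ∀ z ∈ M, A.valuation z = 1 := by
    intro z hz
    have hle : A.valuation z ≤ 1 := (A.valuation_le_one_iff _).mpr (h1 z hz)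
    have hnl : ¬ A.valuation z < 1 := fun h => hcon z hz ((A.mem_nonunits_iff).mpr h)
    exact le_antisymm hle (not_lt.mp hnl)
  have hprod : A.valuation M.prod = 1 := by
    rw [map_multiset_prod]
    apply Multiset.prod_eq_one
    intro y hy
    obtain ⟨z, hz, rfl⟩ := Multiset.mem_map.mp hy
    exact hall z hz
  rw [A.mem_nonunits_iff, hprod] at h2
  exact lt_irrefl _ h2

end Frob

section Poly

local notation "Qb" => AlgebraicClosure ℚ

/-- if `ℓ` is a non-unit of `A` and the integer `D` is a non-unit of `A`, then `ℓ ∣ D`. -/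
theorem dvd_of_intCast_mem_nonunits {ℓ : ℕ} (hℓ : ℓ.Prime) (A : ValuationSubring Qb)
    (hA : A.LiesOverPrime ℓ) {D : ℤ} (hD : (D : Qb) ∈ A.nonunits) : (ℓ : ℤ) ∣ D := by
  by_contra hnd
  have hcop : IsCoprime (ℓ : ℤ) D := by
    rw [Int.isCoprime_iff_gcd_eq_one]
    exact Nat.Coprime.gcd_eq_one ((Nat.Prime.coprime_iff_not_dvd hℓ).mpr (by
      intro h
      exact hnd (Int.natCast_dvd.mpr h)))
  obtain ⟨s, t, hst⟩ := hcop
  have h1 : ((s : Qb) * (ℓ : Qb) + (t : Qb) * (D : Qb)) = 1 := by
    exact_mod_cast congrArg (Int.cast : ℤ → Qb) hst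
  have hv1 : A.valuation ((s : Qb) * (ℓ : Qb)) < 1 := by
    rw [map_mul, mul_comm]
    have hs : A.valuation (s : Qb) ≤ 1 := (A.valuation_le_one_iff _).mpr (intCast_mem A s)
    have hl : A.valuation (ℓ : Qb) < 1 := (A.mem_nonunits_iff).mp hA
    exact mul_lt_one_of_lt_of_le hl hs
  have hv2 : A.valuation ((t : Qb) * (D : Qb)) < 1 := by
    rw [map_mul, mul_comm]
    have ht : A.valuation (t : Qb) ≤ 1 := (A.valuation_le_one_iff _).mpr (intCast_mem A t)
    have hl : A.valuation (D : Qb) < 1 := (A.mem_nonunits_iff).mp hD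
    exact mul_lt_one_of_lt_of_le hl ht
  have hv : A.valuation ((s : Qb) * (ℓ : Qb) + (t : Qb) * (D : Qb)) < 1 :=
    lt_of_le_of_lt (A.valuation.map_add _ _) (max_lt hv1 hv2)
  rw [h1, map_one] at hv
  exact lt_irrefl _ hv

/-- sum of two non-units is a non-unit. -/
theorem add_mem_nonunits (A : ValuationSubring Qb) {x y : Qb} (hx : x ∈ A.nonunits)
    (hy : y ∈ A.nonunits) : x + y ∈ A.nonunits := by
  rw [A.mem_nonunits_iff] at hx hy ⊢
  exact lt_of_le_of_lt (A.valuation.map_add _ _) (max_lt hx hy)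

theorem neg_mem_nonunits (A : ValuationSubring Qb) {x : Qb} (hx : x ∈ A.nonunits) :
    -x ∈ A.nonunits := by
  rw [A.mem_nonunits_iff] at hx ⊢
  rwa [Valuation.map_neg]

theorem mul_mem_nonunits_left (A : ValuationSubring Qb) {x y : Qb} (hx : x ∈ A.nonunits)
    (hy : y ∈ A) : x * y ∈ A.nonunits := by
  rw [A.mem_nonunits_iff] at hx ⊢
  rw [map_mul]
  exact mul_lt_one_of_lt_of_le hx ((A.valuation_le_one_iff _).mpr hy)

/-- integer polynomials evaluated at elements of `A` land in `A`. -/
theorem eval_map_mem (A : ValuationSubring Qb) (b : ℤ[X]) {x : Qb} (hx : x ∈ A) :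
    eval x (b.map (Int.castRingHom Qb)) ∈ A := by
  rw [eval_map, eval₂_eq_sum_range]
  refine sum_mem fun n _ => A.mul_mem _ _ ?_ (pow_mem hx n)
  rw [eq_intCast]
  exact intCast_mem A _

/-- **Root-freeness modulo `ℓ` from a Frobenius element acting as a derangement on the roots.** -/
theorem no_root_of_frobenius_derangement {ℓ : ℕ} (hℓ : ℓ.Prime)
    (g a b : ℤ[X]) (D : ℤ) (hg : g.Monic)
    (hbez : a * g + b * derivative g = C D) (hD : ¬ (ℓ : ℤ) ∣ D)
    (A : ValuationSubring Qb) (hA : A.LiesOverPrime ℓ)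
    (φ : Qb ≃ₐ[ℚ] Qb) (hφ : A.IsFrobeniusAt φ ℓ)
    (hder : ∀ x : Qb, eval x (g.map (Int.castRingHom Qb)) = 0 → φ x ≠ x) (r : ℤ) :
    ¬ (ℓ : ℤ) ∣ g.eval r := by
  classical
  intro hdvd
  obtain ⟨k, hk⟩ := hdvd
  set gK : Qb[X] := g.map (Int.castRingHom Qb) with hgK
  have hsplit : gK.Splits := IsAlgClosed.splits gK
  have hmon : gK.Monic := hg.map _
  have hrootA : ∀ x ∈ gK.roots, x ∈ A := by
    intro x hx
    apply mem_of_isIntegral_int A
    refine ⟨g, hg, ?_⟩
    have h1 := (mem_roots hmon.ne_zero).mp hx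
    rw [IsRoot.def, hgK, eval_map] at h1
    rw [algebraMap_int_eq]
    exact h1
  have hev : gK.eval (r : Qb) = ((g.eval r : ℤ) : Qb) := by
    have h1 := eval_intCast_map (Int.castRingHom Qb) g r
    rw [eq_intCast, Int.cast_id] at h1
    exact h1
  have hAl : (ℓ : Qb) ∈ A.nonunits := hA
  have hprod : (gK.roots.map (fun x => (r : Qb) - x)).prod ∈ A.nonunits := by
    rw [← hsplit.eval_eq_prod_roots_of_monic hmon, hev, hk]
    push_cast
    exact mul_mem_nonunits_left A hAl (intCast_mem A k)
  obtain ⟨z, hz, hzn⟩ := exists_mem_nonunits_of_prod A _ (by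
      intro z hz
      obtain ⟨x, hx, rfl⟩ := Multiset.mem_map.mp hz
      exact sub_mem (intCast_mem A r) (hrootA x hx)) hprod
  obtain ⟨x, hx, rfl⟩ := Multiset.mem_map.mp hz
  have hxA : x ∈ A := hrootA x hx
  have hxroot : eval x gK = 0 := (mem_roots hmon.ne_zero).mp hx
  have hφroot : eval (φ x) gK = 0 := by
    have h1 : eval (φ x) gK = (φ : Qb →+* Qb) (eval x gK) := by
      rw [hgK, eval_map, eval_map, hom_eval₂]
      congr 1
      exact RingHom.ext_int _ _
    rw [h1, hxroot, map_zero]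
  have hφmem : φ x ∈ gK.roots := (mem_roots hmon.ne_zero).mpr hφroot
  have hne : φ x ≠ x := hder x hxroot
  have h1 : φ x - x ^ ℓ ∈ A.nonunits := frob_sub_pow_mem_nonunits hφ hxA
  have h2 : x ^ ℓ - (r : Qb) ^ ℓ ∈ A.nonunits := by
    have hfac : x ^ ℓ - (r : Qb) ^ ℓ
        = (x - (r : Qb)) * ∑ i ∈ Finset.range ℓ, x ^ i * (r : Qb) ^ (ℓ - 1 - i) := by
      rw [mul_comm, (Commute.all x (r : Qb)).geom_sum₂_mul]
    rw [hfac]
    refine mul_mem_nonunits_left A ?_ ?_
    · have := neg_mem_nonunits A hzn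
      rwa [neg_sub] at this
    · exact sum_mem fun i _ => A.mul_mem _ _ (pow_mem hxA i) (pow_mem (intCast_mem A r) _)
  have h3 : (r : Qb) ^ ℓ - (r : Qb) ∈ A.nonunits := by
    have hd : (ℓ : ℤ) ∣ r ^ ℓ - r := by
      have : Fact ℓ.Prime := Fact.mk hℓ
      rw [← ZMod.intCast_zmod_eq_zero_iff_dvd]
      push_cast
      rw [ZMod.pow_card, sub_self]
    obtain ⟨m, hm⟩ := hd
    have hm' : (r : Qb) ^ ℓ - (r : Qb) = (ℓ : Qb) * (m : Qb) := by
      exact_mod_cast congrArg (Int.cast : ℤ → Qb) hm
    rw [hm']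
    exact mul_mem_nonunits_left A hAl (intCast_mem A m)
  have h4 : φ x - x ∈ A.nonunits := by
    have hsum : φ x - x
        = ((φ x - x ^ ℓ) + (x ^ ℓ - (r : Qb) ^ ℓ)) + (((r : Qb) ^ ℓ - r) + ((r : Qb) - x)) := by
      ring
    rw [hsum]
    exact add_mem_nonunits A (add_mem_nonunits A h1 h2) (add_mem_nonunits A h3 hzn)
  have hder_eval : eval x (derivative gK)
      = ((gK.roots.erase x).map (fun y => x - y)).prod :=
    hsplit.eval_root_derivative hmon hx
  have hder_non : eval x (derivative gK) ∈ A.nonunits := by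
    rw [hder_eval]
    apply val_multiset_prod_lt_one
    · intro z hz
      obtain ⟨y, hy, rfl⟩ := Multiset.mem_map.mp hz
      exact sub_mem hxA (hrootA y (Multiset.mem_of_mem_erase hy))
    · refine ⟨x - φ x, Multiset.mem_map.mpr ⟨φ x, (Multiset.mem_erase_of_ne hne).mpr hφmem, rfl⟩, ?_⟩
      have := neg_mem_nonunits A h4
      rwa [neg_sub] at this
  have hbezK : eval x (a.map (Int.castRingHom Qb)) * eval x gK
      + eval x (b.map (Int.castRingHom Qb)) * eval x (derivative gK) = (D : Qb) := by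
    have h := congrArg (fun p : ℤ[X] => eval x (p.map (Int.castRingHom Qb))) hbez
    simp only [Polynomial.map_add, Polynomial.map_mul, eval_add, eval_mul, eq_intCast,
      Polynomial.map_intCast, eval_intCast, ← derivative_map] at h
    exact h
  rw [hxroot, mul_zero, zero_add] at hbezK
  have hDn : (D : Qb) ∈ A.nonunits := by
    rw [← hbezK, mul_comm]
    exact mul_mem_nonunits_left A hder_non (eval_map_mem A b hxA)
  exact hD (dvd_of_intCast_mem_nonunits hℓ A hA hDn)

/-- `ZMod ℓ` form of `no_root_of_frobenius_derangement`. -/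
theorem no_root_zmod_of_frobenius_derangement {ℓ : ℕ} (hℓ : ℓ.Prime)
    (g a b : ℤ[X]) (D : ℤ) (hg : g.Monic)
    (hbez : a * g + b * derivative g = C D) (hD : ¬ (ℓ : ℤ) ∣ D)
    (A : ValuationSubring Qb) (hA : A.LiesOverPrime ℓ)
    (φ : Qb ≃ₐ[ℚ] Qb) (hφ : A.IsFrobeniusAt φ ℓ)
    (hder : ∀ x : Qb, eval x (g.map (Int.castRingHom Qb)) = 0 → φ x ≠ x) (r : ZMod ℓ) :
    eval r (g.map (Int.castRingHom (ZMod ℓ))) ≠ 0 := by
  have : Fact ℓ.Prime := Fact.mk hℓ
  intro h0
  obtain ⟨r0, rfl⟩ := ZMod.intCast_surjective r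
  rw [eval_intCast_map, eq_intCast, ZMod.intCast_zmod_eq_zero_iff_dvd] at h0
  exact no_root_of_frobenius_derangement hℓ g a b D hg hbez hD A hA φ hφ hder r0 h0

end Poly

end Fermat.Agent.G35.Irr3.Derange
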