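/-
GATE-Q (S52, 3-5 switch) / node Q6a (helper37, route of helper16 board 3959 (0)).

**`ψ₃` root-free modulo ONE prime `ℓ ≠ 3` ⟹ the mod-3 representation is irreducible.**

For an integral Weierstrass model `W` with `Δ ≠ 0`: a reducible `E[3]` gives a rational root of
`ψ₃ = 3x⁴ + b₂x³ + 3b₄x² + 3b₆x + b₈` (S51, `exists_rat_root_psi3_of_torsOK` + `tors_facts_three`);
a rational root `m/n` in lowest terms has `ℓ ∤ n` (else `ℓ ∣ 3m⁴`), so it reduces to a root in `ZMod ℓ`.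
-/
import Fermat.Agent.S51.TorsEnd
import Fermat.Agent.S51_helper44.TorsFacts

set_option autoImplicit false

namespace Fermat.Agent.G35.Irr3

open WeierstrassCurve

/-- a rational root of an integer quartic with leading coefficient `3` reduces to a root modulo
every prime `ℓ ≠ 3` -/
theorem exists_root_zmod_of_rat_root (b2 b4 b6 b8 : ℤ) (x : ℚ)
    (hx : 3 * x ^ 4 + (b2 : ℚ) * x ^ 3 + 3 * (b4 : ℚ) * x ^ 2 + 3 * (b6 : ℚ) * x + (b8 : ℚ) = 0)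
    (ℓ : ℕ) [Fact ℓ.Prime] (hℓ3 : ℓ ≠ 3) :
    ∃ t : ZMod ℓ, 3 * t ^ 4 + (b2 : ZMod ℓ) * t ^ 3 + 3 * (b4 : ZMod ℓ) * t ^ 2
      + 3 * (b6 : ZMod ℓ) * t + (b8 : ZMod ℓ) = 0 := by
  have hℓ : ℓ.Prime := Fact.out
  set m : ℤ := x.num with hm
  set n : ℕ := x.den with hn
  have hn0 : (n : ℚ) ≠ 0 := by exact_mod_cast x.den_nz
  have hxmn : x = (m : ℚ) / (n : ℚ) := (Rat.num_div_den x).symm
  -- the integer relation
  have hZ : 3 * m ^ 4 + b2 * m ^ 3 * n + 3 * b4 * m ^ 2 * (n : ℤ) ^ 2 + 3 * b6 * m * (n : ℤ) ^ 3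
      + b8 * (n : ℤ) ^ 4 = 0 := by
    have h1 : ((3 * m ^ 4 + b2 * m ^ 3 * n + 3 * b4 * m ^ 2 * (n : ℤ) ^ 2
        + 3 * b6 * m * (n : ℤ) ^ 3 + b8 * (n : ℤ) ^ 4 : ℤ) : ℚ) = 0 := by
      push_cast
      have h2 : (3 * x ^ 4 + (b2 : ℚ) * x ^ 3 + 3 * (b4 : ℚ) * x ^ 2 + 3 * (b6 : ℚ) * x + (b8 : ℚ))
          * (n : ℚ) ^ 4 = 0 := by rw [hx, zero_mul]
      rw [hxmn] at h2
      rw [← h2]
      field_simp
    exact_mod_cast h1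
  -- `ℓ ∤ n`
  have hcop : Nat.Coprime m.natAbs n := x.reduced
  have hndvd : ¬ (ℓ : ℤ) ∣ (n : ℤ) := by
    intro hdvd
    have h3m : (ℓ : ℤ) ∣ 3 * m ^ 4 := by
      have : 3 * m ^ 4 = -((n : ℤ) * (b2 * m ^ 3 + 3 * b4 * m ^ 2 * (n : ℤ) + 3 * b6 * m * (n : ℤ) ^ 2
          + b8 * (n : ℤ) ^ 3)) := by linear_combination hZ
      rw [this, dvd_neg]
      exact Dvd.dvd.mul_right hdvd _
    have hpZ : Prime (ℓ : ℤ) := Nat.prime_iff_prime_int.mp hℓ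
    rcases hpZ.dvd_or_dvd h3m with h3 | hm4
    · have : (ℓ : ℤ) ∣ ((3 : ℕ) : ℤ) := by exact_mod_cast h3
      have h3' : ℓ ∣ 3 := Int.natCast_dvd_natCast.mp this
      exact hℓ3 ((Nat.prime_dvd_prime_iff_eq hℓ Nat.prime_three).mp h3')
    · have hmd : (ℓ : ℤ) ∣ m := hpZ.dvd_of_dvd_pow hm4
      have h1 : ℓ ∣ m.natAbs := Int.natCast_dvd.mp hmd
      have h2 : ℓ ∣ n := Int.natCast_dvd_natCast.mp hdvd
      have := Nat.dvd_gcd h1 h2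
      rw [hcop.gcd_eq_one] at this
      exact hℓ.one_lt.ne' (Nat.dvd_one.mp this)
  have hnz : ((n : ℤ) : ZMod ℓ) ≠ 0 := by
    rw [Ne, ZMod.intCast_zmod_eq_zero_iff_dvd]
    exact hndvd
  refine ⟨(m : ZMod ℓ) * ((n : ℤ) : ZMod ℓ)⁻¹, ?_⟩
  have hZ' := congrArg (Int.cast : ℤ → ZMod ℓ) hZ
  push_cast at hZ'
  have hn4 : (((n : ℤ) : ZMod ℓ)) ^ 4 ≠ 0 := pow_ne_zero 4 hnz
  apply mul_right_cancel₀ hn4
  rw [zero_mul]
  push_cast at hnz ⊢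
  rw [← hZ']
  field_simp

/-- **Q6a**: if `ψ₃` of the integral model `W` has no root in `ZMod ℓ` for one prime `ℓ ≠ 3`, then
`W.ModRepIsIrreducible 3`. -/
theorem modRepIsIrreducible_three_of_no_root (W : WeierstrassCurve ℤ) (hΔ : W.Δ ≠ 0)
    (ℓ : ℕ) [Fact ℓ.Prime] (hℓ3 : ℓ ≠ 3)
    (hroot : ∀ t : ZMod ℓ, 3 * t ^ 4 + (W.b₂ : ZMod ℓ) * t ^ 3 + 3 * (W.b₄ : ZMod ℓ) * t ^ 2
      + 3 * (W.b₆ : ZMod ℓ) * t + (W.b₈ : ZMod ℓ) ≠ 0) :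
    W.ModRepIsIrreducible 3 := by
  by_contra h
  have hΔ' : (W.map (Int.castRingHom ℚ)).Δ ≠ 0 := by
    rw [WeierstrassCurve.map_Δ]
    exact fun h0 => hΔ ((map_eq_zero_iff _ (Int.castRingHom ℚ).injective_int).mp h0)
  obtain ⟨x, hx⟩ := Fermat.Agent.S51.Torsion.exists_rat_root_psi3_of_torsOK W
    (Fermat.Agent.S51_helper44.tors_facts_three _ hΔ') h
  obtain ⟨t, ht⟩ := exists_root_zmod_of_rat_root W.b₂ W.b₄ W.b₆ W.b₈ x hx ℓ hℓ3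
  exact hroot t ht

end Fermat.Agent.G35.Irr3
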