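/-
GATE-Q (S52) / node Q6a, `c₄`/`c₆` form (helper37).

`g(t) := t⁴ - 6 c₄ t² - 8 c₆ t - 3 c₄²` satisfies `g(12 x + b₂) = 6912 ψ₃(x)` (ring identity), so a root of
`ψ₃` mod `ℓ` gives a root of `g` mod `ℓ`; `g` only depends on `c₄, c₆ mod ℓ`.

* `modRepIsIrreducible_three_of_no_root_c4c6` : `g` root-free in `ZMod ℓ` (`ℓ ≠ 3`) ⟹ `W.ModRepIsIrreducible 3`;
* `modRepIsIrreducible_three_of_congr` : the same with `c₄(W) ≡ c`, `c₆(W) ≡ d mod ℓ` for given `c d : ZMod ℓ`.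
-/
import Fermat.Agent.G35.Irr3.PsiThree

set_option autoImplicit false

namespace Fermat.Agent.G35.Irr3

open WeierstrassCurve

/-- the resolvent quartic of the 3-torsion in terms of `c₄`, `c₆` -/
def g3 {R : Type*} [CommRing R] (c d t : R) : R := t ^ 4 - 6 * c * t ^ 2 - 8 * d * t - 3 * c ^ 2

/-- `g3 c₄ c₆ (12 x + b₂) = 6912 ψ₃(x)` -/
theorem g3_eq {R : Type*} [CommRing R] (W : WeierstrassCurve R) (x : R) :
    g3 W.c₄ W.c₆ (12 * x + W.b₂)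
      = 6912 * (3 * x ^ 4 + W.b₂ * x ^ 3 + 3 * W.b₄ * x ^ 2 + 3 * W.b₆ * x + W.b₈) := by
  simp only [g3, WeierstrassCurve.c₄, WeierstrassCurve.c₆, WeierstrassCurve.b₂, WeierstrassCurve.b₄,
    WeierstrassCurve.b₆, WeierstrassCurve.b₈]
  ring

/-- **Q6a, `c₄/c₆` form** -/
theorem modRepIsIrreducible_three_of_no_root_c4c6 (W : WeierstrassCurve ℤ) (hΔ : W.Δ ≠ 0)
    (ℓ : ℕ) [Fact ℓ.Prime] (hℓ3 : ℓ ≠ 3)
    (hroot : ∀ t : ZMod ℓ, g3 (W.c₄ : ZMod ℓ) (W.c₆ : ZMod ℓ) t ≠ 0) :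
    W.ModRepIsIrreducible 3 := by
  refine modRepIsIrreducible_three_of_no_root W hΔ ℓ hℓ3 (fun x hx => ?_)
  have h := g3_eq (W.map (Int.castRingHom (ZMod ℓ))) x
  simp only [WeierstrassCurve.map_c₄, WeierstrassCurve.map_c₆, WeierstrassCurve.map_b₂,
    WeierstrassCurve.map_b₄, WeierstrassCurve.map_b₆, WeierstrassCurve.map_b₈, eq_intCast] at h
  rw [hx, mul_zero] at h
  exact hroot _ h

/-- **Q6a, congruence form**: only `c₄(W), c₆(W) mod ℓ` matter. -/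
theorem modRepIsIrreducible_three_of_congr (W : WeierstrassCurve ℤ) (hΔ : W.Δ ≠ 0)
    (ℓ : ℕ) [Fact ℓ.Prime] (hℓ3 : ℓ ≠ 3) (c d : ZMod ℓ)
    (hc : (W.c₄ : ZMod ℓ) = c) (hd : (W.c₆ : ZMod ℓ) = d)
    (hroot : ∀ t : ZMod ℓ, g3 c d t ≠ 0) : W.ModRepIsIrreducible 3 :=
  modRepIsIrreducible_three_of_no_root_c4c6 W hΔ ℓ hℓ3 (by rw [hc, hd]; exact hroot)

/-- scaling: `g3 (λ⁴ c) (λ⁶ d) (λ² t) = λ⁸ g3 c d t` -/
theorem g3_scale {R : Type*} [CommRing R] (lam c d t : R) :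
    g3 (lam ^ 4 * c) (lam ^ 6 * d) (lam ^ 2 * t) = lam ^ 8 * g3 c d t := by
  unfold g3; ring

/-- root-freeness is invariant under the weighted scaling of `(c₄, c₆)` by a unit -/
theorem g3_no_root_scale {F : Type*} [Field F] (lam c d : F) (hlam : lam ≠ 0)
    (hroot : ∀ t : F, g3 c d t ≠ 0) : ∀ t : F, g3 (lam ^ 4 * c) (lam ^ 6 * d) t ≠ 0 := by
  intro t ht
  have h2 : lam ^ 2 ≠ 0 := pow_ne_zero 2 hlam
  have e : t = lam ^ 2 * (t / lam ^ 2) := by field_simp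
  rw [e, g3_scale] at ht
  rcases mul_eq_zero.1 ht with h | h
  · exact pow_ne_zero 8 hlam h
  · exact hroot _ h

end Fermat.Agent.G35.Irr3
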