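/-
GATE-Q (S52) / node Q6e part (E3) (helper37): Bezout certificates for
`g0 = X⁴ - 2976 X² ∓ 160064 X - 738048` (`(-4X² + 7936) g0 + (X³ - 3472 X ∓ 120048) g0' = 2¹⁰ 3⁴ 11⁵`)
in the exact shape of `Derange.no_root_zmod_of_frobenius_derangement`, and the glue
"Frobenius at `ℓ ∉ {2, 3, 11}` moving every root of `g0` ⟹ `W.ModRepIsIrreducible 3` for every
`W` with `(c₄, c₆) ≡ (λ⁴ 496, ± λ⁶ 20008)` modulo `ℓ`".
-/
import Mathlib
import Fermat.Agent.G35.Irr3.Cert11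
import Fermat.Agent.G35.Irr3.Derange
import Fermat.Agent.G35.Irr3.PsiThreeC

set_option autoImplicit false

namespace Fermat.Agent.G35.Irr3.Cert11

open Polynomial

local notation "Qb" => AlgebraicClosure ℚ

/-- the Bezout constant `2¹⁰ · 3⁴ · 11⁵` -/
def bezD : ℤ := 13358214144

theorem bezD_eq : bezD = 2 ^ 10 * 3 ^ 4 * 11 ^ 5 := by norm_num [bezD]

/-- Bezout cofactor of `g0`, `g0'` -/
noncomputable def bezA : ℤ[X] := C 7936 - C 4 * X ^ 2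

/-- Bezout cofactor of `derivative g0` -/
noncomputable def bezB : ℤ[X] := X ^ 3 - C 3472 * X - C 120048

/-- Bezout cofactor of `derivative g0'` -/
noncomputable def bezB' : ℤ[X] := X ^ 3 - C 3472 * X + C 120048

theorem derivative_g0Z : derivative g0Z = C 4 * X ^ 3 - C 5952 * X - C 160064 := by
  unfold g0Z
  simp only [derivative_sub, derivative_mul, derivative_C, derivative_X_pow, derivative_X,
    zero_mul, zero_add, mul_one]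
  simp only [Nat.cast_ofNat]
  norm_num
  ring

theorem derivative_g0Z' : derivative g0Z' = C 4 * X ^ 3 - C 5952 * X + C 160064 := by
  unfold g0Z'
  simp only [derivative_sub, derivative_add, derivative_mul, derivative_C, derivative_X_pow,
    derivative_X, zero_mul, zero_add, mul_one]
  simp only [Nat.cast_ofNat]
  norm_num
  ring

theorem g0Z_bezout : bezA * g0Z + bezB * derivative g0Z = C bezD := by
  rw [derivative_g0Z]
  unfold bezA bezB g0Z bezD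
  simp only [map_ofNat C]
  ring

theorem g0Z'_bezout : bezA * g0Z' + bezB' * derivative g0Z' = C bezD := by
  rw [derivative_g0Z']
  unfold bezA bezB' g0Z' bezD
  simp only [map_ofNat C]
  ring

theorem not_dvd_bezD {ℓ : ℕ} (hℓ : ℓ.Prime) (h2 : ℓ ≠ 2) (h3 : ℓ ≠ 3) (h11 : ℓ ≠ 11) :
    ¬ (ℓ : ℤ) ∣ bezD := by
  rw [bezD_eq]
  intro h
  have hp : Prime (ℓ : ℤ) := Nat.prime_iff_prime_int.mp hℓ
  have h' : ℓ ∣ 2 ^ 10 * 3 ^ 4 * 11 ^ 5 := by exact_mod_cast h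
  rcases (Nat.Prime.dvd_mul hℓ).1 h' with h' | h'
  · rcases (Nat.Prime.dvd_mul hℓ).1 h' with h' | h'
    · exact h2 ((Nat.prime_dvd_prime_iff_eq hℓ Nat.prime_two).1 (hℓ.dvd_of_dvd_pow h'))
    · exact h3 ((Nat.prime_dvd_prime_iff_eq hℓ Nat.prime_three).1 (hℓ.dvd_of_dvd_pow h'))
  · exact h11 ((Nat.prime_dvd_prime_iff_eq hℓ (by norm_num)).1 (hℓ.dvd_of_dvd_pow h'))

/-- **(E3)** a Frobenius at `ℓ ∉ {2, 3, 11}` moving every root of `g0` in `ℚ̄`: `g3 496 20008` has no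
root in `ZMod ℓ`. -/
theorem g3_no_root_of_frobenius_derangement {ℓ : ℕ} (hℓ : ℓ.Prime) (h2 : ℓ ≠ 2) (h3 : ℓ ≠ 3)
    (h11 : ℓ ≠ 11) (A : ValuationSubring Qb) (hA : A.LiesOverPrime ℓ)
    (φ : Qb ≃ₐ[ℚ] Qb) (hφ : A.IsFrobeniusAt φ ℓ)
    (hder : ∀ x : Qb, eval x (g0Z.map (Int.castRingHom Qb)) = 0 → φ x ≠ x) (t : ZMod ℓ) :
    g3 (496 : ZMod ℓ) (20008 : ZMod ℓ) t ≠ 0 := by
  have h := Derange.no_root_zmod_of_frobenius_derangement hℓ g0Z bezA bezB bezD g0Z_monic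
    g0Z_bezout (not_dvd_bezD hℓ h2 h3 h11) A hA φ hφ hder t
  rw [eval_g0Z] at h
  intro h0
  apply h
  rw [← h0]
  unfold g3
  ring

/-- **(E3')** the same for `g0'`, i.e. for `c₆ = -20008`. -/
theorem g3_no_root_of_frobenius_derangement' {ℓ : ℕ} (hℓ : ℓ.Prime) (h2 : ℓ ≠ 2) (h3 : ℓ ≠ 3)
    (h11 : ℓ ≠ 11) (A : ValuationSubring Qb) (hA : A.LiesOverPrime ℓ)
    (φ : Qb ≃ₐ[ℚ] Qb) (hφ : A.IsFrobeniusAt φ ℓ)
    (hder : ∀ x : Qb, eval x (g0Z'.map (Int.castRingHom Qb)) = 0 → φ x ≠ x) (t : ZMod ℓ) :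
    g3 (496 : ZMod ℓ) (-20008 : ZMod ℓ) t ≠ 0 := by
  have h := Derange.no_root_zmod_of_frobenius_derangement hℓ g0Z' bezA bezB' bezD g0Z'_monic
    g0Z'_bezout (not_dvd_bezD hℓ h2 h3 h11) A hA φ hφ hder t
  rw [eval_g0Z'] at h
  intro h0
  apply h
  rw [← h0]
  unfold g3
  ring

/-- **Q6e → Q6d glue**: a Frobenius at `ℓ ∉ {2, 3, 11}` moving every root of `g0`, and an integral
model `W` whose `(c₄, c₆)` is congruent mod `ℓ` to a unit-weighted multiple of `(496, 20008)`: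
the mod-3 representation of `W` is irreducible. -/
theorem modRepIsIrreducible_three_of_frobenius_derangement (W : WeierstrassCurve ℤ) (hΔ : W.Δ ≠ 0)
    {ℓ : ℕ} (hℓ : ℓ.Prime) (h2 : ℓ ≠ 2) (h3 : ℓ ≠ 3) (h11 : ℓ ≠ 11)
    (A : ValuationSubring Qb) (hA : A.LiesOverPrime ℓ)
    (φ : Qb ≃ₐ[ℚ] Qb) (hφ : A.IsFrobeniusAt φ ℓ)
    (hder : ∀ x : Qb, eval x (g0Z.map (Int.castRingHom Qb)) = 0 → φ x ≠ x)
    (lam : ZMod ℓ) (hlam : lam ≠ 0) (hc : (W.c₄ : ZMod ℓ) = lam ^ 4 * 496)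
    (hd : (W.c₆ : ZMod ℓ) = lam ^ 6 * 20008) : W.ModRepIsIrreducible 3 := by
  have : Fact ℓ.Prime := ⟨hℓ⟩
  exact modRepIsIrreducible_three_of_congr W hΔ ℓ h3 _ _ hc hd
    (g3_no_root_scale lam _ _ hlam
      (g3_no_root_of_frobenius_derangement hℓ h2 h3 h11 A hA φ hφ hder))

/-- the same with `c₆ ≡ -λ⁶ 20008`. -/
theorem modRepIsIrreducible_three_of_frobenius_derangement' (W : WeierstrassCurve ℤ)
    (hΔ : W.Δ ≠ 0) {ℓ : ℕ} (hℓ : ℓ.Prime) (h2 : ℓ ≠ 2) (h3 : ℓ ≠ 3) (h11 : ℓ ≠ 11)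
    (A : ValuationSubring Qb) (hA : A.LiesOverPrime ℓ)
    (φ : Qb ≃ₐ[ℚ] Qb) (hφ : A.IsFrobeniusAt φ ℓ)
    (hder : ∀ x : Qb, eval x (g0Z'.map (Int.castRingHom Qb)) = 0 → φ x ≠ x)
    (lam : ZMod ℓ) (hlam : lam ≠ 0) (hc : (W.c₄ : ZMod ℓ) = lam ^ 4 * 496)
    (hd : (W.c₆ : ZMod ℓ) = lam ^ 6 * (-20008)) : W.ModRepIsIrreducible 3 := by
  have : Fact ℓ.Prime := ⟨hℓ⟩
  exact modRepIsIrreducible_three_of_congr W hΔ ℓ h3 _ _ hc hd
    (g3_no_root_scale lam _ _ hlam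
      (g3_no_root_of_frobenius_derangement' hℓ h2 h3 h11 A hA φ hφ hder))

end Fermat.Agent.G35.Irr3.Cert11
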