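/-
GATE-Q (S52) / node Q6f (helper17; signatures of helper24 4042 / helper82 4034+4041):
**residues of Frobenius-fixed elements are rational integers**.

`A` a valuation subring of `ℚ̄` over the prime `l`, `τ` a Frobenius element at `(A, l)` (prelude
`IsFrobeniusAt`):

* `exists_int_sub_mem_nonunits` : `x ∈ A`, `τ x = x` ⟹ `∃ n : ℤ, x - n ∈ 𝔪_A`
  (`x̄ ^ l = x̄` in the residue field of characteristic `l`, so `x̄` lies in the prime field);
* `inv_intCast_mem` : integers prime to `l` are units of `A`;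
* `finite_bad_primes` : for `x ≠ 0` only finitely many primes `l` have a place `A | l` with
  `x ∉ A` or `x⁻¹ ∉ A`;
* `exists_int_matrix` : a `2 × 2` matrix `M` over `A` with `τ`-fixed entries and unit determinant is
  congruent modulo `𝔪_A` to an integer matrix `J` with `l ∤ det J`;
* `finite_bad_primes_matrix` : the finite bad set for the entries and the determinant of
  `M ∈ GL₂(ℚ̄)`.
-/
import Mathlib
import Fermat.Agent.GE.E6.FrobCoord
import Fermat.Agent.Common_helper32.FrobeniusExists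

set_option autoImplicit false

namespace Fermat.Agent.G35.Irr3.ResidueInt

open ValuationSubring Polynomial

local notation "Qb" => AlgebraicClosure ℚ
local notation "GQ" => (AlgebraicClosure ℚ ≃ₐ[ℚ] AlgebraicClosure ℚ)

/-! ### the maximal ideal as `A.nonunits` -/

theorem add_mem_nonunits {A : ValuationSubring Qb} {x y : Qb} (hx : x ∈ A.nonunits)
    (hy : y ∈ A.nonunits) : x + y ∈ A.nonunits := by
  rw [A.mem_nonunits_iff] at hx hy ⊢
  exact Valuation.map_add_lt _ hx hy

theorem neg_mem_nonunits {A : ValuationSubring Qb} {x : Qb} (hx : x ∈ A.nonunits) :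
    -x ∈ A.nonunits := by
  rw [A.mem_nonunits_iff] at hx ⊢
  rwa [Valuation.map_neg]

theorem sub_mem_nonunits {A : ValuationSubring Qb} {x y : Qb} (hx : x ∈ A.nonunits)
    (hy : y ∈ A.nonunits) : x - y ∈ A.nonunits := by
  rw [sub_eq_add_neg]
  exact add_mem_nonunits hx (neg_mem_nonunits hy)

theorem mul_mem_nonunits_left {A : ValuationSubring Qb} {x y : Qb} (hx : x ∈ A)
    (hy : y ∈ A.nonunits) : x * y ∈ A.nonunits := by
  rw [A.mem_nonunits_iff] at hy ⊢
  rw [map_mul]
  have hx' : A.valuation x ≤ 1 := (A.valuation_le_one_iff x).2 hx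
  calc A.valuation x * A.valuation y ≤ 1 * A.valuation y := by gcongr
    _ = A.valuation y := one_mul _
    _ < 1 := hy

theorem mul_mem_nonunits_right {A : ValuationSubring Qb} {x y : Qb} (hx : x ∈ A.nonunits)
    (hy : y ∈ A) : x * y ∈ A.nonunits := by
  rw [mul_comm]
  exact mul_mem_nonunits_left hy hx

theorem one_not_mem_nonunits (A : ValuationSubring Qb) : (1 : Qb) ∉ A.nonunits := by
  rw [A.mem_nonunits_iff, map_one]
  exact lt_irrefl _

theorem intCast_mem (A : ValuationSubring Qb) (n : ℤ) : (n : Qb) ∈ A :=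
  _root_.intCast_mem A n

/-- integers prime to `l` are units of `A | l` -/
theorem intCast_not_mem_nonunits {A : ValuationSubring Qb} {l : ℕ} (hl : l.Prime)
    (hA : A.LiesOverPrime l) {n : ℤ} (hn : ¬ (l : ℤ) ∣ n) : (n : Qb) ∉ A.nonunits := by
  intro hmem
  have hcop : IsCoprime n (l : ℤ) :=
    ((Nat.prime_iff_prime_int.1 hl).coprime_iff_not_dvd.2 hn).symm
  obtain ⟨u, v, huv⟩ := hcop
  have h1 : (u : Qb) * n + v * (l : ℕ) = 1 := by
    have := congrArg (fun z : ℤ => (z : Qb)) huv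
    push_cast at this ⊢
    exact this
  have h2 : (u : Qb) * n + v * (l : ℕ) ∈ A.nonunits :=
    add_mem_nonunits (mul_mem_nonunits_left (intCast_mem A u) hmem)
      (mul_mem_nonunits_left (intCast_mem A v) hA)
  rw [h1] at h2
  exact one_not_mem_nonunits A h2

theorem inv_intCast_mem {A : ValuationSubring Qb} {l : ℕ} (hl : l.Prime)
    (hA : A.LiesOverPrime l) {n : ℤ} (hn : ¬ (l : ℤ) ∣ n) : ((n : Qb))⁻¹ ∈ A := by
  have h1 := intCast_not_mem_nonunits hl hA hn
  rw [A.mem_nonunits_iff, not_lt] at h1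
  have h2 : A.valuation (n : Qb) ≤ 1 := (A.valuation_le_one_iff _).2 (intCast_mem A n)
  have h3 : A.valuation (n : Qb) = 1 := le_antisymm h2 h1
  rw [← A.valuation_le_one_iff, map_inv₀, h3, inv_one]

/-! ### (i) Frobenius-fixed elements -/

/-- **Q6f (i)**: a Frobenius-fixed element of `A` is congruent to a rational integer mod `𝔪_A`. -/
theorem exists_int_sub_mem_nonunits (A : ValuationSubring Qb) (l : ℕ) (hl : l.Prime)
    (hA : A.LiesOverPrime l) (τ : GQ) (hτ : A.IsFrobeniusAt τ l) (x : Qb) (hx : x ∈ A)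
    (hfix : τ x = x) : ∃ n : ℤ, x - n ∈ A.nonunits := by
  have : Fact l.Prime := ⟨hl⟩
  have hchar : CharP (IsLocalRing.ResidueField A) l :=
    Fermat.Agent.GE.E6.charP_residueField_of_liesOverPrime hl hA
  have h1 := Fermat.Agent.GE.E6.residue_apply_of_isFrobeniusAt hτ hx
  have h2 : (⟨τ x, Fermat.Agent.GE.E6.apply_mem_of_isFrobeniusAt hτ hx⟩ : A) = ⟨x, hx⟩ :=
    Subtype.ext hfix
  rw [h2] at h1
  have h3 : IsLocalRing.residue A ⟨x, hx⟩ ∈ (⊥ : Subfield (IsLocalRing.ResidueField A)) :=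
    (Subfield.mem_bot_iff_pow_eq_self (IsLocalRing.ResidueField A) l).2 h1.symm
  obtain ⟨n, hn⟩ := (mem_bot_iff_intCast l (IsLocalRing.ResidueField A)).1 h3
  refine ⟨n, ?_⟩
  have h4 : IsLocalRing.residue A (⟨x, hx⟩ - (n : A)) = 0 := by
    rw [map_sub, map_intCast, hn, sub_self]
  rw [IsLocalRing.residue_eq_zero_iff, ← ValuationSubring.coe_mem_nonunits_iff] at h4
  simpa using h4

/-! ### (ii) finitely many bad primes -/

/-- if `a • x` is integral and `l ∤ a` then `x ∈ A` -/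
theorem mem_of_isIntegral_smul {A : ValuationSubring Qb} {l : ℕ} (hl : l.Prime)
    (hA : A.LiesOverPrime l) {a : ℤ} {x : Qb} (hax : IsIntegral ℤ (a • x))
    (hla : ¬ (l : ℤ) ∣ a) : x ∈ A := by
  have h1 : a • x ∈ A := Fermat.Agent.Common_helper32.isIntegral_mem_valuationSubring A _ hax
  have h2 : ((a : Qb))⁻¹ ∈ A := inv_intCast_mem hl hA hla
  have ha0 : (a : Qb) ≠ 0 := by
    intro h
    apply hla
    have : a = 0 := by exact_mod_cast h
    rw [this]; exact dvd_zero _
  have h3 : x = ((a : Qb))⁻¹ * (a • x) := by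
    rw [zsmul_eq_mul, ← mul_assoc, inv_mul_cancel₀ ha0, one_mul]
  rw [h3]
  exact A.mul_mem _ _ h2 h1

/-- **Q6f (ii)**: a nonzero algebraic number is a unit at all but finitely many primes. -/
theorem finite_bad_primes (x : Qb) (_hx : x ≠ 0) :
    {l : ℕ | l.Prime ∧ ∃ A : ValuationSubring Qb, A.LiesOverPrime l ∧ (x ∉ A ∨ x⁻¹ ∉ A)}.Finite := by
  obtain ⟨a, ha0, hai⟩ :=
    (Fermat.Agent.Common_helper32.isAlgebraic_int x).exists_integral_multiple
  obtain ⟨b, hb0, hbi⟩ :=
    (Fermat.Agent.Common_helper32.isAlgebraic_int x⁻¹).exists_integral_multiple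
  have hab : (a * b).natAbs ≠ 0 := Int.natAbs_ne_zero.2 (mul_ne_zero ha0 hb0)
  refine Set.Finite.subset ((a * b).natAbs.divisors.finite_toSet) ?_
  rintro l ⟨hl, A, hA, hbad⟩
  rw [Finset.mem_coe, Nat.mem_divisors]
  refine ⟨?_, hab⟩
  rw [← Int.natCast_dvd]
  by_contra hndvd
  have hla : ¬ (l : ℤ) ∣ a := fun h => hndvd (Dvd.dvd.mul_right h b)
  have hlb : ¬ (l : ℤ) ∣ b := fun h => hndvd (Dvd.dvd.mul_left h a)
  rcases hbad with h | h
  · exact h (mem_of_isIntegral_smul hl hA hai hla)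
  · exact h (mem_of_isIntegral_smul hl hA hbi hlb)

/-! ### (iii) integer matrices -/

/-- **Q6f (iii)**: a `2 × 2` matrix over `A` with Frobenius-fixed entries and unit determinant is
congruent modulo `𝔪_A` to an integer matrix with determinant prime to `l`. -/
theorem exists_int_matrix (A : ValuationSubring Qb) (l : ℕ) (hl : l.Prime)
    (hA : A.LiesOverPrime l) (τ : GQ) (hτ : A.IsFrobeniusAt τ l)
    (M : Matrix (Fin 2) (Fin 2) Qb) (hM : ∀ i j, M i j ∈ A) (hdet : M.det ∉ A.nonunits)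
    (hfix : ∀ i j, τ (M i j) = M i j) :
    ∃ J : Matrix (Fin 2) (Fin 2) ℤ, ¬ (l : ℤ) ∣ J.det ∧ ∀ i j, M i j - (J i j : Qb) ∈ A.nonunits := by
  choose J hJ using fun i j =>
    exists_int_sub_mem_nonunits A l hl hA τ hτ (M i j) (hM i j) (hfix i j)
  refine ⟨Matrix.of J, ?_, fun i j => by simpa using hJ i j⟩
  intro hdvd
  apply hdet
  -- `det M = (det M - det J) + det J`
  have hJA : ∀ i j, (J i j : Qb) ∈ A := fun i j => intCast_mem A _
  have hdetJ : (((Matrix.of J).det : ℤ) : Qb) ∈ A.nonunits := by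
    obtain ⟨c, hc⟩ := hdvd
    rw [hc]
    push_cast
    exact mul_mem_nonunits_right hA (intCast_mem A c)
  have hdiff : M.det - (((Matrix.of J).det : ℤ) : Qb) ∈ A.nonunits := by
    rw [Matrix.det_fin_two, Matrix.det_fin_two]
    simp only [Matrix.of_apply]
    push_cast
    have e : M 0 0 * M 1 1 - M 0 1 * M 1 0 - ((J 0 0 : Qb) * (J 1 1 : Qb) - (J 0 1 : Qb) * (J 1 0 : Qb))
        = (M 0 0 - J 0 0) * M 1 1 + (J 0 0 : Qb) * (M 1 1 - J 1 1)
          - ((M 0 1 - J 0 1) * M 1 0 + (J 0 1 : Qb) * (M 1 0 - J 1 0)) := by ring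
    rw [e]
    refine sub_mem_nonunits (add_mem_nonunits ?_ ?_) (add_mem_nonunits ?_ ?_)
    · exact mul_mem_nonunits_right (hJ 0 0) (hM 1 1)
    · exact mul_mem_nonunits_left (hJA 0 0) (hJ 1 1)
    · exact mul_mem_nonunits_right (hJ 0 1) (hM 1 0)
    · exact mul_mem_nonunits_left (hJA 0 1) (hJ 1 0)
  have : M.det = (M.det - (((Matrix.of J).det : ℤ) : Qb)) + (((Matrix.of J).det : ℤ) : Qb) := by ring
  rw [this]
  exact add_mem_nonunits hdiff hdetJ

/-- the bad primes of `M ∈ GL₂(ℚ̄)`: outside this finite set every place `A | l` contains the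
entries of `M` and `det M` is a unit of `A`. -/
theorem finite_bad_primes_matrix (M : GL (Fin 2) Qb) :
    {l : ℕ | l.Prime ∧ ∃ A : ValuationSubring Qb, A.LiesOverPrime l ∧
      ((∃ i j, (M : Matrix (Fin 2) (Fin 2) Qb) i j ∉ A) ∨
        (M : Matrix (Fin 2) (Fin 2) Qb).det ∈ A.nonunits)}.Finite := by
  classical
  have hdet0 : (M : Matrix (Fin 2) (Fin 2) Qb).det ≠ 0 := by
    have := M.isUnit.map (Matrix.detMonoidHom)
    simpa using this.ne_zero
  -- the bad set of each nonzero entry and of the determinant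
  let bad : Qb → Set ℕ := fun x =>
    {l : ℕ | l.Prime ∧ ∃ A : ValuationSubring Qb, A.LiesOverPrime l ∧ (x ∉ A ∨ x⁻¹ ∉ A)}
  have hfin : (bad (M : Matrix (Fin 2) (Fin 2) Qb).det ∪
      ⋃ i : Fin 2, ⋃ j : Fin 2,
        (if (M : Matrix (Fin 2) (Fin 2) Qb) i j = 0 then ∅
          else bad ((M : Matrix (Fin 2) (Fin 2) Qb) i j))).Finite := by
    refine Set.Finite.union (finite_bad_primes _ hdet0) ?_
    refine Set.finite_iUnion fun i => Set.finite_iUnion fun j => ?_
    split_ifs with h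
    · exact Set.finite_empty
    · exact finite_bad_primes _ h
  refine hfin.subset ?_
  rintro l ⟨hl, A, hA, hbad⟩
  rcases hbad with ⟨i, j, hij⟩ | hd
  · refine Or.inr (Set.mem_iUnion.2 ⟨i, Set.mem_iUnion.2 ⟨j, ?_⟩⟩)
    have h0 : (M : Matrix (Fin 2) (Fin 2) Qb) i j ≠ 0 := by
      intro h
      rw [h] at hij
      exact hij A.zero_mem
    rw [if_neg h0]
    exact ⟨hl, A, hA, Or.inl hij⟩
  · refine Or.inl ⟨hl, A, hA, Or.inr ?_⟩
    intro hinv
    rw [A.mem_nonunits_iff] at hd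
    have h1 : A.valuation ((M : Matrix (Fin 2) (Fin 2) Qb).det)⁻¹ ≤ 1 :=
      (A.valuation_le_one_iff _).2 hinv
    rw [map_inv₀] at h1
    have hv0 : A.valuation (M : Matrix (Fin 2) (Fin 2) Qb).det ≠ 0 :=
      (Valuation.ne_zero_iff _).2 hdet0
    have h2 : 1 ≤ A.valuation (M : Matrix (Fin 2) (Fin 2) Qb).det := by
      rwa [inv_le_one₀ (zero_lt_iff.2 hv0)] at h1
    exact absurd hd (not_lt.2 h2)

end Fermat.Agent.G35.Irr3.ResidueInt
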