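/-
GATE-Q (S52) / node Q6d, part T2b = MEMBER SELECTION + ASSEMBLY (helper82), `ι`-free hypothesis form.

Input (all produced by Q4's contract T1, helper23 board 4123, with `w1 := ι ![0,1]`):
`ζ`, `w0 w1 : Fin 2 → ℚ̄` linearly independent, `f4 f6 ∈ ℚ[X]` coprime with
`c4 (w0 + t w1) = f4 t`, `T6 (w0 + t w1) = - f6 t` (`t ∈ ℚ`), `(f4 0, f6 0) = (c₄ W, c₆ W)`,
`(I2)` `ρ w0 = w0 ⟹ ρ w1 = w1`, `(I3)`, `(I4)` (see `PrimeSel`), and `(cong)`: every integral model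
`W'` with `Δ ≠ 0` and `(c₄, c₆)(W') = (f4 t, f6 t)` is `5`-congruent to `W`.

Output (`exists_member_irr3`): a semistable `W'`, `Δ(W') ≠ 0`, `ρ̄_{W',3}` irreducible, `5`-congruent
to `W` — i.e. the `hfam` of `TopTN.s52_of_familyTN`.

Proof: `M` from Q5 (`Integral.exists_semistable_member`); `ℓ ∉ {2,3,11} ∪ primes(M) ∪ bad(w0|w1)`
from `PrimeSel.exists_prime_split_derange_g0Z`; a place `A | ℓ` with Frobenius `τ`; `τ` fixes the
entries of `(w0 | w1)`, so they are congruent mod `𝔪_A` to an integer matrix `J`, `ℓ ∤ det J`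
(`ResidueInt.exists_int_matrix`); since `(1,1)` and `(1,-1)` both lie on the Klein fibre of `11a`
(`c4 = 496`, `T6 = -20008`) there is ALWAYS a finite `t₀` with `J (1,t₀)ᵀ ≡ λ (1, ±1)`, `ℓ ∤ λ`
(`exists_param`); take `t = M b ≡ t₀ mod ℓ` off the zeros of `f4³ - f6²`; then
`c₄(W') ≡ λ²⁰·496`, `c₆(W') ≡ λ³⁰·20008 mod ℓ` and
`Cert11Bez.modRepIsIrreducible_three_of_frobenius_derangement` applies.
NEW file; imports only.
-/
import Fermat.Agent.G35.Irr3.PrimeSel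
import Fermat.Agent.G35.Irr3.ResidueInt
import Fermat.Agent.G35.Irr3.Cert11Bez
import Fermat.Agent.G35.Integral
import Fermat.Agent.G35.Free

set_option autoImplicit false

open Fermat.Agent.Common_helper32
open scoped WeierstrassCurve.Affine

namespace Fermat.Agent.G35.Irr3.MemberSel

open Polynomial Fermat.Agent.G35 Fermat.Agent.GE.ECAssembly

/-! ### Mathlib-level lemmas -/


theorem map_c4' {R S : Type*} [CommRing R] [CommRing S] (φ : R →+* S) (u v : R) :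
    φ (Free.c4 u v) = Free.c4 (φ u) (φ v) := by
  simp only [Free.c4, map_add, map_sub, map_mul, map_pow, map_ofNat]

theorem map_T6' {R S : Type*} [CommRing R] [CommRing S] (φ : R →+* S) (u v : R) :
    φ (Free.T6 u v) = Free.T6 (φ u) (φ v) := by
  simp only [Free.T6, map_add, map_sub, map_mul, map_pow, map_ofNat]

/-- congruence of the Klein forms modulo the maximal ideal of a valuation subring -/
theorem forms_sub_mem_nonunits {K : Type*} [Field K] (A : ValuationSubring K) {u v u' v' : K}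
    (hu : u ∈ A) (hv : v ∈ A) (hu' : u' ∈ A) (hv' : v' ∈ A) (h1 : u - u' ∈ A.nonunits)
    (h2 : v - v' ∈ A.nonunits) :
    Free.c4 u v - Free.c4 u' v' ∈ A.nonunits ∧ Free.T6 u v - Free.T6 u' v' ∈ A.nonunits := by
  have e1 : IsLocalRing.residue A ⟨u, hu⟩ = IsLocalRing.residue A ⟨u', hu'⟩ := by
    rw [← sub_eq_zero, ← map_sub, IsLocalRing.residue_eq_zero_iff,
      ← ValuationSubring.coe_mem_nonunits_iff]
    exact h1
  have e2 : IsLocalRing.residue A ⟨v, hv⟩ = IsLocalRing.residue A ⟨v', hv'⟩ := by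
    rw [← sub_eq_zero, ← map_sub, IsLocalRing.residue_eq_zero_iff,
      ← ValuationSubring.coe_mem_nonunits_iff]
    exact h2
  constructor
  · have h : IsLocalRing.residue A
        (Free.c4 (⟨u, hu⟩ : A) ⟨v, hv⟩ - Free.c4 (⟨u', hu'⟩ : A) ⟨v', hv'⟩) = 0 := by
      rw [map_sub, map_c4', map_c4', e1, e2, sub_self]
    rw [IsLocalRing.residue_eq_zero_iff, ← ValuationSubring.coe_mem_nonunits_iff] at h
    have e : ((Free.c4 (⟨u, hu⟩ : A) ⟨v, hv⟩ - Free.c4 (⟨u', hu'⟩ : A) ⟨v', hv'⟩ : A) : K)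
        = Free.c4 u v - Free.c4 u' v' := by
      have := map_c4' A.subtype (⟨u, hu⟩ : A) ⟨v, hv⟩
      have := map_c4' A.subtype (⟨u', hu'⟩ : A) ⟨v', hv'⟩
      simp_all
    rwa [e] at h
  · have h : IsLocalRing.residue A
        (Free.T6 (⟨u, hu⟩ : A) ⟨v, hv⟩ - Free.T6 (⟨u', hu'⟩ : A) ⟨v', hv'⟩) = 0 := by
      rw [map_sub, map_T6', map_T6', e1, e2, sub_self]
    rw [IsLocalRing.residue_eq_zero_iff, ← ValuationSubring.coe_mem_nonunits_iff] at h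
    have e : ((Free.T6 (⟨u, hu⟩ : A) ⟨v, hv⟩ - Free.T6 (⟨u', hu'⟩ : A) ⟨v', hv'⟩ : A) : K)
        = Free.T6 u v - Free.T6 u' v' := by
      have := map_T6' A.subtype (⟨u, hu⟩ : A) ⟨v, hv⟩
      have := map_T6' A.subtype (⟨u', hu'⟩ : A) ⟨v', hv'⟩
      simp_all
    rwa [e] at h

/-- values of the forms at `(λ, ελ)`, `ε = ±1` -/
theorem c4_diag {R : Type*} [CommRing R] (l e : R) (he : e = 1 ∨ e = -1) :
    Free.c4 l (e * l) = l ^ 20 * 496 ∧ Free.T6 l (e * l) = -(l ^ 30 * 20008) := by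
  rcases he with rfl | rfl
  · constructor <;> · simp only [Free.c4, Free.T6]; ring
  · constructor <;> · simp only [Free.c4, Free.T6]; ring

/-- the arithmetic core: hitting the direction `(1, ±1)` on the line `(a,b) + t (c,d)` mod `ℓ` -/
theorem exists_param {ℓ : ℕ} (hℓ : ℓ.Prime) (h2 : ℓ ≠ 2) (a b c d : ℤ)
    (hdet : ¬ (ℓ : ℤ) ∣ a * d - b * c) :
    ∃ t e : ℤ, (e = 1 ∨ e = -1) ∧ (ℓ : ℤ) ∣ (b + d * t) - e * (a + c * t) ∧
      ¬ (ℓ : ℤ) ∣ a + c * t := by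
  have : Fact ℓ.Prime := ⟨hℓ⟩
  have hdet' : ((a : ZMod ℓ)) * d - b * c ≠ 0 := by
    intro h
    apply hdet
    rw [← ZMod.intCast_zmod_eq_zero_iff_dvd]
    push_cast
    exact h
  have h2' : (2 : ZMod ℓ) ≠ 0 := by
    intro h
    have : ((2 : ℕ) : ZMod ℓ) = 0 := by exact_mod_cast h
    rw [ZMod.natCast_eq_zero_iff] at this
    exact h2 ((Nat.prime_dvd_prime_iff_eq hℓ Nat.prime_two).mp this)
  -- solve in the field `ZMod ℓ`
  have key : ∃ (t : ZMod ℓ) (e : ℤ), (e = 1 ∨ e = -1) ∧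
      ((b : ZMod ℓ) + d * t) - e * (a + c * t) = 0 ∧ (a : ZMod ℓ) + c * t ≠ 0 := by
    by_cases hdc : (d : ZMod ℓ) - c = 0
    · -- `d = c`, use `e = -1`
      have hc0 : (c : ZMod ℓ) ≠ 0 := by
        intro hc
        apply hdet'
        have hd : (d : ZMod ℓ) = 0 := by rw [← sub_eq_zero.mp hdc] at hc; exact hc
        rw [hc, hd]; ring
      have h2c : (2 : ZMod ℓ) * c ≠ 0 := mul_ne_zero h2' hc0
      refine ⟨-((a : ZMod ℓ) + b) / (2 * c), -1, Or.inr rfl, ?_, ?_⟩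
      · have hd : (d : ZMod ℓ) = c := sub_eq_zero.mp hdc
        rw [hd]
        push_cast
        field_simp
        ring
      · intro h0
        apply hdet'
        have hd : (d : ZMod ℓ) = c := sub_eq_zero.mp hdc
        rw [hd]
        have : (a : ZMod ℓ) * (2 * c) + c * (-((a : ZMod ℓ) + b)) = 0 := by
          have := congrArg (fun z => z * (2 * (c : ZMod ℓ))) h0
          simp only [zero_mul, add_mul] at this
          rw [mul_assoc, div_mul_cancel₀ _ h2c] at this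
          exact this
        have h3 : (c : ZMod ℓ) * ((a : ZMod ℓ) - b) = 0 := by linear_combination this
        rcases mul_eq_zero.mp h3 with h | h
        · exact absurd h hc0
        · linear_combination (c : ZMod ℓ) * h
    · refine ⟨((a : ZMod ℓ) - b) / (d - c), 1, Or.inl rfl, ?_, ?_⟩
      · push_cast
        field_simp
        ring
      · intro h0
        apply hdet'
        have h1 : (a : ZMod ℓ) * (d - c) + c * (a - b) = 0 := by
          have := congrArg (fun z => z * ((d : ZMod ℓ) - c)) h0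
          simp only [zero_mul, add_mul] at this
          rw [mul_assoc, div_mul_cancel₀ _ hdc] at this
          exact this
        linear_combination h1
  obtain ⟨t, e, he, h1, h3⟩ := key
  obtain ⟨t₀, rfl⟩ := ZMod.intCast_surjective t
  refine ⟨t₀, e, he, ?_, ?_⟩
  · rw [← ZMod.intCast_zmod_eq_zero_iff_dvd]
    push_cast
    exact h1
  · intro h
    apply h3
    rw [← ZMod.intCast_zmod_eq_zero_iff_dvd] at h
    push_cast at h
    exact h

/-- a nonzero rational polynomial is nonzero somewhere on every arithmetic progression `M (b₀ + ℓ k)` -/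
theorem exists_eval_ne_zero (P : ℚ[X]) (hP : P ≠ 0) (M : ℤ) (hM : M ≠ 0) (ℓ : ℕ) (hℓ : ℓ ≠ 0)
    (b₀ : ℤ) : ∃ k : ℕ, P.eval (((M * (b₀ + ℓ * k) : ℤ)) : ℚ) ≠ 0 := by
  by_contra hcon
  push Not at hcon
  apply hP
  apply Polynomial.eq_zero_of_infinite_isRoot
  have hinj : Function.Injective (fun k : ℕ => (((M * (b₀ + ℓ * k) : ℤ)) : ℚ)) := by
    intro k k' h
    simp only at h
    have h' : M * (b₀ + ℓ * k) = M * (b₀ + ℓ * k') := by exact_mod_cast h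
    have h'' := mul_left_cancel₀ hM h'
    have h3 : (ℓ : ℤ) * k = ℓ * k' := by linarith
    have h4 := mul_left_cancel₀ (by exact_mod_cast hℓ : (ℓ : ℤ) ≠ 0) h3
    exact_mod_cast h4
  refine Set.infinite_of_injective_forall_mem hinj (fun k => ?_)
  exact hcon k

/-! ### the assembly -/

/-- **T2b (member selection) + assembly of Q6d, `ι`-free form.** -/
theorem exists_member_irr3 (W : WeierstrassCurve ℤ) (hΔ : W.Δ ≠ 0) (hW : W.IsSemistableModel)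
    (ζ : Qb) (hζ : ζ ^ 4 + ζ ^ 3 + ζ ^ 2 + ζ + 1 = 0) (w0 w1 : Fin 2 → Qb)
    (hli : LinearIndependent Qb ![w0, w1]) (f4 f6 : ℚ[X])
    (hfam : ∀ t : ℚ,
      Free.c4 (w0 0 + (t : Qb) * w1 0) (w0 1 + (t : Qb) * w1 1) = ((f4.eval t : ℚ) : Qb) ∧
      Free.T6 (w0 0 + (t : Qb) * w1 0) (w0 1 + (t : Qb) * w1 1) = -((f6.eval t : ℚ) : Qb))
    (h40 : f4.eval 0 = W.c₄) (h60 : f6.eval 0 = W.c₆) (hcop : IsCoprime f4 f6)
    (I2 : ∀ ρ : GQ, (∀ i, ρ (w0 i) = w0 i) → ∀ i, ρ (w1 i) = w1 i)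
    (I3 : ∀ ρ : GQ, ρ ζ = ζ → (∀ P : TN W 5, ρ • P = P) →
      ∃ k : ℕ, ∀ i, ρ (w0 i) = ζ ^ k * w0 i)
    (I4 : ∀ ρ σ : GQ, ρ ζ = ζ → (∀ i, ρ (w0 i) = w0 i) → ∀ i, ρ (σ (w0 i)) = σ (w0 i))
    (C : WeierstrassCurve ℤ → Prop)
    (cong : ∀ t : ℚ, ∀ W' : WeierstrassCurve ℤ, W'.Δ ≠ 0 → ((W'.c₄ : ℤ) : ℚ) = f4.eval t →
      ((W'.c₆ : ℤ) : ℚ) = f6.eval t → C W') :
    ∃ W' : WeierstrassCurve ℤ, W'.Δ ≠ 0 ∧ W'.IsSemistableModel ∧ W'.ModRepIsIrreducible 3 ∧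
      C W' := by
  classical
  -- Q5: the modulus `M`
  obtain ⟨M, hM0, -, hmem⟩ :=
    Integral.exists_semistable_member W hW f4 f6 h40 h60 hcop 1 one_ne_zero
  -- the matrix with rows `w0`, `w1`
  set Mw : Matrix (Fin 2) (Fin 2) Qb := Matrix.of ![w0, w1] with hMw
  have hMw0 : ∀ j, Mw 0 j = w0 j := fun j => rfl
  have hMw1 : ∀ j, Mw 1 j = w1 j := fun j => rfl
  have hdet : Mw.det ≠ 0 := by
    have h1 : LinearIndependent Qb Mw.row := by
      have : Mw.row = ![w0, w1] := by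
        funext i
        fin_cases i <;> rfl
      rw [this]
      exact hli
    have h2 := (Matrix.linearIndependent_rows_iff_isUnit).mp h1
    exact ((Matrix.isUnit_iff_isUnit_det _).mp h2).ne_zero
  have hbadfin := ResidueInt.finite_bad_primes_matrix
    (Matrix.GeneralLinearGroup.mkOfDetNeZero Mw hdet)
  -- the prime `ℓ`
  obtain ⟨ℓ, hℓ, hℓB, hfrob⟩ := PrimeSel.exists_prime_split_derange_g0Z W hΔ hW ζ hζ w0 I3 I4
    (({2, 3, 11} : Finset ℕ) ∪ M.natAbs.primeFactors ∪ hbadfin.toFinset)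
  simp only [Finset.mem_union, not_or] at hℓB
  obtain ⟨⟨hℓS, hℓM'⟩, hℓbad⟩ := hℓB
  have hℓ2 : ℓ ≠ 2 := by
    rintro rfl
    exact hℓS (by simp)
  have hℓ3 : ℓ ≠ 3 := by
    rintro rfl
    exact hℓS (by simp)
  have hℓ11 : ℓ ≠ 11 := by
    rintro rfl
    exact hℓS (by simp)
  have hℓM : ¬ (ℓ : ℤ) ∣ M := by
    intro h
    apply hℓM'
    rw [Nat.mem_primeFactors]
    exact ⟨hℓ, Int.natCast_dvd.mp h, by simpa using hM0⟩
  -- a place over `ℓ` with its Frobenius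
  obtain ⟨A, τ, hA, hτ⟩ := exists_isFrobeniusAt ℓ hℓ
  obtain ⟨-, hτw0, hder⟩ := hfrob A τ hA hτ
  have hτw1 := I2 τ hτw0
  have hnotbad : ¬ ((∃ i j, Mw i j ∉ A) ∨ Mw.det ∈ A.nonunits) := by
    intro h
    apply hℓbad
    rw [Set.Finite.mem_toFinset]
    exact ⟨hℓ, A, hA, h⟩
  rw [not_or] at hnotbad
  obtain ⟨hMA', hdetA⟩ := hnotbad
  have hMA : ∀ i j, Mw i j ∈ A := by
    intro i j
    by_contra h
    exact hMA' ⟨i, j, h⟩
  have hfix : ∀ i j, τ (Mw i j) = Mw i j := by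
    intro i j
    fin_cases i
    · exact hτw0 j
    · exact hτw1 j
  obtain ⟨J, hJdet, hJ⟩ := ResidueInt.exists_int_matrix A ℓ hℓ hA τ hτ Mw hMA hdetA hfix
  rw [Matrix.det_fin_two] at hJdet
  -- the target parameter mod `ℓ`
  obtain ⟨t₀, e, he, hdiv, hlam⟩ :=
    exists_param hℓ hℓ2 (J 0 0) (J 0 1) (J 1 0) (J 1 1) hJdet
  -- `b₀` with `M b₀ ≡ t₀`
  have : Fact ℓ.Prime := ⟨hℓ⟩
  obtain ⟨b₀, hb₀⟩ : ∃ b₀ : ℤ, (ℓ : ℤ) ∣ M * b₀ - t₀ := by
    have hMz : (M : ZMod ℓ) ≠ 0 := by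
      intro h
      exact hℓM ((ZMod.intCast_zmod_eq_zero_iff_dvd M ℓ).mp h)
    obtain ⟨b₀, hb₀⟩ := ZMod.intCast_surjective ((t₀ : ZMod ℓ) / (M : ZMod ℓ))
    refine ⟨b₀, ?_⟩
    rw [← ZMod.intCast_zmod_eq_zero_iff_dvd]
    push_cast
    rw [hb₀, mul_div_cancel₀ _ hMz, sub_self]
  -- avoid the zeros of `f4³ - f6²`
  have hP : f4 ^ 3 - f6 ^ 2 ≠ 0 := by
    intro h
    have h0 := congrArg (Polynomial.eval 0) h
    rw [eval_sub, eval_pow, eval_pow, h40, h60, eval_zero] at h0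
    have hrel : ((W.c₄ : ℤ) : ℚ) ^ 3 - ((W.c₆ : ℤ) : ℚ) ^ 2 = ((1728 * W.Δ : ℤ) : ℚ) := by
      rw [W.c_relation]
      push_cast
      ring
    rw [hrel] at h0
    have : (1728 * W.Δ : ℤ) = 0 := by exact_mod_cast h0
    rcases mul_eq_zero.mp this with h | h
    · norm_num at h
    · exact hΔ h
  obtain ⟨k, hk⟩ := exists_eval_ne_zero (f4 ^ 3 - f6 ^ 2) hP M hM0 ℓ hℓ.ne_zero b₀
  set b : ℤ := b₀ + ℓ * k with hb
  have hne : f4.eval ((M * b : ℤ) : ℚ) ^ 3 ≠ f6.eval ((M * b : ℤ) : ℚ) ^ 2 := by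
    intro h
    apply hk
    rw [eval_sub, eval_pow, eval_pow, h, sub_self]
  obtain ⟨W', -, -, -, -, -, hc4', hc6', -, hΔ', hss'⟩ := hmem b hne
  -- the integer data at `t = M b`
  set t : ℤ := M * b with ht
  have htt₀ : (ℓ : ℤ) ∣ t - t₀ := by
    have e1 : t - t₀ = (M * b₀ - t₀) + (ℓ : ℤ) * (M * k) := by rw [ht, hb]; ring
    rw [e1]
    exact dvd_add hb₀ (dvd_mul_right _ _)
  set lamZ : ℤ := J 0 0 + J 1 0 * t with hlamZ
  set muZ : ℤ := J 0 1 + J 1 1 * t with hmuZ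
  have hlam' : ¬ (ℓ : ℤ) ∣ lamZ := by
    intro h
    apply hlam
    have e1 : J 0 0 + J 1 0 * t₀ = lamZ - J 1 0 * (t - t₀) := by rw [hlamZ]; ring
    rw [e1]
    exact dvd_sub h (Dvd.dvd.mul_left htt₀ _)
  have hmu : (ℓ : ℤ) ∣ muZ - e * lamZ := by
    have e1 : muZ - e * lamZ = ((J 0 1 + J 1 1 * t₀) - e * (J 0 0 + J 1 0 * t₀))
        + (J 1 1 - e * J 1 0) * (t - t₀) := by rw [hlamZ, hmuZ]; ring
    rw [e1]
    exact dvd_add hdiv (Dvd.dvd.mul_left htt₀ _)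
  -- the point `w0 + t w1` and its residue
  have htq : (((t : ℤ) : ℚ) : Qb) = ((t : ℤ) : Qb) := by push_cast; rfl
  obtain ⟨hF4, hF6⟩ := hfam ((t : ℤ) : ℚ)
  rw [htq] at hF4 hF6
  set u : Qb := w0 0 + ((t : ℤ) : Qb) * w1 0 with hu
  set v : Qb := w0 1 + ((t : ℤ) : Qb) * w1 1 with hv
  have hw0A : ∀ j, w0 j ∈ A := fun j => hMA 0 j
  have hw1A : ∀ j, w1 j ∈ A := fun j => hMA 1 j
  have huA : u ∈ A := A.add_mem _ _ (hw0A 0) (A.mul_mem _ _ (ResidueInt.intCast_mem A t) (hw1A 0))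
  have hvA : v ∈ A := A.add_mem _ _ (hw0A 1) (A.mul_mem _ _ (ResidueInt.intCast_mem A t) (hw1A 1))
  have hlA : ((lamZ : ℤ) : Qb) ∈ A := ResidueInt.intCast_mem A lamZ
  have helA : ((e : ℤ) : Qb) * ((lamZ : ℤ) : Qb) ∈ A :=
    A.mul_mem _ _ (ResidueInt.intCast_mem A e) hlA
  have hu' : u - ((lamZ : ℤ) : Qb) ∈ A.nonunits := by
    have e1 : u - ((lamZ : ℤ) : Qb)
        = (Mw 0 0 - ((J 0 0 : ℤ) : Qb)) + ((t : ℤ) : Qb) * (Mw 1 0 - ((J 1 0 : ℤ) : Qb)) := by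
      rw [hu, hlamZ, hMw0, hMw1]
      push_cast
      ring
    rw [e1]
    exact ResidueInt.add_mem_nonunits (hJ 0 0)
      (ResidueInt.mul_mem_nonunits_left (ResidueInt.intCast_mem A t) (hJ 1 0))
  have hv' : v - ((e : ℤ) : Qb) * ((lamZ : ℤ) : Qb) ∈ A.nonunits := by
    obtain ⟨q, hq⟩ := hmu
    have e1 : v - ((e : ℤ) : Qb) * ((lamZ : ℤ) : Qb)
        = (Mw 0 1 - ((J 0 1 : ℤ) : Qb)) + ((t : ℤ) : Qb) * (Mw 1 1 - ((J 1 1 : ℤ) : Qb))
          + ((ℓ : ℕ) : Qb) * ((q : ℤ) : Qb) := by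
      have hq' : ((muZ : ℤ) : Qb) - ((e : ℤ) : Qb) * ((lamZ : ℤ) : Qb)
          = ((ℓ : ℕ) : Qb) * ((q : ℤ) : Qb) := by
        have := congrArg (fun z : ℤ => (z : Qb)) hq
        push_cast at this
        exact this
      rw [hv, hMw0, hMw1, ← hq', hmuZ]
      push_cast
      ring
    rw [e1]
    refine ResidueInt.add_mem_nonunits (ResidueInt.add_mem_nonunits (hJ 0 1)
      (ResidueInt.mul_mem_nonunits_left (ResidueInt.intCast_mem A t) (hJ 1 1))) ?_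
    exact ResidueInt.mul_mem_nonunits_right hA (ResidueInt.intCast_mem A q)
  obtain ⟨hc4cong, hT6cong⟩ := forms_sub_mem_nonunits A huA hvA hlA helA hu' hv'
  have heQ : ((e : ℤ) : Qb) = 1 ∨ ((e : ℤ) : Qb) = -1 := by
    rcases he with rfl | rfl
    · left; simp
    · right; simp
  obtain ⟨hd4, hd6⟩ := c4_diag ((lamZ : ℤ) : Qb) ((e : ℤ) : Qb) heQ
  rw [hd4, hF4, hc4'.symm] at hc4cong
  rw [hd6, hF6, hc6'.symm] at hT6cong
  -- divisibilities
  have hdvd4 : (ℓ : ℤ) ∣ W'.c₄ - lamZ ^ 20 * 496 := by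
    apply Derange.dvd_of_intCast_mem_nonunits hℓ A hA
    have e1 : (((W'.c₄ - lamZ ^ 20 * 496 : ℤ)) : Qb)
        = (((W'.c₄ : ℤ) : ℚ) : Qb) - ((lamZ : ℤ) : Qb) ^ 20 * 496 := by
      push_cast
      ring
    rw [e1]
    exact hc4cong
  have hdvd6 : (ℓ : ℤ) ∣ W'.c₆ - lamZ ^ 30 * 20008 := by
    apply Derange.dvd_of_intCast_mem_nonunits hℓ A hA
    have e1 : (((W'.c₆ - lamZ ^ 30 * 20008 : ℤ)) : Qb)
        = -(-(((W'.c₆ : ℤ) : ℚ) : Qb) - -(((lamZ : ℤ) : Qb) ^ 30 * 20008)) := by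
      push_cast
      ring
    rw [e1]
    exact ResidueInt.neg_mem_nonunits hT6cong
  -- in `ZMod ℓ`
  have hlz : ((lamZ : ℤ) : ZMod ℓ) ≠ 0 := by
    intro h
    exact hlam' ((ZMod.intCast_zmod_eq_zero_iff_dvd lamZ ℓ).mp h)
  have hc : ((W'.c₄ : ℤ) : ZMod ℓ) = (((lamZ : ℤ) : ZMod ℓ) ^ 5) ^ 4 * 496 := by
    have := (ZMod.intCast_zmod_eq_zero_iff_dvd _ ℓ).mpr hdvd4
    push_cast at this
    linear_combination this
  have hd : ((W'.c₆ : ℤ) : ZMod ℓ) = (((lamZ : ℤ) : ZMod ℓ) ^ 5) ^ 6 * 20008 := by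
    have := (ZMod.intCast_zmod_eq_zero_iff_dvd _ ℓ).mpr hdvd6
    push_cast at this
    linear_combination this
  refine ⟨W', hΔ', hss', ?_, cong ((t : ℤ) : ℚ) W' hΔ' hc4' hc6'⟩
  exact Cert11.modRepIsIrreducible_three_of_frobenius_derangement W' hΔ' hℓ hℓ2 hℓ3 hℓ11 A hA τ hτ
    hder (((lamZ : ℤ) : ZMod ℓ) ^ 5) (pow_ne_zero 5 hlz) hc hd

end Fermat.Agent.G35.Irr3.MemberSel
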