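/-
GATE-Q (S52) / T1 → T2 → S52 adapter (helper82).

`T1Contract W` is the output contract T1 of Q4 (helper23, board 4123 D3 + amendments 4208 (2):
family under `∀ d, d 1 ≠ 0`, `(cong)` in point form), bundled as ONE proposition.
* `exists_member_of_T1` : the T1 data (unbundled, only the direction `d = ![0,1]` is used)
  ⟹ a semistable `W'`, `Δ ≠ 0`, `ρ̄_{W',3}` irreducible, `C W'` (`MemberSel.exists_member_irr3`);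
* `exists_member_of_contract` : `T1Contract W` ⟹ the `hfam` conclusion of `TopTN.s52_of_familyTN`;
* `s52_of_contract` : `(∀ W, Δ ≠ 0 → semistable → T1Contract W)` ⟹ the frozen statement S52.
NEW file; imports only.
-/
import Fermat.Agent.G35.Irr3.MemberSel

set_option autoImplicit false

open Fermat.Agent.Common_helper32
open scoped WeierstrassCurve.Affine

namespace Fermat.Agent.G35.Irr3.OfT1

open Polynomial Fermat.Agent.G35 Fermat.Agent.GE.ECAssembly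

/-- coordinates of `ι (![1,0] + t • ![0,1])` -/
theorem apply_line (ι : (Fin 2 → ℚ) →ₗ[ℚ] (Fin 2 → Qb)) (t : ℚ) (i : Fin 2) :
    ι (![1, 0] + t • ![0, 1]) i = ι ![1, 0] i + (t : Qb) * ι ![0, 1] i := by
  rw [map_add, map_smul, Pi.add_apply, Pi.smul_apply, Rat.smul_def]

/-- **T1 (unbundled, direction `![0,1]`) ⟹ the member.** -/
theorem exists_member_of_T1 (W : WeierstrassCurve ℤ) (hΔ : W.Δ ≠ 0) (hW : W.IsSemistableModel)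
    (ζ : Qb) (hζ : ζ ^ 4 + ζ ^ 3 + ζ ^ 2 + ζ + 1 = 0) (w0 : Fin 2 → Qb)
    (ι : (Fin 2 → ℚ) →ₗ[ℚ] (Fin 2 → Qb)) (hι0 : ι ![1, 0] = w0)
    (hli : LinearIndependent Qb ![ι ![1, 0], ι ![0, 1]]) (f4 f6 : ℚ[X])
    (hfam : ∀ t : ℚ,
      Free.c4 (ι (![1, 0] + t • ![0, 1]) 0) (ι (![1, 0] + t • ![0, 1]) 1)
        = ((f4.eval t : ℚ) : Qb) ∧
      Free.T6 (ι (![1, 0] + t • ![0, 1]) 0) (ι (![1, 0] + t • ![0, 1]) 1)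
        = -((f6.eval t : ℚ) : Qb))
    (h40 : f4.eval 0 = W.c₄) (h60 : f6.eval 0 = W.c₆) (hcop : IsCoprime f4 f6)
    (I2 : ∀ ρ : GQ, (∀ i, ρ (w0 i) = w0 i) → ∀ v i, ρ (ι v i) = ι v i)
    (I3 : ∀ ρ : GQ, ρ ζ = ζ → (∀ P : TN W 5, ρ • P = P) →
      ∃ k : ℕ, ∀ i, ρ (w0 i) = ζ ^ k * w0 i)
    (I4 : ∀ ρ σ : GQ, ρ ζ = ζ → (∀ i, ρ (w0 i) = w0 i) → ∀ i, ρ (σ (w0 i)) = σ (w0 i))
    (C : WeierstrassCurve ℤ → Prop)
    (cong : ∀ v : Fin 2 → ℚ, ∀ W' : WeierstrassCurve ℤ, W'.Δ ≠ 0 →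
      ((W'.c₄ : ℤ) : Qb) = Free.c4 (ι v 0) (ι v 1) →
      ((W'.c₆ : ℤ) : Qb) = -Free.T6 (ι v 0) (ι v 1) → C W') :
    ∃ W' : WeierstrassCurve ℤ, W'.Δ ≠ 0 ∧ W'.IsSemistableModel ∧ W'.ModRepIsIrreducible 3 ∧
      C W' := by
  subst hι0
  refine MemberSel.exists_member_irr3 W hΔ hW ζ hζ (ι ![1, 0]) (ι ![0, 1]) hli f4 f6 ?_ h40 h60
    hcop (fun ρ h => I2 ρ h ![0, 1]) I3 I4 C ?_
  · intro t
    have h := hfam t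
    rw [apply_line, apply_line] at h
    exact h
  · intro t W' hΔ' h4 h6
    obtain ⟨hF4, hF6⟩ := hfam t
    refine cong (![1, 0] + t • ![0, 1]) W' hΔ' ?_ ?_
    · rw [hF4, ← h4]
      push_cast
      rfl
    · rw [hF6, neg_neg, ← h6]
      push_cast
      rfl

/-- **The output contract T1 of Q4** (board 4123 D3 with the amendments of 4208 (2)). -/
def T1Contract (W : WeierstrassCurve ℤ) : Prop :=
  ∃ (ζ : Qb) (w0 : Fin 2 → Qb) (ι : (Fin 2 → ℚ) →ₗ[ℚ] (Fin 2 → Qb)),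
    ζ ^ 4 + ζ ^ 3 + ζ ^ 2 + ζ + 1 = 0 ∧ ι ![1, 0] = w0 ∧
    LinearIndependent Qb ![ι ![1, 0], ι ![0, 1]] ∧
    (∀ d : Fin 2 → ℚ, d 1 ≠ 0 → ∃ f4 f6 : ℚ[X],
      (∀ t : ℚ,
        Free.c4 (ι (![1, 0] + t • d) 0) (ι (![1, 0] + t • d) 1) = ((f4.eval t : ℚ) : Qb) ∧
        Free.T6 (ι (![1, 0] + t • d) 0) (ι (![1, 0] + t • d) 1) = -((f6.eval t : ℚ) : Qb)) ∧
      f4.eval 0 = W.c₄ ∧ f6.eval 0 = W.c₆ ∧ IsCoprime f4 f6) ∧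
    (∀ ρ : GQ, (∀ i, ρ (w0 i) = w0 i) → ∀ v i, ρ (ι v i) = ι v i) ∧
    (∀ ρ : GQ, ρ ζ = ζ → (∀ P : TN W 5, ρ • P = P) → ∃ k : ℕ, ∀ i, ρ (w0 i) = ζ ^ k * w0 i) ∧
    (∀ ρ σ : GQ, ρ ζ = ζ → (∀ i, ρ (w0 i) = w0 i) → ∀ i, ρ (σ (w0 i)) = σ (w0 i)) ∧
    (∀ v : Fin 2 → ℚ, ∀ W' : WeierstrassCurve ℤ, W'.Δ ≠ 0 →
      ((W'.c₄ : ℤ) : Qb) = Free.c4 (ι v 0) (ι v 1) →
      ((W'.c₆ : ℤ) : Qb) = -Free.T6 (ι v 0) (ι v 1) → TopTN.FiveCongTN W W')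

/-- **T1 ⟹ `hfam`.** -/
theorem exists_member_of_contract (W : WeierstrassCurve ℤ) (hΔ : W.Δ ≠ 0)
    (hW : W.IsSemistableModel) (h : T1Contract W) :
    ∃ W' : WeierstrassCurve ℤ, W'.Δ ≠ 0 ∧ W'.IsSemistableModel ∧ W'.ModRepIsIrreducible 3 ∧
      TopTN.FiveCongTN W W' := by
  obtain ⟨ζ, w0, ι, hζ, hι0, hli, hfamd, I2, I3, I4, cong⟩ := h
  obtain ⟨f4, f6, hfam, h40, h60, hcop⟩ := hfamd ![0, 1] (by simp)
  exact exists_member_of_T1 W hΔ hW ζ hζ w0 ι hι0 hli f4 f6 hfam h40 h60 hcop I2 I3 I4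
    (TopTN.FiveCongTN W) cong

/-- **T1 for every semistable `W` ⟹ the frozen statement S52.** -/
theorem s52_of_contract
    (hT1 : ∀ W : WeierstrassCurve ℤ, W.Δ ≠ 0 → W.IsSemistableModel → T1Contract W)
    (W : WeierstrassCurve ℤ) (hΔ : W.Δ ≠ 0) (hW : W.IsSemistableModel)
    (h5 : W.ModRepIsIrreducible 5) :
    ∃ W' : WeierstrassCurve ℤ, W'.Δ ≠ 0 ∧ W'.IsSemistableModel ∧ W'.ModRepIsIrreducible 3 ∧
      ∀ ℓ : ℕ, ℓ.Prime → W.IsGoodPrimeFor ℓ → W'.IsGoodPrimeFor ℓ → ℓ ≠ 5 →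
        (5 : ℤ) ∣ (W'.apOfModel ℓ - W.apOfModel ℓ) :=
  TopTN.s52_of_familyTN
    (fun W hΔ hW _ => exists_member_of_contract W hΔ hW (hT1 W hΔ hW)) W hΔ hW h5

end Fermat.Agent.G35.Irr3.OfT1
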