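/-
GATE-Q / S52 (3–5 switch), node Q6d = T2, part B (helper92): REDUCTION MOD `ℓ` OF THE FAMILY.

* `aeval_sub_eval_mem_nonunits` : integer forms evaluated at `x ∈ A²`, `x ≡ j ∈ ℤ²` mod `𝔪_A`;
* `dvd_eval_sub_eval` : integer forms at congruent integer points;
* `exists_line_hits` : for an invertible `2 × 2` matrix over a field (rows `p = J e₀`, `q = J e₁`)
  and a target `a` with `a 0 ≠ 0`, one of the two affine lines `e₀ + t e₁`, `e₀ + t (e₀ + e₁)` hits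
  the target projectively: `J (e₀ + t d) = λ a`, `λ ≠ 0`.
-/
import Fermat.Agent.G35.Irr3.ResidueInt
import Fermat.Agent.G35.Irr3.Derange

set_option autoImplicit false

open Fermat.Agent.Common_helper32

namespace Fermat.Agent.G35.Irr3.AsmMod

open MvPolynomial

/-- **an integer form at a point of `A^σ` congruent to an integer point mod `𝔪_A`.** -/
theorem aeval_sub_eval_mem_nonunits {σ : Type*} (A : ValuationSubring Qb)
    (F : MvPolynomial σ ℤ) (x : σ → Qb) (j : σ → ℤ) (hx : ∀ i, x i ∈ A)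
    (hxj : ∀ i, x i - (j i : Qb) ∈ A.nonunits) :
    aeval x F - ((eval j F : ℤ) : Qb) ∈ A.nonunits := by
  induction F using MvPolynomial.induction_on with
  | C a =>
    have e : aeval x (C a : MvPolynomial σ ℤ) - ((eval j (C a : MvPolynomial σ ℤ) : ℤ) : Qb) = 0 := by
      simp
    rw [e, A.mem_nonunits_iff, map_zero]
    exact zero_lt_one
  | add p q hp hq =>
    have e : aeval x (p + q) - ((eval j (p + q) : ℤ) : Qb) =
        (aeval x p - ((eval j p : ℤ) : Qb)) + (aeval x q - ((eval j q : ℤ) : Qb)) := by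
      rw [map_add, map_add]; push_cast; ring
    rw [e]
    exact ResidueInt.add_mem_nonunits hp hq
  | mul_X p i hp =>
    have e : aeval x (p * X i) - ((eval j (p * X i) : ℤ) : Qb) =
        (aeval x p - ((eval j p : ℤ) : Qb)) * x i +
          ((eval j p : ℤ) : Qb) * (x i - (j i : Qb)) := by
      rw [map_mul, map_mul, aeval_X, eval_X]; push_cast; ring
    rw [e]
    exact ResidueInt.add_mem_nonunits (ResidueInt.mul_mem_nonunits_right hp (hx i))
      (ResidueInt.mul_mem_nonunits_left (ResidueInt.intCast_mem A _) (hxj i))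

/-- **an integer form at two congruent integer points.** -/
theorem dvd_eval_sub_eval {σ : Type*} (n : ℤ) (F : MvPolynomial σ ℤ) (x y : σ → ℤ)
    (h : ∀ i, n ∣ x i - y i) : n ∣ eval x F - eval y F := by
  induction F using MvPolynomial.induction_on with
  | C a => simp
  | add p q hp hq =>
    have e : eval x (p + q) - eval y (p + q) = (eval x p - eval y p) + (eval x q - eval y q) := by
      rw [map_add, map_add]; ring
    rw [e]
    exact dvd_add hp hq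
  | mul_X p i hp =>
    have e : eval x (p * X i) - eval y (p * X i) =
        (eval x p - eval y p) * x i + eval y p * (x i - y i) := by
      rw [map_mul, map_mul, eval_X, eval_X]; ring
    rw [e]
    exact dvd_add (Dvd.dvd.mul_right hp _) (Dvd.dvd.mul_left (h i) _)

/-- **one of the two lines through `e₀` hits the target projectively.** `p = J e₀`, `q = J e₁`. -/
theorem exists_line_hits {F : Type*} [Field F] (p q a : Fin 2 → F)
    (hdet : p 0 * q 1 - p 1 * q 0 ≠ 0) (ha : a 0 ≠ 0) :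
    (∃ t lam : F, lam ≠ 0 ∧ ∀ i, p i + t * q i = lam * a i) ∨
      (∃ t lam : F, lam ≠ 0 ∧ ∀ i, (1 + t) * p i + t * q i = lam * a i) := by
  obtain ⟨det, hdetdef⟩ : ∃ det : F, det = p 0 * q 1 - p 1 * q 0 := ⟨_, rfl⟩
  obtain ⟨α, hα⟩ : ∃ α : F, α = a 0 * q 1 - a 1 * q 0 := ⟨_, rfl⟩
  obtain ⟨β, hβ⟩ : ∃ β : F, β = p 0 * a 1 - p 1 * a 0 := ⟨_, rfl⟩
  rw [← hdetdef] at hdet
  have hc0 : α * p 0 + β * q 0 = det * a 0 := by rw [hα, hβ, hdetdef]; ring
  have hc1 : α * p 1 + β * q 1 = det * a 1 := by rw [hα, hβ, hdetdef]; ring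
  clear hdetdef hα hβ
  by_cases hα0 : α = 0
  · -- second line, `t = -1`
    right
    have hβ0 : β ≠ 0 := by
      intro hβ0
      rw [hα0, hβ0, zero_mul, zero_mul, zero_add] at hc0
      exact (mul_ne_zero hdet ha) hc0.symm
    refine ⟨-1, -det / β, div_ne_zero (neg_ne_zero.mpr hdet) hβ0, fun i => ?_⟩
    rw [hα0, zero_mul, zero_add] at hc0 hc1
    fin_cases i
    · show (1 + -1) * p 0 + -1 * q 0 = -det / β * a 0
      field_simp
      linear_combination -hc0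
    · show (1 + -1) * p 1 + -1 * q 1 = -det / β * a 1
      field_simp
      linear_combination -hc1
  · left
    refine ⟨β / α, det / α, div_ne_zero hdet hα0, fun i => ?_⟩
    fin_cases i
    · show p 0 + β / α * q 0 = det / α * a 0
      field_simp
      linear_combination hc0
    · show p 1 + β / α * q 1 = det / α * a 1
      field_simp
      linear_combination hc1

/-- the point of the family with integer coordinates `v`: `v 0 • w 0 + v 1 • w 1`. -/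
noncomputable def ptZ (w : Fin 2 → Fin 2 → Qb) (v : Fin 2 → ℤ) : Fin 2 → Qb :=
  fun i => (v 0 : Qb) * w 0 i + (v 1 : Qb) * w 1 i

section Member

variable {ℓ : ℕ} (hℓ : ℓ.Prime) (A : ValuationSubring Qb) (hA : A.LiesOverPrime ℓ)
  (k : ℕ) (F4 F6 : MvPolynomial (Fin 2) ℤ)
  (hF4 : ∀ (lam : ℤ) (x : Fin 2 → ℤ), eval (fun i => lam * x i) F4 = lam ^ (4 * k) * eval x F4)
  (hF6 : ∀ (lam : ℤ) (x : Fin 2 → ℤ), eval (fun i => lam * x i) F6 = lam ^ (6 * k) * eval x F6)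
  (u0 : Fin 2 → ℤ) (c4₀ c6₀ : ℤ) (hc4₀ : eval u0 F4 = c4₀) (hc6₀ : eval u0 F6 = c6₀)
  (w : Fin 2 → Fin 2 → Qb) (J : Fin 2 → Fin 2 → ℤ) (hwA : ∀ i j, w i j ∈ A)
  (hwJ : ∀ i j, w i j - (J i j : Qb) ∈ A.nonunits)
  (v : Fin 2 → ℤ) (L : ℤ)
  (hv : ∀ i, (ℓ : ℤ) ∣ (v 0 * J 0 i + v 1 * J 1 i) - L * u0 i)

include hwA in
theorem ptZ_mem (i : Fin 2) : ptZ w v i ∈ A :=
  A.add_mem _ _ (A.mul_mem _ _ (ResidueInt.intCast_mem A _) (hwA 0 i))
    (A.mul_mem _ _ (ResidueInt.intCast_mem A _) (hwA 1 i))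

include hwJ in
theorem ptZ_sub_mem (i : Fin 2) :
    ptZ w v i - ((v 0 * J 0 i + v 1 * J 1 i : ℤ) : Qb) ∈ A.nonunits := by
  have e : ptZ w v i - ((v 0 * J 0 i + v 1 * J 1 i : ℤ) : Qb) =
      (v 0 : Qb) * (w 0 i - (J 0 i : Qb)) + (v 1 : Qb) * (w 1 i - (J 1 i : Qb)) := by
    unfold ptZ; push_cast; ring
  rw [e]
  exact ResidueInt.add_mem_nonunits
    (ResidueInt.mul_mem_nonunits_left (ResidueInt.intCast_mem A _) (hwJ 0 i))
    (ResidueInt.mul_mem_nonunits_left (ResidueInt.intCast_mem A _) (hwJ 1 i))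

include hwA hwJ in
/-- the value of an integer form at the family point is congruent mod `𝔪_A` to its value at the
integer point `J v`. -/
theorem aeval_ptZ_sub_mem (F : MvPolynomial (Fin 2) ℤ) :
    aeval (ptZ w v) F - ((eval (fun i => v 0 * J 0 i + v 1 * J 1 i) F : ℤ) : Qb) ∈ A.nonunits :=
  aeval_sub_eval_mem_nonunits A F (ptZ w v) _ (ptZ_mem A w hwA v) (ptZ_sub_mem A w J hwJ v)

include hv in
/-- the value of a weighted-homogeneous integer form at `J v ≡ L u0` mod `ℓ`. -/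
theorem eval_Jv_zmod (F : MvPolynomial (Fin 2) ℤ) (e : ℕ)
    (hF : ∀ (lam : ℤ) (x : Fin 2 → ℤ), eval (fun i => lam * x i) F = lam ^ e * eval x F) :
    ((eval (fun i => v 0 * J 0 i + v 1 * J 1 i) F : ℤ) : ZMod ℓ) =
      (L : ZMod ℓ) ^ e * ((eval u0 F : ℤ) : ZMod ℓ) := by
  have h := dvd_eval_sub_eval (ℓ : ℤ) F (fun i => v 0 * J 0 i + v 1 * J 1 i)
    (fun i => L * u0 i) hv
  rw [hF] at h
  have h' := (ZMod.intCast_zmod_eq_zero_iff_dvd _ ℓ).mpr h
  push_cast at h'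
  linear_combination h'

include hℓ hA hwA hwJ hv hF4 hF6 hc4₀ hc6₀ in
/-- **the discriminant of the member does not vanish** (it is an `ℓ`-unit). -/
theorem member_disc_ne (hL : ¬ (ℓ : ℤ) ∣ L) (hne : ¬ (ℓ : ℤ) ∣ c4₀ ^ 3 - c6₀ ^ 2) :
    aeval (ptZ w v) F4 ^ 3 ≠ aeval (ptZ w v) F6 ^ 2 := by
  have : Fact ℓ.Prime := ⟨hℓ⟩
  intro heq
  set E4 : ℤ := eval (fun i => v 0 * J 0 i + v 1 * J 1 i) F4 with hE4
  set E6 : ℤ := eval (fun i => v 0 * J 0 i + v 1 * J 1 i) F6 with hE6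
  set α := aeval (ptZ w v) F4 with hα
  set β := aeval (ptZ w v) F6 with hβ
  have h4 : α - (E4 : Qb) ∈ A.nonunits := aeval_ptZ_sub_mem A w J hwA hwJ v F4
  have h6 : β - (E6 : Qb) ∈ A.nonunits := aeval_ptZ_sub_mem A w J hwA hwJ v F6
  have hE4A : (E4 : Qb) ∈ A := ResidueInt.intCast_mem A _
  have hE6A : (E6 : Qb) ∈ A := ResidueInt.intCast_mem A _
  have hαA : α ∈ A := by
    have : α = (α - (E4 : Qb)) + (E4 : Qb) := by ring
    rw [this]
    exact A.add_mem _ _ (ValuationSubring.nonunits_subset h4) hE4A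
  have hβA : β ∈ A := by
    have : β = (β - (E6 : Qb)) + (E6 : Qb) := by ring
    rw [this]
    exact A.add_mem _ _ (ValuationSubring.nonunits_subset h6) hE6A
  -- `E4³ - E6² ∈ 𝔪_A`
  have hN : (((E4 ^ 3 - E6 ^ 2 : ℤ)) : Qb) ∈ A.nonunits := by
    have e : (((E4 ^ 3 - E6 ^ 2 : ℤ)) : Qb) =
        (β - (E6 : Qb)) * (β + (E6 : Qb)) -
          (α - (E4 : Qb)) * (α ^ 2 + α * (E4 : Qb) + (E4 : Qb) ^ 2) := by
      push_cast
      linear_combination heq
    rw [e]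
    refine ResidueInt.sub_mem_nonunits
      (ResidueInt.mul_mem_nonunits_right h6 (A.add_mem _ _ hβA hE6A))
      (ResidueInt.mul_mem_nonunits_right h4 ?_)
    exact A.add_mem _ _ (A.add_mem _ _ (pow_mem hαA 2) (A.mul_mem _ _ hαA hE4A)) (pow_mem hE4A 2)
  have hdvd : (ℓ : ℤ) ∣ E4 ^ 3 - E6 ^ 2 := Derange.dvd_of_intCast_mem_nonunits hℓ A hA hN
  have h0 := (ZMod.intCast_zmod_eq_zero_iff_dvd _ ℓ).mpr hdvd
  push_cast at h0
  rw [hE4, hE6, eval_Jv_zmod u0 J v L hv F4 (4 * k) hF4,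
    eval_Jv_zmod u0 J v L hv F6 (6 * k) hF6, hc4₀, hc6₀] at h0
  have hLz : (L : ZMod ℓ) ≠ 0 := by
    rwa [Ne, ZMod.intCast_zmod_eq_zero_iff_dvd]
  have hnez : ((c4₀ ^ 3 - c6₀ ^ 2 : ℤ) : ZMod ℓ) ≠ 0 := by
    rwa [Ne, ZMod.intCast_zmod_eq_zero_iff_dvd]
  apply mul_ne_zero (pow_ne_zero (12 * k) hLz) hnez
  push_cast
  linear_combination h0

include hℓ hA hwA hwJ hv hF4 hF6 hc4₀ hc6₀ in
/-- **the `(c₄, c₆)` of an integral model of the member, modulo `ℓ`.** -/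
theorem member_c_zmod (W' : WeierstrassCurve ℤ)
    (h4 : ((W'.c₄ : ℤ) : Qb) = aeval (ptZ w v) F4) (h6 : ((W'.c₆ : ℤ) : Qb) = aeval (ptZ w v) F6) :
    ((W'.c₄ : ℤ) : ZMod ℓ) = ((L : ZMod ℓ) ^ k) ^ 4 * (c4₀ : ZMod ℓ) ∧
      ((W'.c₆ : ℤ) : ZMod ℓ) = ((L : ZMod ℓ) ^ k) ^ 6 * (c6₀ : ZMod ℓ) := by
  have : Fact ℓ.Prime := ⟨hℓ⟩
  have key : ∀ (F : MvPolynomial (Fin 2) ℤ) (e : ℕ) (c : ℤ),
      (∀ (lam : ℤ) (x : Fin 2 → ℤ), eval (fun i => lam * x i) F = lam ^ e * eval x F) →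
      ((c : ℤ) : Qb) = aeval (ptZ w v) F →
      ((c : ℤ) : ZMod ℓ) = (L : ZMod ℓ) ^ e * ((eval u0 F : ℤ) : ZMod ℓ) := by
    intro F e c hF hc
    have h1 := aeval_ptZ_sub_mem A w J hwA hwJ v F
    rw [← hc] at h1
    have h2 : ((c - eval (fun i => v 0 * J 0 i + v 1 * J 1 i) F : ℤ) : Qb) ∈ A.nonunits := by
      push_cast; exact h1
    have h3 := (ZMod.intCast_zmod_eq_zero_iff_dvd _ ℓ).mpr
      (Derange.dvd_of_intCast_mem_nonunits hℓ A hA h2)
    rw [← eval_Jv_zmod u0 J v L hv F e hF]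
    push_cast at h3
    linear_combination h3
  constructor
  · rw [key F4 (4 * k) W'.c₄ hF4 h4, hc4₀, ← pow_mul, mul_comm k 4]
  · rw [key F6 (6 * k) W'.c₆ hF6 h6, hc6₀, ← pow_mul, mul_comm k 6]

end Member

end Fermat.Agent.G35.Irr3.AsmMod
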