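/-
GATE-Q / Q6 glue (helper16): Mathlib + `Derange.lean` only.

`g ∈ ℚ[X]` irreducible of degree four, `H` a normal subgroup of `G_ℚ` containing an element which
moves a root of `g`: then some `τ ∈ H` moves EVERY root of `g` in `ℚ̄`, and so does every
`G_ℚ`-conjugate of `τ`.
-/
import Mathlib
import Fermat.Agent.G35.Irr3.Derange

set_option autoImplicit false

namespace Fermat.Agent.G35.Irr3.RootAction

open Polynomial MulAction

local notation "Qb" => AlgebraicClosure ℚ
local notation "GQ" => (AlgebraicClosure ℚ ≃ₐ[ℚ] AlgebraicClosure ℚ)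

/-- the number of roots in `ℚ̄` of an irreducible rational polynomial is its degree. -/
theorem card_rootSet (g : ℚ[X]) (hirr : Irreducible g) :
    Fintype.card (g.rootSet Qb) = g.natDegree :=
  card_rootSet_eq_natDegree hirr.separable (IsAlgClosed.splits _)

/-- `G_ℚ` permutes the roots of an irreducible polynomial transitively. -/
theorem isPretransitive_rootSet (g : ℚ[X]) (hirr : Irreducible g) :
    IsPretransitive GQ (g.rootSet Qb) := by
  have : IsAlgClosure ℚ Qb := ⟨inferInstance, AlgebraicClosure.isAlgebraic ℚ⟩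
  have : Normal ℚ Qb := IsAlgClosure.normal ℚ Qb
  constructor
  intro x y
  have hx : aeval (x : Qb) g = 0 := (mem_rootSet.mp x.2).2
  have hy : aeval (y : Qb) g = 0 := (mem_rootSet.mp y.2).2
  have h1 := minpoly.eq_of_irreducible hirr hx
  have h2 := minpoly.eq_of_irreducible hirr hy
  have h3 : minpoly ℚ (y : Qb) = minpoly ℚ (x : Qb) := by rw [← h1, ← h2]
  obtain ⟨σ, hσ⟩ := (Normal.minpoly_eq_iff_mem_orbit Qb).mp h3
  exact ⟨σ, Subtype.ext hσ⟩

/-- **Derangement from one moved root.** -/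
theorem exists_derangement_of_moves (g : ℚ[X]) (hirr : Irreducible g) (hdeg : g.natDegree = 4)
    (H : Subgroup GQ) [H.Normal] (hH : ∃ σ ∈ H, ∃ x : Qb, aeval x g = 0 ∧ σ x ≠ x) :
    ∃ τ ∈ H, ∀ (γ : GQ) (x : Qb), aeval x g = 0 → (γ * τ * γ⁻¹) x ≠ x := by
  have : IsPretransitive GQ (g.rootSet Qb) := isPretransitive_rootSet g hirr
  obtain ⟨σ, hσ, x, hx, hmv⟩ := hH
  have hg0 : g ≠ 0 := hirr.ne_zero
  have hcard : Fintype.card (g.rootSet Qb) = 4 := by rw [card_rootSet g hirr, hdeg]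
  obtain ⟨τ, hτ, hder⟩ := Derange.exists_derangement (G := GQ) (X := g.rootSet Qb) hcard H
    ⟨σ, hσ, ⟨x, mem_rootSet.mpr ⟨hg0, hx⟩⟩, fun h => hmv (congrArg Subtype.val h)⟩
  refine ⟨τ, hτ, fun γ y hy h => ?_⟩
  have hy' : γ⁻¹ y ∈ g.rootSet Qb := by
    refine mem_rootSet.mpr ⟨hg0, ?_⟩
    rw [aeval_algHom_apply, hy, map_zero]
  apply hder ⟨γ⁻¹ y, hy'⟩
  apply Subtype.ext
  show τ (γ⁻¹ y) = γ⁻¹ y
  have h' : γ (τ (γ⁻¹ y)) = y := h
  have := congrArg (fun z => γ⁻¹ z) h'
  simpa using this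

end Fermat.Agent.G35.Irr3.RootAction
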