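/-
GATE-Q / S52 (3–5 switch), node Q6c, Mathlib-only part (helper92): THE DISCRIMINANT OF THE
3-DIVISION QUARTIC IS `-3 · □`.

For `g(t) = t⁴ - 6 c t² - 8 d t - 3 c²` (`c = c₄`, `d = c₆`) with roots `x₁, …, x₄`:

  `(∏_{i<j} (x_i - x_j))² = -3 · (192 (c³ - d²))²`.

Hence `ℚ(√-3) ⊆ ℚ(c, d, x₁, …, x₄)`: a field automorphism fixing `c, d` and all four roots fixes
every square root of `-3` (`apply_eq_of_fixes_roots`), and an automorphism with `τ s = -s`,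
`s² = -3`, moves a root (`exists_root_moved`).
-/
import Mathlib

set_option autoImplicit false

namespace Fermat.Agent.G35.Irr3.QuarticDisc

section Ring

variable {R : Type*} [CommRing R]

/-- the Vandermonde product of four elements -/
def vdm (x1 x2 x3 x4 : R) : R :=
  (x1 - x2) * (x1 - x3) * (x1 - x4) * (x2 - x3) * (x2 - x4) * (x3 - x4)

/-- the discriminant of the monic quartic `X⁴ - e1 X³ + e2 X² - e3 X + e4`. -/
def disc4 (e1 e2 e3 e4 : R) : R :=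
  256 * e4 ^ 3 - 192 * e1 * e3 * e4 ^ 2 - 128 * e2 ^ 2 * e4 ^ 2 + 144 * e2 * e3 ^ 2 * e4
    - 27 * e3 ^ 4 + 144 * e1 ^ 2 * e2 * e4 ^ 2 - 6 * e1 ^ 2 * e3 ^ 2 * e4
    - 80 * e1 * e2 ^ 2 * e3 * e4 + 18 * e1 * e2 * e3 ^ 3 + 16 * e2 ^ 4 * e4 - 4 * e2 ^ 3 * e3 ^ 2
    - 27 * e1 ^ 4 * e4 ^ 2 + 18 * e1 ^ 3 * e2 * e3 * e4 - 4 * e1 ^ 3 * e3 ^ 3
    - 4 * e1 ^ 2 * e2 ^ 3 * e4 + e1 ^ 2 * e2 ^ 2 * e3 ^ 2

/-- **the discriminant of a quartic is the square of the Vandermonde product of its roots**. -/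
theorem vdm_sq_eq_disc4 (x1 x2 x3 x4 : R) :
    vdm x1 x2 x3 x4 ^ 2 =
      disc4 (x1 + x2 + x3 + x4) (x1 * x2 + x1 * x3 + x1 * x4 + x2 * x3 + x2 * x4 + x3 * x4)
        (x1 * x2 * x3 + x1 * x2 * x4 + x1 * x3 * x4 + x2 * x3 * x4) (x1 * x2 * x3 * x4) := by
  simp only [vdm, disc4]
  ring

/-- the discriminant of `t⁴ - 6 c t² - 8 d t - 3 c²`. -/
theorem disc4_short (c d : R) :
    disc4 0 (-6 * c) (8 * d) (-3 * c ^ 2) = -3 * (192 * (c ^ 3 - d ^ 2)) ^ 2 := by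
  simp only [disc4]
  ring

/-- **`disc(t⁴ - 6 c t² - 8 d t - 3 c²) = -3 · (192 (c³ - d²))²` in terms of the roots.** -/
theorem vdm_sq (c d x1 x2 x3 x4 : R) (h1 : x1 + x2 + x3 + x4 = 0)
    (h2 : x1 * x2 + x1 * x3 + x1 * x4 + x2 * x3 + x2 * x4 + x3 * x4 = -6 * c)
    (h3 : x1 * x2 * x3 + x1 * x2 * x4 + x1 * x3 * x4 + x2 * x3 * x4 = 8 * d)
    (h4 : x1 * x2 * x3 * x4 = -3 * c ^ 2) :
    vdm x1 x2 x3 x4 ^ 2 = -3 * (192 * (c ^ 3 - d ^ 2)) ^ 2 := by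
  rw [vdm_sq_eq_disc4, h1, h2, h3, h4, disc4_short]

open Polynomial in
/-- the elementary symmetric functions of the roots, from a factorisation of the quartic. -/
theorem sym_of_prod_eq (c d x1 x2 x3 x4 : R)
    (h : (X - C x1) * (X - C x2) * (X - C x3) * (X - C x4) =
      X ^ 4 - C (6 * c) * X ^ 2 - C (8 * d) * X - C (3 * c ^ 2)) :
    x1 + x2 + x3 + x4 = 0 ∧
      x1 * x2 + x1 * x3 + x1 * x4 + x2 * x3 + x2 * x4 + x3 * x4 = -6 * c ∧
      x1 * x2 * x3 + x1 * x2 * x4 + x1 * x3 * x4 + x2 * x3 * x4 = 8 * d ∧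
      x1 * x2 * x3 * x4 = -3 * c ^ 2 := by
  have hexp : (X - C x1) * (X - C x2) * (X - C x3) * (X - C x4) =
      X ^ 4 - C (x1 + x2 + x3 + x4) * X ^ 3 +
        C (x1 * x2 + x1 * x3 + x1 * x4 + x2 * x3 + x2 * x4 + x3 * x4) * X ^ 2 -
        C (x1 * x2 * x3 + x1 * x2 * x4 + x1 * x3 * x4 + x2 * x3 * x4) * X +
        C (x1 * x2 * x3 * x4) := by
    simp only [C_add, C_mul]
    ring
  rw [hexp] at h
  have k3 := congrArg (fun p => p.coeff 3) h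
  have k2 := congrArg (fun p => p.coeff 2) h
  have k1 := congrArg (fun p => p.coeff 1) h
  have k0 := congrArg (fun p => p.coeff 0) h
  simp only [coeff_add, coeff_sub, coeff_X_pow, coeff_C_mul, coeff_C, coeff_X] at k3 k2 k1 k0
  norm_num at k3 k2 k1 k0
  refine ⟨?_, ?_, ?_, ?_⟩
  · linear_combination -k3
  · linear_combination k2
  · linear_combination -k1
  · linear_combination k0

end Ring

section Field

variable {K : Type*} [Field K]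

/-- **a ring endomorphism fixing `c`, `d` and the four roots of `t⁴ - 6 c t² - 8 d t - 3 c²`
(`c³ ≠ d²`) fixes every square root of `-3`.** -/
theorem apply_eq_of_fixes_roots (h2 : (2 : K) ≠ 0) (h3 : (3 : K) ≠ 0) (τ : K →+* K) (c d : K)
    (hc : τ c = c) (hd : τ d = d) (hne : c ^ 3 ≠ d ^ 2) (x1 x2 x3 x4 : K)
    (h1 : x1 + x2 + x3 + x4 = 0)
    (h2' : x1 * x2 + x1 * x3 + x1 * x4 + x2 * x3 + x2 * x4 + x3 * x4 = -6 * c)
    (h3' : x1 * x2 * x3 + x1 * x2 * x4 + x1 * x3 * x4 + x2 * x3 * x4 = 8 * d)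
    (h4 : x1 * x2 * x3 * x4 = -3 * c ^ 2)
    (t1 : τ x1 = x1) (t2 : τ x2 = x2) (t3 : τ x3 = x3) (t4 : τ x4 = x4)
    (s : K) (hs : s ^ 2 = -3) : τ s = s := by
  set δ := vdm x1 x2 x3 x4 with hδ
  set m : K := 192 * (c ^ 3 - d ^ 2) with hm
  have h192 : (192 : K) ≠ 0 := by
    have : (192 : K) = 2 ^ 6 * 3 := by norm_num
    rw [this]; exact mul_ne_zero (pow_ne_zero _ h2) h3
  have hm0 : m ≠ 0 := mul_ne_zero h192 (sub_ne_zero.mpr hne)
  have hδ2 : δ ^ 2 = -3 * m ^ 2 := vdm_sq c d x1 x2 x3 x4 h1 h2' h3' h4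
  have hτδ : τ δ = δ := by
    simp only [hδ, vdm, map_mul, map_sub, t1, t2, t3, t4]
  have hτm : τ m = m := by
    simp only [hm, map_mul, map_sub, map_pow, map_ofNat, hc, hd]
  have hfac : (δ - s * m) * (δ + s * m) = 0 := by
    linear_combination hδ2 - m ^ 2 * hs
  have hms : τ (s * m) = s * m := by
    rcases mul_eq_zero.mp hfac with h | h
    · have : s * m = δ := by linear_combination -h
      rw [this, hτδ]
    · have : s * m = -δ := by linear_combination h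
      rw [this, map_neg, hτδ]
  rw [map_mul, hτm] at hms
  exact mul_right_cancel₀ hm0 hms

/-- **`N ≠ 1`**: an endomorphism `τ` fixing `c, d` with `τ s = -s`, `s² = -3`, moves one of the
four roots of `t⁴ - 6 c t² - 8 d t - 3 c²` (`c³ ≠ d²`, characteristic `≠ 2, 3`). -/
theorem exists_root_moved (h2 : (2 : K) ≠ 0) (h3 : (3 : K) ≠ 0) (τ : K →+* K) (c d : K)
    (hc : τ c = c) (hd : τ d = d) (hne : c ^ 3 ≠ d ^ 2) (x1 x2 x3 x4 : K)
    (h1 : x1 + x2 + x3 + x4 = 0)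
    (h2' : x1 * x2 + x1 * x3 + x1 * x4 + x2 * x3 + x2 * x4 + x3 * x4 = -6 * c)
    (h3' : x1 * x2 * x3 + x1 * x2 * x4 + x1 * x3 * x4 + x2 * x3 * x4 = 8 * d)
    (h4 : x1 * x2 * x3 * x4 = -3 * c ^ 2)
    (s : K) (hs : s ^ 2 = -3) (hτs : τ s = -s) :
    τ x1 ≠ x1 ∨ τ x2 ≠ x2 ∨ τ x3 ≠ x3 ∨ τ x4 ≠ x4 := by
  by_contra hcon
  simp only [not_or, not_not] at hcon
  obtain ⟨t1, t2, t3, t4⟩ := hcon
  have h := apply_eq_of_fixes_roots h2 h3 τ c d hc hd hne x1 x2 x3 x4 h1 h2' h3' h4 t1 t2 t3 t4 s hs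
  rw [hτs] at h
  have hs0 : s = 0 := by
    have : 2 * s = 0 := by linear_combination -h
    exact (mul_eq_zero.mp this).resolve_left h2
  rw [hs0] at hs
  apply h3
  linear_combination hs

end Field

end Fermat.Agent.G35.Irr3.QuarticDisc
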