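/-
GATE-Q / S52 (3–5 switch), node Q6c (helper92): INERTIA AT 3 MOVES `√-3`.

From helper26's `GL/Local/InertiaField.exists_zpow_unit_of_fixed` (an element of `ℚ̄ˣ` fixed by the
inertia group `I_A`, `A | q`, is `qⁿ · unit`): a square root `s` of `-3` is NOT fixed by `I_A` for
`A | 3` — otherwise `3^(1-2n) ∈ Aˣ` with `1 - 2n ≠ 0`.

* `exists_inertia_neg` : `∃ σ ∈ I_A, σ s = -s`;
* `exists_mem_neg` : if every `σ ∈ I_A` has an odd power in a subgroup `H ≤ G_ℚ`, some `τ ∈ H` has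
  `τ s = -s`  (so `√-3 ∉ ℚ̄^H`);
* `exists_mem_moves_root` : such a `τ` moves one of the four roots of
  `t⁴ - 6 c t² - 8 d t - 3 c²` (`c, d ∈ ℚ`, `c³ ≠ d²`)  — the `N ≠ 1` input of the derangement step.
-/
import Fermat.Agent.GL.Local.InertiaField
import Fermat.Agent.G35.Irr3.QuarticDisc

set_option autoImplicit false

open Fermat.Agent.Common_helper32

namespace Fermat.Agent.G35.Irr3.SqrtNegThree

/-- a Galois conjugate of a square root of `-3` is `±` itself. -/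
theorem apply_eq_or_neg (σ : GQ) (s : Qb) (hs : s ^ 2 = -3) : σ s = s ∨ σ s = -s := by
  have h : (σ s) ^ 2 = s ^ 2 := by
    rw [← map_pow, hs, map_neg, map_ofNat]
  have h' : (σ s - s) * (σ s + s) = 0 := by linear_combination h
  rcases mul_eq_zero.mp h' with h1 | h1
  · left; linear_combination h1
  · right; linear_combination h1

/-- **inertia at `3` does not fix `√-3`.** -/
theorem exists_inertia_neg (A : ValuationSubring Qb) (hA : A.LiesOverPrime 3) (s : Qb)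
    (hs : s ^ 2 = -3) : ∃ σ ∈ A.inertiaSubgroupIn ℚ, σ s = -s := by
  by_contra hcon
  push Not at hcon
  have hfix : ∀ σ ∈ A.inertiaSubgroupIn ℚ, σ s = s := fun σ hσ =>
    (apply_eq_or_neg σ s hs).resolve_right (hcon σ hσ)
  have hs0 : s ≠ 0 := by
    rintro rfl
    norm_num at hs
  have hA' : ((3 : ℕ) : Qb) ∈ A.nonunits := hA
  obtain ⟨n, hu, hu'⟩ :=
    Fermat.Agent.GL.Local.InertiaField.exists_zpow_unit_of_fixed A Nat.prime_three hA' s hs0 hfix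
  have h3 : ((3 : ℕ) : Qb) ≠ 0 := by norm_num
  -- valuations
  have hv1 : A.valuation (s / ((3 : ℕ) : Qb) ^ n) = 1 := by
    apply le_antisymm
    · exact (A.valuation_le_one_iff _).mpr hu
    · have h1 := (A.valuation_le_one_iff _).mpr hu'
      rw [map_inv₀] at h1
      have hne : A.valuation (s / ((3 : ℕ) : Qb) ^ n) ≠ 0 := by
        rw [Ne, map_eq_zero]
        exact div_ne_zero hs0 (zpow_ne_zero _ h3)
      exact (inv_le_one₀ (zero_lt_iff.mpr hne)).mp h1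
  have hv3 : A.valuation ((3 : ℕ) : Qb) < 1 := A.mem_nonunits_iff.mp hA'
  have hv3' : A.valuation ((3 : ℕ) : Qb) ≠ 0 := by rwa [Ne, map_eq_zero]
  -- `v(3)^(1 - 2n) = v(u²) = 1`
  have hkey : A.valuation ((3 : ℕ) : Qb) ^ (1 - 2 * n) = 1 := by
    have e : (((3 : ℕ) : Qb)) ^ (1 - 2 * n) = -(s / ((3 : ℕ) : Qb) ^ n) ^ 2 := by
      rw [zpow_sub₀ h3, zpow_one, zpow_mul, div_pow, hs]
      have : ((((3 : ℕ) : Qb)) ^ (2 : ℤ)) ^ n = ((((3 : ℕ) : Qb)) ^ n) ^ 2 := by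
        rw [← zpow_natCast (((3 : ℕ) : Qb) ^ n) 2, ← zpow_mul, ← zpow_mul, mul_comm]
        rfl
      rw [this]
      push_cast
      ring
    rw [← map_zpow₀, e, Valuation.map_neg, map_pow, hv1, one_pow]
  have hk := (zpow_eq_one_iff_right₀ zero_le hv3.ne).mp hkey
  omega

/-- **`√-3 ∉ ℚ̄^H`** as soon as every inertia element at `3` has an odd power in `H`. -/
theorem exists_mem_neg (H : Subgroup GQ) (A : ValuationSubring Qb) (hA : A.LiesOverPrime 3)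
    (hH : ∀ σ ∈ A.inertiaSubgroupIn ℚ, ∃ m : ℕ, Odd m ∧ σ ^ m ∈ H) (s : Qb) (hs : s ^ 2 = -3) :
    ∃ τ ∈ H, τ s = -s := by
  obtain ⟨σ, hσ, hσs⟩ := exists_inertia_neg A hA s hs
  obtain ⟨m, hm, hmH⟩ := hH σ hσ
  refine ⟨σ ^ m, hmH, ?_⟩
  have hpow : ∀ k : ℕ, (σ ^ k) s = (-1) ^ k * s := by
    intro k
    induction k with
    | zero => simp
    | succ k ih =>
      rw [pow_succ, AlgEquiv.mul_apply, hσs, map_neg, ih]
      ring
  rw [hpow m, hm.neg_one_pow]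
  ring

/-- **`N ≠ 1`**: under the same hypothesis on `H`, some `τ ∈ H` moves one of the four roots of
`t⁴ - 6 c t² - 8 d t - 3 c²` (`c, d ∈ ℚ`, `c³ ≠ d²`). -/
theorem exists_mem_moves_root (H : Subgroup GQ) (A : ValuationSubring Qb) (hA : A.LiesOverPrime 3)
    (hH : ∀ σ ∈ A.inertiaSubgroupIn ℚ, ∃ m : ℕ, Odd m ∧ σ ^ m ∈ H) (c d : ℚ)
    (hne : c ^ 3 ≠ d ^ 2) (x1 x2 x3 x4 : Qb) (h1 : x1 + x2 + x3 + x4 = 0)
    (h2 : x1 * x2 + x1 * x3 + x1 * x4 + x2 * x3 + x2 * x4 + x3 * x4 = -6 * (c : Qb))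
    (h3 : x1 * x2 * x3 + x1 * x2 * x4 + x1 * x3 * x4 + x2 * x3 * x4 = 8 * (d : Qb))
    (h4 : x1 * x2 * x3 * x4 = -3 * (c : Qb) ^ 2) :
    ∃ τ ∈ H, τ x1 ≠ x1 ∨ τ x2 ≠ x2 ∨ τ x3 ≠ x3 ∨ τ x4 ≠ x4 := by
  obtain ⟨s, hs⟩ : ∃ s : Qb, s ^ 2 = -3 := IsAlgClosed.exists_pow_nat_eq (-3 : Qb) (by norm_num)
  obtain ⟨τ, hτH, hτs⟩ := exists_mem_neg H A hA hH s hs
  refine ⟨τ, hτH, ?_⟩
  have hne' : (c : Qb) ^ 3 ≠ (d : Qb) ^ 2 := by
    intro h
    apply hne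
    have : ((c ^ 3 : ℚ) : Qb) = ((d ^ 2 : ℚ) : Qb) := by push_cast; exact h
    exact_mod_cast this
  exact QuarticDisc.exists_root_moved (by norm_num) (by norm_num) (τ : Qb →+* Qb) (c : Qb) (d : Qb)
    (by simp) (by simp) hne' x1 x2 x3 x4 h1 h2 h3 h4 s hs hτs

end Fermat.Agent.G35.Irr3.SqrtNegThree
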