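/-
GATE-Q / S52 (3–5 switch), node Q6d = T2, part A (helper92): THE CHEBOTAREV PRIME.

Input: a `2 × 2` array `w` of algebraic numbers (the entries of the descent matrix `ι`) such that
every inertia element at `3` has its `m`-th power (`m` odd, uniform) fixing the entries, and a
monic quartic `g ∈ ℤ[X]` of the shape `t⁴ - 6 c t² - 8 d t - 3 c²` (`c³ ≠ d²`), irreducible
over `ℚ`.

Output (`exists_good_prime`): outside any finite set `B` there is a prime `ℓ` such that EVERY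
Frobenius lift at EVERY place over `ℓ` fixes all entries of `w` and moves every root of `g` in `ℚ̄`.

Chain: `SqrtNegThree.exists_mem_moves_root` (inertia at 3 moves `√-3`, which lies in the splitting
field of `g`) → `RootAction.exists_derangement_of_moves` (4-point derangement lemma) →
`ChebSplit.exists_prime_fix_derange_roots` (Chebotarev).
-/
import Fermat.Agent.GC.C0.Level
import Fermat.Agent.G35.Irr3.SqrtNegThree
import Fermat.Agent.G35.Irr3.RootAction
import Fermat.Agent.G35.Irr3.ChebSplit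

set_option autoImplicit false

open Fermat.Agent.Common_helper32 Polynomial
open scoped Pointwise

namespace Fermat.Agent.G35.Irr3.AsmPrime

/-- the normal core of the pointwise stabiliser of a set of algebraic numbers: the elements of
`G_ℚ` fixing every conjugate of every element of `T`. -/
def fixCore (T : Set Qb) : Subgroup GQ where
  carrier := {σ | ∀ x ∈ T, ∀ g : GQ, σ (g x) = g x}
  one_mem' := fun _ _ _ => rfl
  mul_mem' := by
    intro a b ha hb x hx g
    show a (b (g x)) = g x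
    rw [hb x hx g, ha x hx g]
  inv_mem' := by
    intro a ha x hx g
    have h := ha x hx g
    show a⁻¹ (g x) = g x
    nth_rewrite 1 [← h]
    exact a.symm_apply_apply _

theorem mem_fixCore {T : Set Qb} {σ : GQ} :
    σ ∈ fixCore T ↔ ∀ x ∈ T, ∀ g : GQ, σ (g x) = g x := Iff.rfl

instance fixCore_normal (T : Set Qb) : (fixCore T).Normal := by
  constructor
  intro σ hσ γ x hx g
  show γ (σ (γ⁻¹ (g x))) = g x
  have h := hσ x hx (γ⁻¹ * g)
  have e : (γ⁻¹ * g) x = γ⁻¹ (g x) := rfl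
  rw [e] at h
  rw [h]
  exact γ.apply_symm_apply _

/-- conjugates of a valuation subring over `q` lie over `q`. -/
theorem liesOverPrime_smul (g : GQ) (A : ValuationSubring Qb) (q : ℕ) (hA : A.LiesOverPrime q) :
    (g • A).LiesOverPrime q := by
  unfold ValuationSubring.LiesOverPrime at hA ⊢
  rw [Fermat.Agent.GC.C0.mem_nonunits_smul_iff]
  have : g⁻¹ (q : Qb) = (q : Qb) := map_natCast g⁻¹ q
  rw [this]
  exact hA

/-- **a uniform power of every inertia element at `q` fixes `T` pointwise ⟹ the same power lies in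
the normal core `fixCore T`.** -/
theorem pow_mem_fixCore (T : Set Qb) (q m : ℕ)
    (hH : ∀ A : ValuationSubring Qb, A.LiesOverPrime q → ∀ σ ∈ A.inertiaSubgroupIn ℚ,
      ∀ x ∈ T, (σ ^ m) x = x)
    (A : ValuationSubring Qb) (hA : A.LiesOverPrime q) (σ : GQ)
    (hσ : σ ∈ A.inertiaSubgroupIn ℚ) : σ ^ m ∈ fixCore T := by
  intro x hx g
  have h1 : g⁻¹ * σ * g⁻¹⁻¹ ∈ (g⁻¹ • A).inertiaSubgroupIn ℚ :=
    Fermat.Agent.GC.C0.conj_mem_inertiaSubgroupIn g⁻¹ hσ
  have h2 := hH (g⁻¹ • A) (liesOverPrime_smul g⁻¹ A q hA) _ h1 x hx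
  rw [conj_pow, inv_inv] at h2
  -- `h2 : (g⁻¹ * σ ^ m * g) x = x`
  have h3 : g ((g⁻¹ * σ ^ m * g) x) = (σ ^ m) (g x) := by
    show g (g⁻¹ ((σ ^ m) (g x))) = (σ ^ m) (g x)
    exact g.apply_symm_apply _
  rw [← h3, h2]

/-- a monic quartic over `ℚ̄` is a product of four linear factors. -/
theorem exists_four_roots (p : Qb[X]) (hp : p.Monic) (hd : p.natDegree = 4) :
    ∃ x1 x2 x3 x4 : Qb, p = (X - C x1) * (X - C x2) * (X - C x3) * (X - C x4) := by
  have hs : p.Splits := IsAlgClosed.splits p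
  have hcard : p.roots.card = 4 := by rw [← hs.natDegree_eq_card_roots, hd]
  have hprod : p = (p.roots.map fun a => X - C a).prod := hs.eq_prod_roots_of_monic hp
  obtain ⟨l, hl⟩ : ∃ l : List Qb, (l : Multiset Qb) = p.roots := ⟨p.roots.toList, by simp⟩
  rw [← hl] at hcard hprod
  rw [Multiset.coe_card] at hcard
  match l, hcard with
  | [x1, x2, x3, x4], _ =>
    refine ⟨x1, x2, x3, x4, ?_⟩
    rw [hprod]
    simp only [Multiset.map_coe, List.map_cons, List.map_nil, Multiset.prod_coe, List.prod_cons,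
      List.prod_nil, mul_one]
    ring

/-- roots of `g.map ℤ → ℚ̄` as roots of `g.map ℤ → ℚ` via `aeval`. -/
theorem aeval_map_rat (g : ℤ[X]) (x : Qb) :
    aeval x (g.map (Int.castRingHom ℚ)) = eval x (g.map (Int.castRingHom Qb)) := by
  rw [aeval_def, eval₂_map, ← eval_map]
  congr 2

/-- roots of `g.map ℤ → ℚ̄` via `aeval` over `ℤ`. -/
theorem aeval_int (g : ℤ[X]) (x : Qb) :
    aeval x g = eval x (g.map (Int.castRingHom Qb)) := by
  rw [aeval_def, eval_map]
  congr 1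

/-- **the Chebotarev prime of Q6**: outside any finite set there is a prime `ℓ` all of whose
Frobenius lifts fix the entries of `w` and move every root of `g`. -/
theorem exists_good_prime (w : Fin 2 → Fin 2 → Qb) (m : ℕ) (hm : Odd m)
    (hH : ∀ A : ValuationSubring Qb, A.LiesOverPrime 3 → ∀ σ ∈ A.inertiaSubgroupIn ℚ,
      ∀ i j, (σ ^ m) (w i j) = w i j)
    (c d : ℤ) (hne : c ^ 3 ≠ d ^ 2) (g : ℤ[X]) (hg : g.Monic) (hdeg : g.natDegree = 4)
    (hgeval : ∀ t : Qb, (g.map (Int.castRingHom Qb)).eval t =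
      t ^ 4 - 6 * (c : Qb) * t ^ 2 - 8 * (d : Qb) * t - 3 * (c : Qb) ^ 2)
    (hirr : Irreducible (g.map (Int.castRingHom ℚ))) (B : Finset ℕ) :
    ∃ ℓ : ℕ, ℓ.Prime ∧ ℓ ∉ B ∧ ∀ (A : ValuationSubring Qb) (τ : GQ), A.LiesOverPrime ℓ →
      A.IsFrobeniusAt τ ℓ → (∀ i j, τ (w i j) = w i j) ∧
        ∀ x : Qb, eval x (g.map (Int.castRingHom Qb)) = 0 → τ x ≠ x := by
  classical
  set T : Set Qb := Set.range (fun p : Fin 2 × Fin 2 => w p.1 p.2) with hT
  let T₀ : Finset Qb := Finset.univ.image (fun p : Fin 2 × Fin 2 => w p.1 p.2)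
  have hT₀ : ∀ x, x ∈ T₀ → x ∈ T := by
    intro x hx
    obtain ⟨p, _, rfl⟩ := Finset.mem_image.mp hx
    exact ⟨p, rfl⟩
  have hwT₀ : ∀ i j, w i j ∈ T₀ := fun i j =>
    Finset.mem_image.mpr ⟨(i, j), Finset.mem_univ _, rfl⟩
  obtain ⟨A3, hA3⟩ := exists_liesOverPrime 3 Nat.prime_three
  have hH' : ∀ σ ∈ A3.inertiaSubgroupIn ℚ, ∃ m' : ℕ, Odd m' ∧ σ ^ m' ∈ fixCore T := fun σ hσ =>
    ⟨m, hm, pow_mem_fixCore T 3 m (fun A hA σ hσ x hx => by
      obtain ⟨p, rfl⟩ := hx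
      exact hH A hA σ hσ p.1 p.2) A3 hA3 σ hσ⟩
  -- the four roots
  set gK : Qb[X] := g.map (Int.castRingHom Qb) with hgK
  have hmon : gK.Monic := hg.map _
  have hdegK : gK.natDegree = 4 := by rw [hgK, hg.natDegree_map, hdeg]
  obtain ⟨x1, x2, x3, x4, hfac⟩ := exists_four_roots gK hmon hdegK
  have hpoly : gK = X ^ 4 - C (6 * (c : Qb)) * X ^ 2 - C (8 * (d : Qb)) * X - C (3 * (c : Qb) ^ 2) := by
    apply Polynomial.funext
    intro t
    rw [hgeval]
    simp
  obtain ⟨h1, h2, h3, h4⟩ := QuarticDisc.sym_of_prod_eq (c : Qb) (d : Qb) x1 x2 x3 x4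
    (by rw [← hfac, hpoly])
  have hne' : ((c : ℤ) : ℚ) ^ 3 ≠ ((d : ℤ) : ℚ) ^ 2 := by exact_mod_cast hne
  obtain ⟨τ0, hτ0, hmv⟩ := SqrtNegThree.exists_mem_moves_root (fixCore T) A3 hA3 hH'
    ((c : ℤ) : ℚ) ((d : ℤ) : ℚ) hne' x1 x2 x3 x4 h1
    (by rw [Rat.cast_intCast]; exact h2) (by rw [Rat.cast_intCast]; exact h3)
    (by rw [Rat.cast_intCast]; exact h4)
  -- every `x_i` is a root
  have hroot : ∀ x : Qb, (x = x1 ∨ x = x2 ∨ x = x3 ∨ x = x4) → eval x gK = 0 := by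
    intro x hx
    rw [hfac]
    rcases hx with rfl | rfl | rfl | rfl <;> simp
  obtain ⟨x, hxroot, hxmv⟩ : ∃ x : Qb, eval x gK = 0 ∧ τ0 x ≠ x := by
    rcases hmv with h | h | h | h
    · exact ⟨x1, hroot x1 (Or.inl rfl), h⟩
    · exact ⟨x2, hroot x2 (Or.inr (Or.inl rfl)), h⟩
    · exact ⟨x3, hroot x3 (Or.inr (Or.inr (Or.inl rfl))), h⟩
    · exact ⟨x4, hroot x4 (Or.inr (Or.inr (Or.inr rfl))), h⟩
  have hdegQ : (g.map (Int.castRingHom ℚ)).natDegree = 4 := by rw [hg.natDegree_map, hdeg]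
  obtain ⟨τ, hτ, hder⟩ := RootAction.exists_derangement_of_moves (g.map (Int.castRingHom ℚ)) hirr
    hdegQ (fixCore T) ⟨τ0, hτ0, x, by rw [aeval_map_rat]; exact hxroot, hxmv⟩
  obtain ⟨ℓ, hℓ, hℓB, h⟩ := ChebSplit.exists_prime_fix_derange_roots T₀ g τ
    (fun y hy γ => hτ y (hT₀ y hy) γ)
    (fun y _ hy => by
      have := hder 1 y (by rw [aeval_map_rat, ← aeval_int]; exact hy)
      simpa using this) B
  refine ⟨ℓ, hℓ, hℓB, fun A τ' hA hτ' => ?_⟩
  obtain ⟨hfix, hmove⟩ := h A τ' hA hτ'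
  refine ⟨fun i j => hfix _ (hwT₀ i j), fun y hy => ?_⟩
  exact hmove y hg.ne_zero (by rw [aeval_int]; exact hy)

end Fermat.Agent.G35.Irr3.AsmPrime
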