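/-
GATE-Q / S52 (3–5 switch), node Q6, small leaf (helper92): THE 3-DIVISION POLYNOMIAL IN TERMS OF
`(c₄, c₆)` AND ITS SCALE INVARIANCE.

* `shortQuartic c4 c6 t = t⁴ - 6 c4 t² - 8 c6 t - 3 c4²` (= `ψ₃` of `y² = x³ - 27 c4 x - 54 c6` at
  `x = 3 t`, divided by `243`);
* `Ψ₃_eval_eq` : `6912 * Ψ₃(W)(x) = shortQuartic c₄(W) c₆(W) (12 x + b₂(W))` over ANY commutative
  ring;
* `shortQuartic_scale` : weighted homogeneity `(c4, c6, t) ↦ (λ⁴ c4, λ⁶ c6, λ² t)`;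
* over a field where `6 ≠ 0`: `Ψ₃(W)` has a root iff `shortQuartic c₄ c₆` has a root, and the latter
  only depends on `(c₄, c₆)` up to `(λ⁴ c₄, λ⁶ c₆)`;
* `ZMod ℓ` corollary for an integral model `W'` with `(c₄, c₆)(W') ≡ (λ⁴ c4₀, λ⁶ c6₀)` mod `ℓ`.
-/
import Mathlib

set_option autoImplicit false

namespace Fermat.Agent.G35.Irr3.Psi3Scale

open WeierstrassCurve Polynomial

section Ring

variable {R : Type*} [CommRing R]

/-- the 3-division quartic of the short model, in the variable `t = x / 3`. -/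
def shortQuartic (c4 c6 t : R) : R := t ^ 4 - 6 * c4 * t ^ 2 - 8 * c6 * t - 3 * c4 ^ 2

theorem shortQuartic_scale (lam c4 c6 t : R) :
    shortQuartic (lam ^ 4 * c4) (lam ^ 6 * c6) (lam ^ 2 * t) = lam ^ 8 * shortQuartic c4 c6 t := by
  simp only [shortQuartic]; ring

theorem shortQuartic_map {S : Type*} [CommRing S] (φ : R →+* S) (c4 c6 t : R) :
    φ (shortQuartic c4 c6 t) = shortQuartic (φ c4) (φ c6) (φ t) := by
  simp only [shortQuartic, map_sub, map_mul, map_pow, map_ofNat]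

/-- **`Ψ₃` of any Weierstrass curve in terms of `(c₄, c₆)`.** -/
theorem Ψ₃_eval_eq (W : WeierstrassCurve R) (x : R) :
    6912 * W.Ψ₃.eval x = shortQuartic W.c₄ W.c₆ (12 * x + W.b₂) := by
  simp only [Ψ₃, shortQuartic, c₄, c₆, b₂, b₄, b₆, b₈, eval_add, eval_mul, eval_pow, eval_X,
    eval_C, eval_ofNat]
  ring

/-- explicit value of `Ψ₃`. -/
theorem Ψ₃_eval (W : WeierstrassCurve R) (x : R) :
    W.Ψ₃.eval x = 3 * x ^ 4 + W.b₂ * x ^ 3 + 3 * W.b₄ * x ^ 2 + 3 * W.b₆ * x + W.b₈ := by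
  simp only [Ψ₃, eval_add, eval_mul, eval_pow, eval_X, eval_C, eval_ofNat]

/-- explicit value of a mapped `Ψ₃`. -/
theorem Ψ₃_map_eval {S : Type*} [CommRing S] (φ : R →+* S) (W : WeierstrassCurve R) (x : S) :
    (W.Ψ₃.map φ).eval x =
      3 * x ^ 4 + φ W.b₂ * x ^ 3 + 3 * φ W.b₄ * x ^ 2 + 3 * φ W.b₆ * x + φ W.b₈ := by
  rw [← map_Ψ₃, Ψ₃_eval, map_b₂, map_b₄, map_b₆, map_b₈]

end Ring

section Field

variable {F : Type*} [Field F]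

/-- over a field with `6 ≠ 0`: `Ψ₃(W)` has a root iff the short quartic of `(c₄, c₆)` has. -/
theorem exists_root_Ψ₃_iff (h6 : (6 : F) ≠ 0) (W : WeierstrassCurve F) :
    (∃ x : F, W.Ψ₃.eval x = 0) ↔ ∃ t : F, shortQuartic W.c₄ W.c₆ t = 0 := by
  have h2 : (2 : F) ≠ 0 := fun h => h6 (by linear_combination 3 * h)
  have h3 : (3 : F) ≠ 0 := fun h => h6 (by linear_combination 2 * h)
  have h12 : (12 : F) ≠ 0 := by
    have : (12 : F) = 2 * 6 := by norm_num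
    rw [this]; exact mul_ne_zero h2 h6
  have h6912 : (6912 : F) ≠ 0 := by
    have : (6912 : F) = 2 ^ 8 * 3 ^ 3 := by norm_num
    rw [this]; exact mul_ne_zero (pow_ne_zero _ h2) (pow_ne_zero _ h3)
  constructor
  · rintro ⟨x, hx⟩
    exact ⟨12 * x + W.b₂, by rw [← Ψ₃_eval_eq, hx, mul_zero]⟩
  · rintro ⟨t, ht⟩
    refine ⟨(t - W.b₂) / 12, ?_⟩
    have h := Ψ₃_eval_eq W ((t - W.b₂) / 12)
    have e : 12 * ((t - W.b₂) / 12) + W.b₂ = t := by field_simp; ring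
    rw [e, ht] at h
    exact (mul_eq_zero.mp h).resolve_left h6912

/-- scale invariance of 'the short quartic has a root'. -/
theorem exists_root_shortQuartic_scale_iff {lam : F} (hlam : lam ≠ 0) (c4 c6 : F) :
    (∃ t : F, shortQuartic (lam ^ 4 * c4) (lam ^ 6 * c6) t = 0) ↔
      ∃ t : F, shortQuartic c4 c6 t = 0 := by
  constructor
  · rintro ⟨t, ht⟩
    refine ⟨t / lam ^ 2, ?_⟩
    have h := shortQuartic_scale lam c4 c6 (t / lam ^ 2)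
    have e : lam ^ 2 * (t / lam ^ 2) = t := by field_simp
    rw [e, ht] at h
    exact (mul_eq_zero.mp h.symm).resolve_left (pow_ne_zero _ hlam)
  · rintro ⟨t, ht⟩
    exact ⟨lam ^ 2 * t, by rw [shortQuartic_scale, ht, mul_zero]⟩

/-- **no root of the reference quartic ⟹ no root of `Ψ₃(W)`** when `(c₄, c₆)(W)` is a scaling of
the reference pair. -/
theorem Ψ₃_eval_ne_zero_of_scale (h6 : (6 : F) ≠ 0) (W : WeierstrassCurve F) {lam c4 c6 : F}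
    (hlam : lam ≠ 0) (h4 : W.c₄ = lam ^ 4 * c4) (h6' : W.c₆ = lam ^ 6 * c6)
    (hroot : ∀ t : F, shortQuartic c4 c6 t ≠ 0) (x : F) : W.Ψ₃.eval x ≠ 0 := by
  intro hx
  have h1 := (exists_root_Ψ₃_iff h6 W).mp ⟨x, hx⟩
  rw [h4, h6'] at h1
  obtain ⟨t, ht⟩ := (exists_root_shortQuartic_scale_iff hlam c4 c6).mp h1
  exact hroot t ht

end Field

section ZMod

variable (ℓ : ℕ) [Fact ℓ.Prime]

theorem six_ne_zero_zmod (h2 : ℓ ≠ 2) (h3 : ℓ ≠ 3) : (6 : ZMod ℓ) ≠ 0 := by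
  intro h
  have h' : ((6 : ℕ) : ZMod ℓ) = 0 := by exact_mod_cast h
  rw [ZMod.natCast_eq_zero_iff] at h'
  have hp : ℓ.Prime := Fact.out
  have h6 : (6 : ℕ) = 2 * 3 := by norm_num
  rw [h6] at h'
  rcases (Nat.Prime.dvd_mul hp).mp h' with h | h
  · exact h2 ((Nat.prime_dvd_prime_iff_eq hp Nat.prime_two).mp h)
  · exact h3 ((Nat.prime_dvd_prime_iff_eq hp Nat.prime_three).mp h)

/-- **the `ZMod ℓ` form for an integral model**: if `(c₄, c₆)(W') ≡ (λ⁴ c4₀, λ⁶ c6₀)` mod `ℓ` with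
`λ` a unit mod `ℓ`, `ℓ ≠ 2, 3`, and the reference quartic of `(c4₀, c6₀)` has no root in `𝔽_ℓ`, then
`Ψ₃(W')` has no root in `𝔽_ℓ`. -/
theorem Ψ₃_map_eval_ne_zero (h2 : ℓ ≠ 2) (h3 : ℓ ≠ 3) (W' : WeierstrassCurve ℤ)
    {lam : ZMod ℓ} (hlam : lam ≠ 0) (c4 c6 : ℤ)
    (h4 : ((W'.c₄ : ℤ) : ZMod ℓ) = lam ^ 4 * (c4 : ZMod ℓ))
    (h6 : ((W'.c₆ : ℤ) : ZMod ℓ) = lam ^ 6 * (c6 : ZMod ℓ))
    (hroot : ∀ t : ZMod ℓ, shortQuartic (c4 : ZMod ℓ) (c6 : ZMod ℓ) t ≠ 0) (x : ZMod ℓ) :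
    (W'.Ψ₃.map (Int.castRingHom (ZMod ℓ))).eval x ≠ 0 := by
  have hmap : W'.Ψ₃.map (Int.castRingHom (ZMod ℓ)) = (W'.map (Int.castRingHom (ZMod ℓ))).Ψ₃ :=
    (map_Ψ₃ W' (Int.castRingHom (ZMod ℓ))).symm
  rw [hmap]
  refine Ψ₃_eval_ne_zero_of_scale (six_ne_zero_zmod ℓ h2 h3) _ hlam ?_ ?_ hroot x
  · rw [map_c₄]; simpa using h4
  · rw [map_c₆]; simpa using h6

/-- the same in the explicit-coefficient form used by `G35/Irr3/PsiThree.lean`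
(`modRepIsIrreducible_three_of_no_root`). -/
theorem quartic_ne_zero_of_scale (h2 : ℓ ≠ 2) (h3 : ℓ ≠ 3) (W' : WeierstrassCurve ℤ)
    {lam : ZMod ℓ} (hlam : lam ≠ 0) (c4 c6 : ℤ)
    (h4 : ((W'.c₄ : ℤ) : ZMod ℓ) = lam ^ 4 * (c4 : ZMod ℓ))
    (h6 : ((W'.c₆ : ℤ) : ZMod ℓ) = lam ^ 6 * (c6 : ZMod ℓ))
    (hroot : ∀ t : ZMod ℓ, shortQuartic (c4 : ZMod ℓ) (c6 : ZMod ℓ) t ≠ 0) (t : ZMod ℓ) :
    3 * t ^ 4 + (W'.b₂ : ZMod ℓ) * t ^ 3 + 3 * (W'.b₄ : ZMod ℓ) * t ^ 2 +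
      3 * (W'.b₆ : ZMod ℓ) * t + (W'.b₈ : ZMod ℓ) ≠ 0 := by
  have h := Ψ₃_map_eval_ne_zero ℓ h2 h3 W' hlam c4 c6 h4 h6 hroot t
  rw [Ψ₃_map_eval] at h
  simpa only [eq_intCast] using h

/-- a rational root of `Ψ₃(W')` (`W'` integral) gives a root modulo every prime `ℓ ≠ 3`. -/
theorem exists_root_zmod_of_rat_root (h3 : ℓ ≠ 3) (W' : WeierstrassCurve ℤ) (r : ℚ)
    (hr : (W'.Ψ₃.map (Int.castRingHom ℚ)).eval r = 0) :
    ∃ x : ZMod ℓ, (W'.Ψ₃.map (Int.castRingHom (ZMod ℓ))).eval x = 0 := by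
  have hp : ℓ.Prime := Fact.out
  -- `r = n / d` in lowest terms; `ℓ ∤ d` since the leading coefficient is `3`
  set n : ℤ := r.num with hn
  set d : ℕ := r.den with hd
  have hd0 : (d : ℚ) ≠ 0 := by exact_mod_cast r.den_ne_zero
  have hrnd : r = (n : ℚ) / d := (Rat.num_div_den r).symm
  -- clear denominators
  have hint : 3 * n ^ 4 + W'.b₂ * n ^ 3 * d + 3 * W'.b₄ * n ^ 2 * d ^ 2 + 3 * W'.b₆ * n * d ^ 3 +
      W'.b₈ * d ^ 4 = 0 := by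
    have h1 : (W'.Ψ₃.map (Int.castRingHom ℚ)).eval r =
        3 * r ^ 4 + (W'.b₂ : ℚ) * r ^ 3 + 3 * (W'.b₄ : ℚ) * r ^ 2 + 3 * (W'.b₆ : ℚ) * r +
          (W'.b₈ : ℚ) := by
      rw [Ψ₃_map_eval]; simp only [eq_intCast]
    rw [h1, hrnd] at hr
    have h2 : ((3 * n ^ 4 + W'.b₂ * n ^ 3 * d + 3 * W'.b₄ * n ^ 2 * d ^ 2 + 3 * W'.b₆ * n * d ^ 3 +
        W'.b₈ * d ^ 4 : ℤ) : ℚ) = 0 := by
      push_cast
      field_simp at hr
      linear_combination hr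
    exact_mod_cast h2
  have hcop : Nat.Coprime n.natAbs d := r.reduced
  have hld : ¬ (ℓ : ℤ) ∣ (d : ℤ) := by
    intro hdvd
    -- then `ℓ ∣ 3 n⁴`, so `ℓ ∣ n`, contradicting coprimality
    have h1 : (ℓ : ℤ) ∣ 3 * n ^ 4 := by
      have h2 : 3 * n ^ 4 = -(W'.b₂ * n ^ 3 + 3 * W'.b₄ * n ^ 2 * d + 3 * W'.b₆ * n * d ^ 2 +
          W'.b₈ * d ^ 3) * d := by linear_combination hint
      rw [h2]; exact Dvd.dvd.mul_left hdvd _
    have hpi : Prime (ℓ : ℤ) := Nat.prime_iff_prime_int.mp hp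
    have h3' : ¬ (ℓ : ℤ) ∣ 3 := by
      intro h
      have : ℓ ∣ 3 := by exact_mod_cast h
      exact h3 ((Nat.prime_dvd_prime_iff_eq hp Nat.prime_three).mp this)
    have hn' : (ℓ : ℤ) ∣ n := hpi.dvd_of_dvd_pow ((hpi.dvd_or_dvd h1).resolve_left h3')
    have h4 : ℓ ∣ n.natAbs := Int.natCast_dvd.mp hn'
    have h5 : ℓ ∣ d := by exact_mod_cast hdvd
    have := Nat.dvd_gcd h4 h5
    rw [hcop] at this
    exact hp.one_lt.ne' (Nat.dvd_one.mp this)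
  have hdu : ((d : ℤ) : ZMod ℓ) ≠ 0 := by
    rwa [Ne, ZMod.intCast_zmod_eq_zero_iff_dvd]
  refine ⟨(n : ZMod ℓ) / ((d : ℤ) : ZMod ℓ), ?_⟩
  have h1 : (W'.Ψ₃.map (Int.castRingHom (ZMod ℓ))).eval ((n : ZMod ℓ) / ((d : ℤ) : ZMod ℓ)) =
      3 * ((n : ZMod ℓ) / ((d : ℤ) : ZMod ℓ)) ^ 4 +
        (W'.b₂ : ZMod ℓ) * ((n : ZMod ℓ) / ((d : ℤ) : ZMod ℓ)) ^ 3 +
        3 * (W'.b₄ : ZMod ℓ) * ((n : ZMod ℓ) / ((d : ℤ) : ZMod ℓ)) ^ 2 +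
        3 * (W'.b₆ : ZMod ℓ) * ((n : ZMod ℓ) / ((d : ℤ) : ZMod ℓ)) + (W'.b₈ : ZMod ℓ) := by
    rw [Ψ₃_map_eval]; simp only [eq_intCast]
  rw [h1]
  have h2 := congrArg (Int.cast : ℤ → ZMod ℓ) hint
  push_cast at h2
  have e : ((d : ℤ) : ZMod ℓ) = (d : ZMod ℓ) := Int.cast_natCast d
  rw [e] at hdu ⊢
  field_simp
  linear_combination h2

end ZMod

end Fermat.Agent.G35.Irr3.Psi3Scale
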