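/-
GATE-Q / S52 (3–5 switch), node Q6d = T2 (helper92): SOME MEMBER OF THE 5-CONGRUENT FAMILY IS
SEMISTABLE WITH IRREDUCIBLE MOD-3 REPRESENTATION.

Generic in the forms: `F4 F6 : MvPolynomial (Fin 2) ℤ`, weighted-homogeneous of degrees `4k`, `6k`
(Klein: `k = 5`), a rational reference point `u0` with reference quartic
`g = t⁴ - 6 c4₀ t² - 8 c6₀ t - 3 c4₀²` irreducible over `ℚ` (+ a Bezout certificate), the descent
matrix `w` (rows `w 0 = ι e₀`, `w 1 = ι e₁`), and the TWO line families through `e₀`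
(`LineFam … ![0,1]`, `LineFam … ![1,1]`; two lines because one affine line misses a point of `ℙ¹`).

`exists_member_irr3` : `∃ W', W'.Δ ≠ 0 ∧ W'.IsSemistableModel ∧ W'.ModRepIsIrreducible 3 ∧ C W'`
where `C` is any property supplied by the families (for S52: `TopTN.FiveCongTN W`).

Chain: `AsmPrime.exists_good_prime` (Chebotarev prime `ℓ`: Frobenius fixes `w`, deranges the roots of
`g`) → `ResidueInt.exists_int_matrix` (`w ≡ J` integer matrix mod `𝔪_A`) → `AsmMod.exists_line_hits`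
(a member `v` on one of the two lines with `J v ≡ λ u0`) → `Integral.exists_semistable_member` (the
semistable integral model `W'`) → `AsmMod.member_c_zmod` + `Psi3Scale.quartic_ne_zero_of_scale` +
`Derange.no_root_zmod_of_frobenius_derangement` + `PsiThree.modRepIsIrreducible_three_of_no_root`.
-/
import Fermat.Agent.G35.Integral
import Fermat.Agent.G35.Irr3.Psi3Scale
import Fermat.Agent.G35.Irr3.PsiThree
import Fermat.Agent.G35.Irr3.AsmPrime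
import Fermat.Agent.G35.Irr3.AsmMod

set_option autoImplicit false

open Fermat.Agent.Common_helper32 Polynomial

namespace Fermat.Agent.G35.Irr3.Assemble

open AsmMod

/-- **a line family through `e₀` with direction `d`**: rational polynomials `f4, f6` (coprime,
through `(c₄, c₆)(W)` at `0`) giving the forms `F4, F6` at the points `ι (e₀ + t d)`, `t ∈ ℤ`, and
such that every integral model of a member with `Δ ≠ 0` has the property `C`. -/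
def LineFam (W : WeierstrassCurve ℤ) (C : WeierstrassCurve ℤ → Prop)
    (F4 F6 : MvPolynomial (Fin 2) ℤ) (w : Fin 2 → Fin 2 → Qb) (d : Fin 2 → ℤ) : Prop :=
  ∃ f4 f6 : ℚ[X], IsCoprime f4 f6 ∧ f4.eval 0 = W.c₄ ∧ f6.eval 0 = W.c₆ ∧
    (∀ t : ℤ, ((f4.eval (t : ℚ) : ℚ) : Qb) =
      MvPolynomial.aeval (ptZ w ![1 + t * d 0, t * d 1]) F4) ∧
    (∀ t : ℤ, ((f6.eval (t : ℚ) : ℚ) : Qb) =
      MvPolynomial.aeval (ptZ w ![1 + t * d 0, t * d 1]) F6) ∧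
    ∀ (t : ℤ) (W' : WeierstrassCurve ℤ), W'.Δ ≠ 0 → ((W'.c₄ : ℤ) : ℚ) = f4.eval (t : ℚ) →
      ((W'.c₆ : ℤ) : ℚ) = f6.eval (t : ℚ) → C W'

/-- a prime not among the prime factors of `|N|` does not divide `N`. -/
theorem not_dvd_of_notMem_primeFactors {ℓ : ℕ} (hℓ : ℓ.Prime) {N : ℤ} (hN : N ≠ 0)
    (h : ℓ ∉ N.natAbs.primeFactors) : ¬ (ℓ : ℤ) ∣ N := by
  intro hd
  apply h
  rw [Nat.mem_primeFactors]
  exact ⟨hℓ, Int.natCast_dvd.mp hd, Int.natAbs_ne_zero.mpr hN⟩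

/-- **the member on a line hitting the reference point mod `ℓ`** is semistable with irreducible
mod-3 representation. -/
theorem finish {ℓ : ℕ} (hℓ : ℓ.Prime) (h2 : ℓ ≠ 2) (h3 : ℓ ≠ 3) (A : ValuationSubring Qb)
    (hA : A.LiesOverPrime ℓ) (τ : GQ) (hτ : A.IsFrobeniusAt τ ℓ)
    (k : ℕ) (F4 F6 : MvPolynomial (Fin 2) ℤ)
    (hF4 : ∀ (lam : ℤ) (x : Fin 2 → ℤ),
      MvPolynomial.eval (fun i => lam * x i) F4 = lam ^ (4 * k) * MvPolynomial.eval x F4)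
    (hF6 : ∀ (lam : ℤ) (x : Fin 2 → ℤ),
      MvPolynomial.eval (fun i => lam * x i) F6 = lam ^ (6 * k) * MvPolynomial.eval x F6)
    (u0 : Fin 2 → ℤ) (c4₀ c6₀ : ℤ) (hc4₀ : MvPolynomial.eval u0 F4 = c4₀)
    (hc6₀ : MvPolynomial.eval u0 F6 = c6₀) (hne : ¬ (ℓ : ℤ) ∣ c4₀ ^ 3 - c6₀ ^ 2)
    (g a b : ℤ[X]) (D : ℤ) (hg : g.Monic)
    (hgevalZ : ∀ t : ZMod ℓ, (g.map (Int.castRingHom (ZMod ℓ))).eval t =
      t ^ 4 - 6 * (c4₀ : ZMod ℓ) * t ^ 2 - 8 * (c6₀ : ZMod ℓ) * t - 3 * (c4₀ : ZMod ℓ) ^ 2)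
    (hbez : a * g + b * derivative g = C D) (hD : ¬ (ℓ : ℤ) ∣ D)
    (hder : ∀ x : Qb, eval x (g.map (Int.castRingHom Qb)) = 0 → τ x ≠ x)
    (w : Fin 2 → Fin 2 → Qb) (J : Fin 2 → Fin 2 → ℤ) (hwA : ∀ i j, w i j ∈ A)
    (hwJ : ∀ i j, w i j - (J i j : Qb) ∈ A.nonunits)
    (P : WeierstrassCurve ℤ → Prop) (d : Fin 2 → ℤ) (f4 f6 : ℚ[X])
    (h4 : ∀ t : ℤ, ((f4.eval (t : ℚ) : ℚ) : Qb) =
      MvPolynomial.aeval (ptZ w ![1 + t * d 0, t * d 1]) F4)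
    (h6 : ∀ t : ℤ, ((f6.eval (t : ℚ) : ℚ) : Qb) =
      MvPolynomial.aeval (ptZ w ![1 + t * d 0, t * d 1]) F6)
    (hP : ∀ (t : ℤ) (W' : WeierstrassCurve ℤ), W'.Δ ≠ 0 → ((W'.c₄ : ℤ) : ℚ) = f4.eval (t : ℚ) →
      ((W'.c₆ : ℤ) : ℚ) = f6.eval (t : ℚ) → P W')
    (M : ℤ) (hM : ¬ (ℓ : ℤ) ∣ M)
    (hQ5 : ∀ b : ℤ, f4.eval ((M * b : ℤ) : ℚ) ^ 3 ≠ f6.eval ((M * b : ℤ) : ℚ) ^ 2 →
      ∃ W' : WeierstrassCurve ℤ, ((W'.c₄ : ℤ) : ℚ) = f4.eval ((M * b : ℤ) : ℚ) ∧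
        ((W'.c₆ : ℤ) : ℚ) = f6.eval ((M * b : ℤ) : ℚ) ∧ W'.Δ ≠ 0 ∧ W'.IsSemistableModel)
    (t lam : ZMod ℓ) (hlam : lam ≠ 0)
    (hline : ∀ i, (1 + t * (d 0 : ZMod ℓ)) * (J 0 i : ZMod ℓ) + (t * (d 1 : ZMod ℓ)) * (J 1 i : ZMod ℓ)
      = lam * (u0 i : ZMod ℓ)) :
    ∃ W' : WeierstrassCurve ℤ, W'.Δ ≠ 0 ∧ W'.IsSemistableModel ∧ W'.ModRepIsIrreducible 3 ∧
      P W' := by
  have : Fact ℓ.Prime := ⟨hℓ⟩
  have hMz : (M : ZMod ℓ) ≠ 0 := by rwa [Ne, ZMod.intCast_zmod_eq_zero_iff_dvd]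
  obtain ⟨bb, hbb⟩ := ZMod.intCast_surjective (t * (M : ZMod ℓ)⁻¹)
  obtain ⟨L, hL⟩ := ZMod.intCast_surjective lam
  have hLd : ¬ (ℓ : ℤ) ∣ L := by
    rw [← ZMod.intCast_zmod_eq_zero_iff_dvd, hL]; exact hlam
  set tz : ℤ := M * bb with htz
  have htzz : (tz : ZMod ℓ) = t := by
    rw [htz]; push_cast; rw [hbb]; field_simp
  set v : Fin 2 → ℤ := ![1 + tz * d 0, tz * d 1] with hvdef
  have hv : ∀ i, (ℓ : ℤ) ∣ (v 0 * J 0 i + v 1 * J 1 i) - L * u0 i := by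
    intro i
    rw [← ZMod.intCast_zmod_eq_zero_iff_dvd]
    have hv0 : v 0 = 1 + tz * d 0 := rfl
    have hv1 : v 1 = tz * d 1 := rfl
    rw [hv0, hv1]
    push_cast
    rw [htzz, hL, hline i, sub_self]
  -- the discriminant
  have hdisc := member_disc_ne hℓ A hA k F4 F6 hF4 hF6 u0 c4₀ c6₀ hc4₀ hc6₀ w J hwA hwJ v L hv hLd
    hne
  rw [← h4 tz, ← h6 tz] at hdisc
  have hdiscQ : f4.eval ((M * bb : ℤ) : ℚ) ^ 3 ≠ f6.eval ((M * bb : ℤ) : ℚ) ^ 2 := by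
    intro h
    apply hdisc
    have := congrArg (fun q : ℚ => (q : Qb)) h
    simpa only [Rat.cast_pow] using this
  obtain ⟨W', e4, e6, hΔ', hss'⟩ := hQ5 bb hdiscQ
  have e4' : ((W'.c₄ : ℤ) : Qb) = MvPolynomial.aeval (ptZ w v) F4 := by
    rw [← h4 tz, ← e4, Rat.cast_intCast]
  have e6' : ((W'.c₆ : ℤ) : Qb) = MvPolynomial.aeval (ptZ w v) F6 := by
    rw [← h6 tz, ← e6, Rat.cast_intCast]
  obtain ⟨hc4, hc6⟩ := member_c_zmod hℓ A hA k F4 F6 hF4 hF6 u0 c4₀ c6₀ hc4₀ hc6₀ w J hwA hwJ v L hv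
    W' e4' e6'
  have hLk : ((L : ZMod ℓ) ^ k) ≠ 0 := pow_ne_zero k (by rw [hL]; exact hlam)
  have hroot : ∀ t' : ZMod ℓ, Psi3Scale.shortQuartic (c4₀ : ZMod ℓ) (c6₀ : ZMod ℓ) t' ≠ 0 := by
    intro t'
    have h := Derange.no_root_zmod_of_frobenius_derangement hℓ g a b D hg hbez hD A hA τ hτ hder t'
    rw [hgevalZ] at h
    exact h
  refine ⟨W', hΔ', hss', ?_, hP tz W' hΔ' e4 e6⟩
  exact modRepIsIrreducible_three_of_no_root W' hΔ' ℓ h3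
    (Psi3Scale.quartic_ne_zero_of_scale ℓ h2 h3 W' hLk c4₀ c6₀ hc4 hc6 hroot)

/-- the part of `Integral.exists_semistable_member` used here. -/
theorem exists_modulus (W : WeierstrassCurve ℤ) (hss : W.IsSemistableModel) (f4 f6 : ℚ[X])
    (h4 : f4.eval 0 = W.c₄) (h6 : f6.eval 0 = W.c₆) (hcop : IsCoprime f4 f6) :
    ∃ M : ℤ, M ≠ 0 ∧ ∀ b : ℤ, f4.eval ((M * b : ℤ) : ℚ) ^ 3 ≠ f6.eval ((M * b : ℤ) : ℚ) ^ 2 →
      ∃ W' : WeierstrassCurve ℤ, ((W'.c₄ : ℤ) : ℚ) = f4.eval ((M * b : ℤ) : ℚ) ∧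
        ((W'.c₆ : ℤ) : ℚ) = f6.eval ((M * b : ℤ) : ℚ) ∧ W'.Δ ≠ 0 ∧ W'.IsSemistableModel := by
  obtain ⟨M, hM0, -, hQ⟩ :=
    Fermat.Agent.G35.Integral.exists_semistable_member W hss f4 f6 h4 h6 hcop 1 one_ne_zero
  refine ⟨M, hM0, fun b hb => ?_⟩
  obtain ⟨W', -, -, -, -, -, e4, e6, -, hΔ, hss'⟩ := hQ b hb
  exact ⟨W', e4, e6, hΔ, hss'⟩

/-- **T2 = Q6d: some member of the family is semistable with irreducible mod-3 representation.** -/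
theorem exists_member_irr3 (W : WeierstrassCurve ℤ) (hss : W.IsSemistableModel)
    (P : WeierstrassCurve ℤ → Prop) (k : ℕ) (F4 F6 : MvPolynomial (Fin 2) ℤ)
    (hF4 : ∀ (lam : ℤ) (x : Fin 2 → ℤ),
      MvPolynomial.eval (fun i => lam * x i) F4 = lam ^ (4 * k) * MvPolynomial.eval x F4)
    (hF6 : ∀ (lam : ℤ) (x : Fin 2 → ℤ),
      MvPolynomial.eval (fun i => lam * x i) F6 = lam ^ (6 * k) * MvPolynomial.eval x F6)
    (u0 : Fin 2 → ℤ) (hu0 : u0 0 ≠ 0) (c4₀ c6₀ : ℤ) (hc4₀ : MvPolynomial.eval u0 F4 = c4₀)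
    (hc6₀ : MvPolynomial.eval u0 F6 = c6₀) (hne : c4₀ ^ 3 ≠ c6₀ ^ 2)
    (g a b : ℤ[X]) (D : ℤ) (hg : g.Monic) (hdeg : g.natDegree = 4)
    (hgeval : ∀ (R : Type) [CommRing R] (t : R), (g.map (Int.castRingHom R)).eval t =
      t ^ 4 - 6 * (c4₀ : R) * t ^ 2 - 8 * (c6₀ : R) * t - 3 * (c4₀ : R) ^ 2)
    (hirr : Irreducible (g.map (Int.castRingHom ℚ)))
    (hbez : a * g + b * derivative g = C D) (hD : D ≠ 0)
    (w : Fin 2 → Fin 2 → Qb) (hdet : w 0 0 * w 1 1 - w 0 1 * w 1 0 ≠ 0)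
    (m : ℕ) (hm : Odd m)
    (hH : ∀ A : ValuationSubring Qb, A.LiesOverPrime 3 → ∀ σ ∈ A.inertiaSubgroupIn ℚ,
      ∀ i j, (σ ^ m) (w i j) = w i j)
    (hfam1 : LineFam W P F4 F6 w ![0, 1]) (hfam2 : LineFam W P F4 F6 w ![1, 1]) :
    ∃ W' : WeierstrassCurve ℤ, W'.Δ ≠ 0 ∧ W'.IsSemistableModel ∧ W'.ModRepIsIrreducible 3 ∧
      P W' := by
  classical
  obtain ⟨f4, f6, hcop, h40, h60, h4, h6, hP1⟩ := hfam1
  obtain ⟨f4', f6', hcop', h40', h60', h4', h6', hP2⟩ := hfam2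
  obtain ⟨M1, hM10, hQ1⟩ := exists_modulus W hss f4 f6 h40 h60 hcop
  obtain ⟨M2, hM20, hQ2⟩ := exists_modulus W hss f4' f6' h40' h60' hcop'
  -- the descent matrix
  set Mw : Matrix (Fin 2) (Fin 2) Qb := Matrix.of w with hMw
  have hdetM : Mw.det = w 0 0 * w 1 1 - w 0 1 * w 1 0 := by
    rw [Matrix.det_fin_two]; rfl
  have hdetM0 : Mw.det ≠ 0 := by rw [hdetM]; exact hdet
  have hbadfin := ResidueInt.finite_bad_primes_matrix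
    (Matrix.GeneralLinearGroup.mkOfDetNeZero Mw hdetM0)
  -- the bad set
  set N : ℤ := 6 * D * (c4₀ ^ 3 - c6₀ ^ 2) * u0 0 * M1 * M2 with hN
  have hN0 : N ≠ 0 := by
    rw [hN]
    exact mul_ne_zero (mul_ne_zero (mul_ne_zero (mul_ne_zero (mul_ne_zero (by norm_num) hD)
      (sub_ne_zero.mpr hne)) hu0) hM10) hM20
  obtain ⟨ℓ, hℓ, hℓB, hfrob⟩ := AsmPrime.exists_good_prime w m hm hH c4₀ c6₀ hne g hg hdeg
    (hgeval Qb) hirr (N.natAbs.primeFactors ∪ hbadfin.toFinset)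
  have : Fact ℓ.Prime := ⟨hℓ⟩
  obtain ⟨A, τ, hA, hτ⟩ := exists_isFrobeniusAt ℓ hℓ
  obtain ⟨hfix, hder⟩ := hfrob A τ hA hτ
  have hℓN : ¬ (ℓ : ℤ) ∣ N :=
    not_dvd_of_notMem_primeFactors hℓ hN0 (fun h => hℓB (Finset.mem_union_left _ h))
  have hℓbad : ℓ ∉ hbadfin.toFinset := fun h => hℓB (Finset.mem_union_right _ h)
  rw [Set.Finite.mem_toFinset] at hℓbad
  have hd6 : ¬ (ℓ : ℤ) ∣ 6 := fun h =>
    hℓN (dvd_trans h ⟨D * (c4₀ ^ 3 - c6₀ ^ 2) * u0 0 * M1 * M2, by rw [hN]; ring⟩)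
  have hdD : ¬ (ℓ : ℤ) ∣ D := fun h =>
    hℓN (dvd_trans h ⟨6 * (c4₀ ^ 3 - c6₀ ^ 2) * u0 0 * M1 * M2, by rw [hN]; ring⟩)
  have hdne : ¬ (ℓ : ℤ) ∣ c4₀ ^ 3 - c6₀ ^ 2 := fun h =>
    hℓN (dvd_trans h ⟨6 * D * u0 0 * M1 * M2, by rw [hN]; ring⟩)
  have hdu : ¬ (ℓ : ℤ) ∣ u0 0 := fun h =>
    hℓN (dvd_trans h ⟨6 * D * (c4₀ ^ 3 - c6₀ ^ 2) * M1 * M2, by rw [hN]; ring⟩)
  have hdM1 : ¬ (ℓ : ℤ) ∣ M1 := fun h =>
    hℓN (dvd_trans h ⟨6 * D * (c4₀ ^ 3 - c6₀ ^ 2) * u0 0 * M2, by rw [hN]; ring⟩)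
  have hdM2 : ¬ (ℓ : ℤ) ∣ M2 := fun h =>
    hℓN (dvd_trans h ⟨6 * D * (c4₀ ^ 3 - c6₀ ^ 2) * u0 0 * M1, by rw [hN]; ring⟩)
  have h2 : ℓ ≠ 2 := fun h => hd6 (by rw [h]; norm_num)
  have h3 : ℓ ≠ 3 := fun h => hd6 (by rw [h]; norm_num)
  -- integrality of the matrix at `A`
  have hwA : ∀ i j, w i j ∈ A := by
    intro i j
    by_contra hcon
    exact hℓbad ⟨hℓ, A, hA, Or.inl ⟨i, j, hcon⟩⟩
  have hdetA : Mw.det ∉ A.nonunits := by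
    intro hcon
    exact hℓbad ⟨hℓ, A, hA, Or.inr hcon⟩
  obtain ⟨Jm, hJdet, hJ⟩ := ResidueInt.exists_int_matrix A ℓ hℓ hA τ hτ Mw hwA hdetA hfix
  -- linear algebra mod `ℓ`
  have hdetz : (Jm 0 0 : ZMod ℓ) * (Jm 1 1 : ZMod ℓ) - (Jm 0 1 : ZMod ℓ) * (Jm 1 0 : ZMod ℓ) ≠ 0 := by
    have : ((Jm.det : ℤ) : ZMod ℓ) ≠ 0 := by rwa [Ne, ZMod.intCast_zmod_eq_zero_iff_dvd]
    rw [Matrix.det_fin_two] at this
    push_cast at this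
    exact this
  have hua : ((u0 0 : ℤ) : ZMod ℓ) ≠ 0 := by rwa [Ne, ZMod.intCast_zmod_eq_zero_iff_dvd]
  rcases exists_line_hits (fun i => (Jm 0 i : ZMod ℓ)) (fun i => (Jm 1 i : ZMod ℓ))
    (fun i => (u0 i : ZMod ℓ)) hdetz hua with ⟨t, lam, hlam, hline⟩ | ⟨t, lam, hlam, hline⟩
  · exact finish hℓ h2 h3 A hA τ hτ k F4 F6 hF4 hF6 u0 c4₀ c6₀ hc4₀ hc6₀ hdne g a b D hg
      (hgeval (ZMod ℓ)) hbez hdD hder w (fun i j => Jm i j) hwA hJ P ![0, 1] f4 f6 h4 h6 hP1 M1 hdM1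
      hQ1 t lam hlam (fun i => by
        have := hline i
        simpa using this)
  · exact finish hℓ h2 h3 A hA τ hτ k F4 F6 hF4 hF6 u0 c4₀ c6₀ hc4₀ hc6₀ hdne g a b D hg
      (hgeval (ZMod ℓ)) hbez hdD hder w (fun i j => Jm i j) hwA hJ P ![1, 1] f4' f6' h4' h6' hP2 M2
      hdM2 hQ2 t lam hlam (fun i => by
        have := hline i
        simpa using this)

end Fermat.Agent.G35.Irr3.Assemble
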