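/-
GATE-Q (S52) / node Q6e (helper37): certificates for the Klein curve at `(u0, v0) = (1, 1)`
(`c₄ = 496`, `c₆ = ± 20008`, `c₄³ - c₆² = -1728 · 11⁵`; this is the curve `11a`) and for the resolvent
quartic `g3 c d = t⁴ - 6 c t² - 8 d t - 3 c²` of the 3-torsion.

* `prod_sq_eq_disc` : the discriminant of a depressed quartic in terms of its roots;
* `g3_disc` : for roots `x₁..x₄` of `g3 c d`, `(∏_{i<j} (xᵢ - xⱼ))² = -3 (192 (c³ - d²))²`
  (so `√-3 ∈ ℚ(roots)` when `c³ ≠ d²`);
* `irreducible_g0Q`, `irreducible_g0Q'` : `X⁴ - 2976 X² ∓ 160064 X - 738048` is irreducible over `ℚ`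
  (irreducible mod `5`);
* `exists_galois_of_roots` : the absolute Galois group is transitive on the roots in `ℚ̄`.
-/
import Mathlib

set_option autoImplicit false

namespace Fermat.Agent.G35.Irr3.Cert11

open Polynomial

/-! ### the discriminant -/

section Disc

variable {R : Type*} [CommRing R]

/-- the discriminant of the depressed quartic `t⁴ + p t² + q t + r` in terms of the roots -/
theorem prod_sq_eq_disc (x1 x2 x3 x4 p q r : R) (h1 : x1 + x2 + x3 + x4 = 0)
    (h2 : x1 * x2 + x1 * x3 + x1 * x4 + x2 * x3 + x2 * x4 + x3 * x4 = p)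
    (h3 : x1 * x2 * x3 + x1 * x2 * x4 + x1 * x3 * x4 + x2 * x3 * x4 = -q)
    (h4 : x1 * x2 * x3 * x4 = r) :
    ((x1 - x2) * (x1 - x3) * (x1 - x4) * (x2 - x3) * (x2 - x4) * (x3 - x4)) ^ 2
      = 16 * p ^ 4 * r - 4 * p ^ 3 * q ^ 2 - 128 * p ^ 2 * r ^ 2 + 144 * p * q ^ 2 * r - 27 * q ^ 4
        + 256 * r ^ 3 := by
  obtain rfl : x4 = -(x1 + x2 + x3) := by linear_combination h1
  obtain rfl : q = -(x1 * x2 * x3 + x1 * x2 * -(x1 + x2 + x3) + x1 * x3 * -(x1 + x2 + x3)
      + x2 * x3 * -(x1 + x2 + x3)) := by linear_combination h3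
  subst h2
  subst h4
  ring

/-- **the discriminant of the 3-torsion resolvent is `-3 ·` a square** -/
theorem g3_disc (x1 x2 x3 x4 c d : R) (h1 : x1 + x2 + x3 + x4 = 0)
    (h2 : x1 * x2 + x1 * x3 + x1 * x4 + x2 * x3 + x2 * x4 + x3 * x4 = -6 * c)
    (h3 : x1 * x2 * x3 + x1 * x2 * x4 + x1 * x3 * x4 + x2 * x3 * x4 = 8 * d)
    (h4 : x1 * x2 * x3 * x4 = -3 * c ^ 2) :
    ((x1 - x2) * (x1 - x3) * (x1 - x4) * (x2 - x3) * (x2 - x4) * (x3 - x4)) ^ 2
      = -3 * (192 * (c ^ 3 - d ^ 2)) ^ 2 := by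
  rw [prod_sq_eq_disc x1 x2 x3 x4 (-6 * c) (-8 * d) (-3 * c ^ 2) h1 h2 (by rw [h3]; ring) h4]
  ring

end Disc

/-! ### irreducibility of `g0` -/

/-- `g0 = X⁴ - 2976 X² - 160064 X - 738048 = g3 496 20008` over `ℤ` -/
noncomputable def g0Z : ℤ[X] := X ^ 4 - C 2976 * X ^ 2 - C 160064 * X - C 738048

/-- `g0' = X⁴ - 2976 X² + 160064 X - 738048 = g3 496 (-20008)` over `ℤ` -/
noncomputable def g0Z' : ℤ[X] := X ^ 4 - C 2976 * X ^ 2 + C 160064 * X - C 738048

theorem g0Z_monic : g0Z.Monic := by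
  unfold g0Z
  monicity!

theorem g0Z'_monic : g0Z'.Monic := by
  unfold g0Z'
  monicity!

theorem g0Z_natDegree : g0Z.natDegree = 4 := by
  unfold g0Z
  compute_degree!

theorem g0Z'_natDegree : g0Z'.natDegree = 4 := by
  unfold g0Z'
  compute_degree!

theorem eval_g0Z {R : Type*} [CommRing R] (t : R) :
    (g0Z.map (Int.castRingHom R)).eval t = t ^ 4 - 2976 * t ^ 2 - 160064 * t - 738048 := by
  unfold g0Z
  simp

theorem eval_g0Z' {R : Type*} [CommRing R] (t : R) :
    (g0Z'.map (Int.castRingHom R)).eval t = t ^ 4 - 2976 * t ^ 2 + 160064 * t - 738048 := by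
  unfold g0Z'
  simp

theorem monic_linear_eq {F : Type*} [Field F] (f : F[X]) (hf : f.Monic) (hd : f.natDegree = 1) :
    f = X + C (f.coeff 0) := hf.eq_X_add_C hd

theorem monic_quadratic_eq {F : Type*} [Field F] (f : F[X]) (hf : f.Monic) (hd : f.natDegree = 2) :
    f = X ^ 2 + C (f.coeff 1) * X + C (f.coeff 0) := by
  have hdeg : f.degree ≤ 2 := by
    rw [degree_eq_natDegree hf.ne_zero, hd]
    norm_num
  have h2 : f.coeff 2 = 1 := by
    have := hf.coeff_natDegree
    rwa [hd] at this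
  have := eq_quadratic_of_degree_le_two hdeg
  rw [h2, C_1, one_mul] at this
  exact this

/-- generic irreducibility criterion for a monic quartic over a field: no root and no factorisation
into two monic quadratics -/
theorem irreducible_quartic {F : Type*} [Field F] (p : F[X]) (hp : p.Monic) (hd : p.natDegree = 4)
    (hroot : ∀ t : F, p.eval t ≠ 0)
    (hquad : ∀ a b a' b' : F, ¬ ∀ t : F, (t ^ 2 + a * t + b) * (t ^ 2 + a' * t + b') = p.eval t) :
    Irreducible p := by
  rw [hp.irreducible_iff_natDegree']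
  refine ⟨?_, ?_⟩
  · intro h1
    rw [h1, natDegree_one] at hd
    exact absurd hd (by norm_num)
  · intro f g hf hg hfg hmem
    rw [hd] at hmem
    have hsum : f.natDegree + g.natDegree = 4 := by
      rw [← hf.natDegree_mul hg, hfg, hd]
    rw [Finset.mem_Ioc] at hmem
    obtain ⟨hg0, hg2⟩ := hmem
    have hcases : g.natDegree = 1 ∨ g.natDegree = 2 := by omega
    rcases hcases with h1 | h2
    · -- a linear factor gives a root
      have hg' := monic_linear_eq g hg h1
      apply hroot (-(g.coeff 0))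
      rw [← hfg, eval_mul, hg']
      simp
    · have hf2 : f.natDegree = 2 := by omega
      have hf' := monic_quadratic_eq f hf hf2
      have hg' := monic_quadratic_eq g hg h2
      apply hquad (f.coeff 1) (f.coeff 0) (g.coeff 1) (g.coeff 0)
      intro t
      rw [← hfg, eval_mul]
      conv_rhs => rw [hf', hg']
      simp

theorem fact_prime_five' : Fact (Nat.Prime 5) := ⟨by norm_num⟩

attribute [local instance] fact_prime_five'

theorem irreducible_g0_mod5 : Irreducible (g0Z.map (Int.castRingHom (ZMod 5))) := by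
  apply irreducible_quartic _ (g0Z_monic.map _)
  · rw [g0Z_monic.natDegree_map, g0Z_natDegree]
  · have h : ∀ t : ZMod 5, t ^ 4 - 2976 * t ^ 2 - 160064 * t - 738048 ≠ 0 := by decide +kernel
    intro t
    rw [eval_g0Z]
    exact h t
  · have h : ∀ a b a' b' : ZMod 5, ¬ ∀ t : ZMod 5, (t ^ 2 + a * t + b) * (t ^ 2 + a' * t + b')
        = t ^ 4 - 2976 * t ^ 2 - 160064 * t - 738048 := by
      decide +kernel
    intro a b a' b' hh
    apply h a b a' b'
    intro t
    rw [hh t, eval_g0Z]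

theorem irreducible_g0'_mod5 : Irreducible (g0Z'.map (Int.castRingHom (ZMod 5))) := by
  apply irreducible_quartic _ (g0Z'_monic.map _)
  · rw [g0Z'_monic.natDegree_map, g0Z'_natDegree]
  · have h : ∀ t : ZMod 5, t ^ 4 - 2976 * t ^ 2 + 160064 * t - 738048 ≠ 0 := by decide +kernel
    intro t
    rw [eval_g0Z']
    exact h t
  · have h : ∀ a b a' b' : ZMod 5, ¬ ∀ t : ZMod 5, (t ^ 2 + a * t + b) * (t ^ 2 + a' * t + b')
        = t ^ 4 - 2976 * t ^ 2 + 160064 * t - 738048 := by
      decide +kernel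
    intro a b a' b' hh
    apply h a b a' b'
    intro t
    rw [hh t, eval_g0Z']

theorem irreducible_g0Z : Irreducible g0Z :=
  Monic.irreducible_of_irreducible_map (Int.castRingHom (ZMod 5)) g0Z g0Z_monic irreducible_g0_mod5

theorem irreducible_g0Z' : Irreducible g0Z' :=
  Monic.irreducible_of_irreducible_map (Int.castRingHom (ZMod 5)) g0Z' g0Z'_monic
    irreducible_g0'_mod5

/-- **`g0 = X⁴ - 2976 X² - 160064 X - 738048` is irreducible over `ℚ`** -/
theorem irreducible_g0Q : Irreducible (g0Z.map (Int.castRingHom ℚ)) :=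
  (Polynomial.IsPrimitive.Int.irreducible_iff_irreducible_map_cast g0Z_monic.isPrimitive).1
    irreducible_g0Z

/-- **`g0' = X⁴ - 2976 X² + 160064 X - 738048` is irreducible over `ℚ`** -/
theorem irreducible_g0Q' : Irreducible (g0Z'.map (Int.castRingHom ℚ)) :=
  (Polynomial.IsPrimitive.Int.irreducible_iff_irreducible_map_cast g0Z'_monic.isPrimitive).1
    irreducible_g0Z'

/-! ### transitivity of Galois on the roots -/

theorem ratAlgebra_eq : (DivisionRing.toRatAlgebra : Algebra ℚ (AlgebraicClosure ℚ))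
    = AlgebraicClosure.instAlgebra ℚ := Subsingleton.elim _ _

theorem normal_rat_Qbar : Normal ℚ (AlgebraicClosure ℚ) := by
  rw [ratAlgebra_eq]
  infer_instance

/-- the absolute Galois group permutes transitively the roots in `ℚ̄` of a monic irreducible
polynomial over `ℚ` -/
theorem exists_galois_of_roots (p : ℚ[X]) (hp : p.Monic) (hirr : Irreducible p)
    (x y : AlgebraicClosure ℚ) (hx : aeval x p = 0) (hy : aeval y p = 0) :
    ∃ σ : AlgebraicClosure ℚ ≃ₐ[ℚ] AlgebraicClosure ℚ, σ x = y := by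
  have := normal_rat_Qbar
  have h1 : minpoly ℚ x = p := (minpoly.eq_of_irreducible_of_monic hirr hx hp).symm
  have h2 : minpoly ℚ y = p := (minpoly.eq_of_irreducible_of_monic hirr hy hp).symm
  have hconj : IsConjRoot ℚ y x := by
    rw [IsConjRoot, h1, h2]
  obtain ⟨σ, hσ⟩ := (isConjRoot_iff_exists_algEquiv (K := ℚ) (L := AlgebraicClosure ℚ)).1 hconj
  exact ⟨σ, hσ⟩

end Fermat.Agent.G35.Irr3.Cert11
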