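import Fermat.Agent.GP.TW.ChebExist

/-!
# GATE-Q / Q6b (helper24): Chebotarev on a finite set of algebraic numbers

On top of `GP/TW/ChebExist.exists_prime_forall_frob_field`:

* `exists_galois_containing` : a finite subset `T ⊆ ℚ̄` lies in a finite Galois `E ⊆ ℚ̄`;
* **`exists_prime_frob_conj_on`** : for `T : Finset ℚ̄`, `σ₀ ∈ G_ℚ`, `B` finite there is a prime
  `l ∉ B` such that EVERY Frobenius lift `τ` at EVERY place of `ℚ̄` over `l` agrees ON `T` with a
  conjugate `g σ₀ g⁻¹`;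
* **`exists_prime_fix_derange`** : if moreover `σ₀` fixes every `G_ℚ`-conjugate of the elements of
  `T₀` (i.e. `σ₀` is trivial on the Galois closure of `ℚ(T₀)`) and has no fixed point on a
  `G_ℚ`-stable finite set `R`, then every such `τ` fixes `T₀` pointwise and has no fixed point on
  `R` (`l` is totally split in `ℚ(T₀)^gal` and `Frob_l` is a derangement of `R`);
* `infinite_setOf_prime_fix_derange` : there are infinitely many such primes;
* `aroots_rat_stable`, `aroots_int_stable` : the roots in `ℚ̄` of a polynomial over `ℚ` / `ℤ` form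
  a `G_ℚ`-stable finite set; `exists_prime_fix_derange_roots` : the instance `R := roots of g₀`.
-/

set_option autoImplicit false

open Fermat.Agent.Common_helper32
open Fermat.Agent.GP.TW.ChebExist

namespace Fermat.Agent.G35.Irr3.ChebSplit

/-- A finite subset of `ℚ̄` lies in a finite Galois subextension. -/
theorem exists_galois_containing (T : Finset Qb) :
    ∃ (E : IntermediateField ℚ Qb) (_ : FiniteDimensional ℚ E) (_ : IsGalois ℚ E),
      ∀ x ∈ T, x ∈ E := by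
  classical
  set L₁ : IntermediateField ℚ Qb := IntermediateField.adjoin ℚ (T : Set Qb) with hL₁
  have hfin : FiniteDimensional ℚ L₁ :=
    IntermediateField.finiteDimensional_adjoin fun x _ =>
      (Algebra.IsIntegral.isIntegral (R := ℚ) x)
  have hn : Normal ℚ (IntermediateField.normalClosure ℚ ↥L₁ Qb) :=
    normalClosure.normal ℚ ↥L₁ Qb
  refine ⟨IntermediateField.normalClosure ℚ ↥L₁ Qb, inferInstance, ⟨⟩, fun x hx => ?_⟩
  exact IntermediateField.le_normalClosure L₁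
    (IntermediateField.subset_adjoin ℚ (T : Set Qb) (Finset.mem_coe.2 hx))

/-- **Chebotarev on a finite set of algebraic numbers**: every Frobenius lift at every place over
`l` agrees on `T` with a conjugate of `σ₀`. -/
theorem exists_prime_frob_conj_on (T : Finset Qb) (σ₀ : GQ) (B : Finset ℕ) :
    ∃ l : ℕ, l.Prime ∧ l ∉ B ∧ ∀ (A : ValuationSubring Qb) (τ : GQ), A.LiesOverPrime l →
      A.IsFrobeniusAt τ l → ∃ g : GQ, ∀ x ∈ T, τ x = (g * σ₀ * g⁻¹) x := by
  obtain ⟨E, hfin, hgal, hT⟩ := exists_galois_containing T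
  obtain ⟨l, hl, hlB, h⟩ := exists_prime_forall_frob_field E σ₀ B
  refine ⟨l, hl, hlB, fun A τ hA hτ => ?_⟩
  obtain ⟨g, hg⟩ := h A τ hA hτ
  refine ⟨g, fun x hx => ?_⟩
  have hxE : x ∈ E := hT x hx
  have h2 : ((AlgEquiv.restrictNormalHom E τ (⟨x, hxE⟩ : E) : E) : Qb) =
      ((AlgEquiv.restrictNormalHom E (g * σ₀ * g⁻¹) (⟨x, hxE⟩ : E) : E) : Qb) := by rw [hg]
  have e1 : ((AlgEquiv.restrictNormalHom E τ (⟨x, hxE⟩ : E) : E) : Qb) = τ x :=
    AlgEquiv.restrictNormal_commutes τ E (⟨x, hxE⟩ : E)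
  have e2 : ((AlgEquiv.restrictNormalHom E (g * σ₀ * g⁻¹) (⟨x, hxE⟩ : E) : E) : Qb) =
      (g * σ₀ * g⁻¹) x :=
    AlgEquiv.restrictNormal_commutes (g * σ₀ * g⁻¹) E (⟨x, hxE⟩ : E)
  rw [e1, e2] at h2
  exact h2

/-- **Totally split + derangement**: `σ₀` trivial on all conjugates of `T₀` and fixed-point free on
the `G_ℚ`-stable set `R` ⟹ there is a prime `l ∉ B` such that every Frobenius lift at every place
over `l` fixes `T₀` pointwise and has no fixed point on `R`. -/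
theorem exists_prime_fix_derange (T₀ R : Finset Qb) (σ₀ : GQ)
    (hfix : ∀ x ∈ T₀, ∀ g : GQ, σ₀ (g x) = g x)
    (hR : ∀ g : GQ, ∀ x ∈ R, g x ∈ R) (hder : ∀ x ∈ R, σ₀ x ≠ x) (B : Finset ℕ) :
    ∃ l : ℕ, l.Prime ∧ l ∉ B ∧ ∀ (A : ValuationSubring Qb) (τ : GQ), A.LiesOverPrime l →
      A.IsFrobeniusAt τ l → (∀ x ∈ T₀, τ x = x) ∧ ∀ x ∈ R, τ x ≠ x := by
  classical
  obtain ⟨l, hl, hlB, h⟩ := exists_prime_frob_conj_on (T₀ ∪ R) σ₀ B
  refine ⟨l, hl, hlB, fun A τ hA hτ => ?_⟩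
  obtain ⟨g, hg⟩ := h A τ hA hτ
  constructor
  · intro x hx
    rw [hg x (Finset.mem_union_left R hx)]
    show g (σ₀ (g⁻¹ x)) = x
    rw [hfix x hx g⁻¹]
    exact g.apply_symm_apply x
  · intro x hx hτx
    rw [hg x (Finset.mem_union_right T₀ hx)] at hτx
    have h1 : g (σ₀ (g⁻¹ x)) = x := hτx
    have h2 : σ₀ (g⁻¹ x) = g⁻¹ x := by
      have := congrArg (fun y => g⁻¹ y) h1
      simpa using this
    exact hder (g⁻¹ x) (hR g⁻¹ x hx) h2

/-- ... and there are infinitely many such primes. -/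
theorem infinite_setOf_prime_fix_derange (T₀ R : Finset Qb) (σ₀ : GQ)
    (hfix : ∀ x ∈ T₀, ∀ g : GQ, σ₀ (g x) = g x)
    (hR : ∀ g : GQ, ∀ x ∈ R, g x ∈ R) (hder : ∀ x ∈ R, σ₀ x ≠ x) :
    {l : ℕ | l.Prime ∧ ∀ (A : ValuationSubring Qb) (τ : GQ), A.LiesOverPrime l →
      A.IsFrobeniusAt τ l → (∀ x ∈ T₀, τ x = x) ∧ ∀ x ∈ R, τ x ≠ x}.Infinite := by
  intro hfin
  obtain ⟨l, hl, hlB, h⟩ := exists_prime_fix_derange T₀ R σ₀ hfix hR hder hfin.toFinset
  exact hlB (hfin.mem_toFinset.2 ⟨hl, h⟩)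

/-! ### `G_ℚ`-stable finite sets: roots of rational / integral polynomials -/

open Polynomial in
/-- The roots in `ℚ̄` of a rational polynomial form a `G_ℚ`-stable finite set. -/
theorem aroots_rat_stable (f : ℚ[X]) (g : GQ) (x : Qb) (hx : x ∈ (f.aroots Qb).toFinset) :
    g x ∈ (f.aroots Qb).toFinset := by
  classical
  rw [Multiset.mem_toFinset, mem_aroots] at hx ⊢
  refine ⟨hx.1, ?_⟩
  have h := aeval_algHom_apply (g : Qb →ₐ[ℚ] Qb) x f
  rw [hx.2, map_zero] at h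
  exact h

open Polynomial in
/-- The roots in `ℚ̄` of an integral polynomial form a `G_ℚ`-stable finite set. -/
theorem aroots_int_stable (f : ℤ[X]) (g : GQ) (x : Qb) (hx : x ∈ (f.aroots Qb).toFinset) :
    g x ∈ (f.aroots Qb).toFinset := by
  classical
  rw [Multiset.mem_toFinset, mem_aroots] at hx ⊢
  refine ⟨hx.1, ?_⟩
  have h := aeval_algHom_apply ((g : Qb →ₐ[ℚ] Qb).restrictScalars ℤ) x f
  rw [hx.2, map_zero] at h
  exact h

open Polynomial in
/-- **Q6b in the shape used by Q6d**: `g₀ ∈ ℤ[X]`, `σ₀` trivial on all conjugates of `T₀` and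
without fixed point among the roots of `g₀` in `ℚ̄` ⟹ a prime `l ∉ B` at which every Frobenius lift
fixes `T₀` pointwise and moves every root of `g₀`. -/
theorem exists_prime_fix_derange_roots (T₀ : Finset Qb) (g₀ : ℤ[X]) (σ₀ : GQ)
    (hfix : ∀ x ∈ T₀, ∀ g : GQ, σ₀ (g x) = g x)
    (hder : ∀ x : Qb, g₀ ≠ 0 → aeval x g₀ = 0 → σ₀ x ≠ x) (B : Finset ℕ) :
    ∃ l : ℕ, l.Prime ∧ l ∉ B ∧ ∀ (A : ValuationSubring Qb) (τ : GQ), A.LiesOverPrime l →
      A.IsFrobeniusAt τ l →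
        (∀ x ∈ T₀, τ x = x) ∧ ∀ x : Qb, g₀ ≠ 0 → aeval x g₀ = 0 → τ x ≠ x := by
  classical
  obtain ⟨l, hl, hlB, h⟩ := exists_prime_fix_derange T₀ (g₀.aroots Qb).toFinset σ₀ hfix
    (fun g x hx => aroots_int_stable g₀ g x hx)
    (fun x hx => by
      rw [Multiset.mem_toFinset, mem_aroots] at hx
      exact hder x hx.1 hx.2) B
  refine ⟨l, hl, hlB, fun A τ hA hτ => ⟨(h A τ hA hτ).1, fun x h0 hx => ?_⟩⟩
  exact (h A τ hA hτ).2 x (by rw [Multiset.mem_toFinset, mem_aroots]; exact ⟨h0, hx⟩)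

end Fermat.Agent.G35.Irr3.ChebSplit
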