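/-
GATE-Q (S52) / node Q6c' (helper82): the `W`-side half of "inertia at `3` does not see `L`".

For `W/ℤ` semistable with `Δ ≠ 0`, a valuation subring `A | 3` of `ℚ̄` and `σ ∈ I_A`:

* `pow_five_smul_of_mem_inertia` : `σ ^ 5` fixes `W(ℚ̄)[5]` pointwise (`σ - 1` is nilpotent of
  order two on the `5`-torsion by `GE.ECFinal.unipInertia`, hence `σ ^ 5 = 1 + 5 (σ - 1) = 1`);
* `apply_eq_of_pow_five_eq_one` : `σ` fixes the fifth roots of unity
  (`GL.Local.InertiaField.rootOfUnity_mem_inertiaField`).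
* `pow_five_fix_of_mem_inertia` : both, for `σ ^ 5`.

With the dictionary of Q4 (`τ` fixes `W[5]` pointwise and `ζ₅` ⟹ `τ w₀ = ζ₅ᵏ • w₀`) this gives the
hypothesis "some odd power of every `σ ∈ I_A` lies in `Gal(ℚ̄/L)`" of `SqrtNegThree` with `m = 25`.
NEW file; imports only.
-/
import Fermat.Agent.GE.Top.ECFinal
import Fermat.Agent.GL.Local.InertiaField

set_option autoImplicit false

open Fermat.Agent.Common_helper32
open scoped WeierstrassCurve.Affine

namespace Fermat.Agent.G35.Irr3.Inertia3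

open WeierstrassCurve WeierstrassCurve.Affine.Point Fermat.Agent.GE.ECAssembly

/-- a unipotent automorphism of order-two nilpotency: `σ ^ n • P = P + n • (σ • P - P)` -/
theorem pow_smul_of_unip {G M : Type*} [Group G] [AddCommGroup M] [DistribMulAction G M]
    (σ : G) (P : M) (h : σ • (σ • P - P) = σ • P - P) (n : ℕ) :
    (σ ^ n) • P = P + n • (σ • P - P) := by
  induction n with
  | zero => simp
  | succ k ih =>
    have hc : σ • (k • (σ • P - P)) = k • (σ • (σ • P - P)) := by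
      simpa using map_nsmul (DistribSMul.toAddMonoidHom M σ) k (σ • P - P)
    rw [pow_succ', mul_smul, ih, smul_add, hc, h, succ_nsmul]
    abel

/-- **`σ ^ 5` fixes the `5`-torsion** for `σ` in an inertia group over `3`. -/
theorem pow_five_smul_of_mem_inertia (W : WeierstrassCurve ℤ) (hss : W.IsSemistableModel)
    (hΔ : W.Δ ≠ 0) (A : ValuationSubring Qb) (hA : A.LiesOverPrime 3) {σ : GQ}
    (hσ : σ ∈ A.inertiaSubgroupIn ℚ) (P : (EQb W).Point) (hP : (5 : ℕ) • P = 0) :
    (σ ^ 5) • P = P := by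
  have h5 : (5 : ℕ).Prime := by norm_num
  have h3 : (3 : ℕ).Prime := by norm_num
  have hu := Fermat.Agent.GE.ECFinal.unipInertia W hss hΔ h5 1 3 h3 (by norm_num) A hA σ hσ P
    (by simpa using hP)
  rw [pow_smul_of_unip σ P hu 5]
  have hτP5 : (5 : ℕ) • (σ • P) = 0 := by
    have := map_nsmul (DistribSMul.toAddMonoidHom (EQb W).Point σ) 5 P
    rw [hP, _root_.map_zero] at this
    exact this.symm
  rw [nsmul_sub, hτP5, hP, sub_zero, add_zero]

/-- **`σ` fixes `μ₅`** for `σ` in an inertia group over `3`. -/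
theorem apply_eq_of_pow_five_eq_one (A : ValuationSubring Qb) (hA : A.LiesOverPrime 3) {σ : GQ}
    (hσ : σ ∈ A.inertiaSubgroupIn ℚ) (z : Qb) (hz : z ^ 5 = 1) : σ z = z := by
  have h3 : (3 : ℕ).Prime := by norm_num
  have hmem := Fermat.Agent.GL.Local.InertiaField.rootOfUnity_mem_inertiaField A h3
    hA (N := 5) (by norm_num) hz
  exact (Fermat.Agent.GL.Local.InertiaField.mem_inertiaField_iff A z).1 hmem σ hσ

/-- **Q6c'**: for `σ ∈ I_A`, `A | 3`, the element `σ ^ 5` fixes `W[5]` pointwise and `μ₅`. -/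
theorem pow_five_fix_of_mem_inertia (W : WeierstrassCurve ℤ) (hss : W.IsSemistableModel)
    (hΔ : W.Δ ≠ 0) (A : ValuationSubring Qb) (hA : A.LiesOverPrime 3) {σ : GQ}
    (hσ : σ ∈ A.inertiaSubgroupIn ℚ) :
    (∀ P : (EQb W).Point, (5 : ℕ) • P = 0 → (σ ^ 5) • P = P) ∧
      ∀ z : Qb, z ^ 5 = 1 → (σ ^ 5) z = z := by
  refine ⟨fun P hP => pow_five_smul_of_mem_inertia W hss hΔ A hA hσ P hP, fun z hz => ?_⟩
  have h1 := apply_eq_of_pow_five_eq_one A hA hσ z hz
  have : ∀ n : ℕ, (σ ^ n) z = z := by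
    intro n
    induction n with
    | zero => simp
    | succ k ih => rw [pow_succ, AlgEquiv.mul_apply, h1, ih]
  exact this 5

end Fermat.Agent.G35.Irr3.Inertia3
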