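/-
GATE-Q (S52) / node Q6d, part T2a = PRIME SELECTION (helper82), in hypothesis form on the output
contract T1 of Q4 (helper23, board 4123): only `(I3)` (dictionary) and `(I4)` (normality) are used.

Data: `W/ℤ` semistable, `Δ ≠ 0`; `ζ ∈ ℚ̄` a primitive fifth root of unity; `w0 : Fin 2 → ℚ̄`;
* `(I3)` every `ρ ∈ G_ℚ` fixing `ζ` and `W(ℚ̄)[5]` pointwise has `ρ w0 = ζᵏ • w0`;
* `(I4)` every `ρ` fixing `ζ` and `w0` fixes all `G_ℚ`-conjugates of `w0`.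

Conclusion (`exists_prime_split_derange`): for every finite set `B` of primes there is a prime
`ℓ ∉ B` such that EVERY Frobenius lift `τ` at EVERY place of `ℚ̄` over `ℓ` fixes `ζ` and `w0` and
moves every root in `ℚ̄` of the quartic `g = X⁴ - 6 c X² - 8 d X - 3 c²` (`g` irreducible over `ℚ`,
`c³ ≠ d²`); `exists_prime_split_derange_g0Z` is the instance `g = Cert11.g0Z` (`c = 496`,
`d = 20008`, the curve `11a` = Klein curve at `(1, 1)`).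

Chain: `H := Stab(ζ, w0)` is normal by `(I4)`; for `σ` in an inertia group over `3`, `σ ^ 25 ∈ H`
(`Inertia3.pow_five_fix_of_mem_inertia` + `(I3)`), so some element of `H` moves a root of `g`
(`SqrtNegThree.exists_mem_moves_root`, helper92); hence some `τ₀ ∈ H` moves every root, and so do
its conjugates (`RootAction.exists_derangement_of_moves`, helper16); Chebotarev in the form
`ChebSplit.exists_prime_fix_derange_roots` (helper24) gives `ℓ`.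
NEW file; imports only.
-/
import Fermat.Agent.G35.Irr3.Inertia3
import Fermat.Agent.G35.Irr3.SqrtNegThree
import Fermat.Agent.G35.Irr3.RootAction
import Fermat.Agent.G35.Irr3.ChebSplit
import Fermat.Agent.G35.Irr3.Cert11
import Fermat.Agent.G35.TopTN
import Fermat.Agent.Common_helper32.FrobeniusExists

set_option autoImplicit false

open Fermat.Agent.Common_helper32
open scoped WeierstrassCurve.Affine

namespace Fermat.Agent.G35.Irr3.PrimeSel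

open Polynomial WeierstrassCurve WeierstrassCurve.Affine.Point Fermat.Agent.GE.ECAssembly

/-! ### the stabiliser of `(ζ, w0)` -/

/-- the subgroup of `G_ℚ` fixing `ζ` and both coordinates of `w0` -/
def stab (ζ : Qb) (w0 : Fin 2 → Qb) : Subgroup GQ where
  carrier := {ρ | ρ ζ = ζ ∧ ∀ i, ρ (w0 i) = w0 i}
  mul_mem' := by
    rintro a b ⟨ha, ha'⟩ ⟨hb, hb'⟩
    refine ⟨?_, fun i => ?_⟩
    · rw [AlgEquiv.mul_apply, hb, ha]
    · rw [AlgEquiv.mul_apply, hb' i, ha' i]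
  one_mem' := ⟨rfl, fun _ => rfl⟩
  inv_mem' := by
    rintro a ⟨ha, ha'⟩
    refine ⟨?_, fun i => ?_⟩
    · have := congrArg (fun z => a⁻¹ z) ha
      simpa using this.symm
    · have := congrArg (fun z => a⁻¹ z) (ha' i)
      simpa using this.symm

theorem mem_stab {ζ : Qb} {w0 : Fin 2 → Qb} {ρ : GQ} :
    ρ ∈ stab ζ w0 ↔ ρ ζ = ζ ∧ ∀ i, ρ (w0 i) = w0 i := Iff.rfl

/-- a root of `Φ₅` is a primitive fifth root of unity -/
theorem pow_five_eq_one {ζ : Qb} (hζ : ζ ^ 4 + ζ ^ 3 + ζ ^ 2 + ζ + 1 = 0) : ζ ^ 5 = 1 := by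
  linear_combination (ζ - 1) * hζ

theorem ne_one_of_phi5 {ζ : Qb} (hζ : ζ ^ 4 + ζ ^ 3 + ζ ^ 2 + ζ + 1 = 0) : ζ ≠ 1 := by
  rintro rfl
  norm_num at hζ

/-- every conjugate of `ζ` is a power of `ζ` -/
theorem exists_pow_eq_apply {ζ : Qb} (hζ : ζ ^ 4 + ζ ^ 3 + ζ ^ 2 + ζ + 1 = 0) (σ : GQ) :
    ∃ i : ℕ, ζ ^ i = σ ζ := by
  have h5 : ζ ^ 5 = 1 := pow_five_eq_one hζ
  have hprim : IsPrimitiveRoot ζ 5 := by
    have ho : orderOf ζ = 5 :=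
      orderOf_eq_prime (p := 5) (hp := ⟨by norm_num⟩) h5 (ne_one_of_phi5 hζ)
    rw [← ho]
    exact IsPrimitiveRoot.orderOf ζ
  have hσ : (σ ζ) ^ 5 = 1 := by rw [← map_pow, h5, map_one]
  obtain ⟨i, -, hi⟩ := hprim.eq_pow_of_pow_eq_one hσ
  exact ⟨i, hi⟩

/-- an element fixing `ζ` fixes every conjugate of `ζ` -/
theorem apply_conj_zeta {ζ : Qb} (hζ : ζ ^ 4 + ζ ^ 3 + ζ ^ 2 + ζ + 1 = 0) {ρ : GQ} (hρ : ρ ζ = ζ)
    (σ : GQ) : ρ (σ ζ) = σ ζ := by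
  obtain ⟨i, hi⟩ := exists_pow_eq_apply hζ σ
  rw [← hi, map_pow, hρ]

/-- `(I4)` makes the stabiliser normal -/
theorem stab_normal {ζ : Qb} (hζ : ζ ^ 4 + ζ ^ 3 + ζ ^ 2 + ζ + 1 = 0) {w0 : Fin 2 → Qb}
    (I4 : ∀ ρ σ : GQ, ρ ζ = ζ → (∀ i, ρ (w0 i) = w0 i) → ∀ i, ρ (σ (w0 i)) = σ (w0 i)) :
    (stab ζ w0).Normal := by
  constructor
  rintro n ⟨hn, hn'⟩ g
  refine ⟨?_, fun i => ?_⟩
  · rw [AlgEquiv.mul_apply, AlgEquiv.mul_apply, apply_conj_zeta hζ hn g⁻¹]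
    simp
  · rw [AlgEquiv.mul_apply, AlgEquiv.mul_apply, I4 n g⁻¹ hn hn' i]
    simp

/-! ### inertia at `3` -/

/-- iterating `ρ w0 = ζᵏ • w0` for `ρ` fixing `ζ` -/
theorem pow_apply_of_scalar {ζ : Qb} {w : Qb} {ρ : GQ} (hρ : ρ ζ = ζ) (k : ℕ)
    (hw : ρ w = ζ ^ k * w) (n : ℕ) : (ρ ^ n) w = ζ ^ (n * k) * w ∧ (ρ ^ n) ζ = ζ := by
  induction n with
  | zero => simp
  | succ m ih =>
    refine ⟨?_, ?_⟩
    · rw [pow_succ, AlgEquiv.mul_apply, hw, map_mul, map_pow, ih.2, ih.1]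
      ring
    · rw [pow_succ, AlgEquiv.mul_apply, hρ, ih.2]

/-- **`σ ^ 25 ∈ Stab(ζ, w0)`** for `σ` in an inertia group over `3`. -/
theorem pow_mem_stab_of_mem_inertia (W : WeierstrassCurve ℤ) (hΔ : W.Δ ≠ 0)
    (hW : W.IsSemistableModel) {ζ : Qb} (hζ : ζ ^ 4 + ζ ^ 3 + ζ ^ 2 + ζ + 1 = 0)
    {w0 : Fin 2 → Qb}
    (I3 : ∀ ρ : GQ, ρ ζ = ζ → (∀ P : TN W 5, ρ • P = P) →
      ∃ k : ℕ, ∀ i, ρ (w0 i) = ζ ^ k * w0 i)
    (A : ValuationSubring Qb) (hA : A.LiesOverPrime 3) {σ : GQ}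
    (hσ : σ ∈ A.inertiaSubgroupIn ℚ) : σ ^ 25 ∈ stab ζ w0 := by
  have h5 : ζ ^ 5 = 1 := pow_five_eq_one hζ
  obtain ⟨hP, hz⟩ := Inertia3.pow_five_fix_of_mem_inertia W hW hΔ A hA hσ
  have hρζ : (σ ^ 5) ζ = ζ := hz ζ h5
  have hTN : ∀ P : TN W 5, (σ ^ 5) • P = P := by
    intro P
    apply Subtype.ext
    have h := Fermat.Agent.G35.TopTN.five_nsmul_coe P
    exact hP (P : (EQb W).Point) (by simpa using h)
  obtain ⟨k, hk⟩ := I3 (σ ^ 5) hρζ hTN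
  have e : σ ^ 25 = (σ ^ 5) ^ 5 := by rw [← pow_mul]
  rw [e, mem_stab]
  refine ⟨(pow_apply_of_scalar hρζ k (hk 0) 5).2, fun i => ?_⟩
  rw [(pow_apply_of_scalar hρζ k (hk i) 5).1, pow_mul, h5, one_pow, one_mul]

/-! ### polynomial bookkeeping -/

theorem castRingHom_comp : (algebraMap ℚ Qb).comp (Int.castRingHom ℚ) = Int.castRingHom Qb :=
  RingHom.ext_int _ _

theorem aeval_map_int (g : ℤ[X]) (x : Qb) :
    aeval x (g.map (Int.castRingHom ℚ)) = eval x (g.map (Int.castRingHom Qb)) := by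
  rw [aeval_def, eval₂_eq_eval_map, Polynomial.map_map, castRingHom_comp]

theorem aeval_int (g : ℤ[X]) (x : Qb) : aeval x g = eval x (g.map (Int.castRingHom Qb)) := by
  have e : algebraMap ℤ Qb = Int.castRingHom Qb := RingHom.ext_int _ _
  rw [aeval_def, eval₂_eq_eval_map, e]

/-- a monic quartic over an algebraically closed field is a product of four linear factors -/
theorem exists_four_roots {K : Type*} [Field K] [IsAlgClosed K] (p : K[X]) (hp : p.Monic)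
    (hd : p.natDegree = 4) :
    ∃ x1 x2 x3 x4 : K, p = (X - C x1) * (X - C x2) * (X - C x3) * (X - C x4) := by
  have hs : p.Splits := IsAlgClosed.splits p
  have hcard : Multiset.card p.roots = 4 := by rw [← hs.natDegree_eq_card_roots, hd]
  obtain ⟨x1, x2, x3, x4, h⟩ := Multiset.card_eq_four.mp hcard
  refine ⟨x1, x2, x3, x4, ?_⟩
  have := hs.eq_prod_roots_of_monic hp
  rw [h] at this
  rw [this]
  simp only [Multiset.insert_eq_cons, Multiset.map_cons, Multiset.prod_cons,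
    Multiset.map_singleton, Multiset.prod_singleton]
  ring

/-! ### the prime selection -/

/-- **T2a, general quartic.** -/
theorem exists_prime_split_derange (W : WeierstrassCurve ℤ) (hΔ : W.Δ ≠ 0)
    (hW : W.IsSemistableModel) (ζ : Qb) (hζ : ζ ^ 4 + ζ ^ 3 + ζ ^ 2 + ζ + 1 = 0)
    (w0 : Fin 2 → Qb)
    (I3 : ∀ ρ : GQ, ρ ζ = ζ → (∀ P : TN W 5, ρ • P = P) →
      ∃ k : ℕ, ∀ i, ρ (w0 i) = ζ ^ k * w0 i)
    (I4 : ∀ ρ σ : GQ, ρ ζ = ζ → (∀ i, ρ (w0 i) = w0 i) → ∀ i, ρ (σ (w0 i)) = σ (w0 i))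
    (c d : ℤ) (hcd : c ^ 3 ≠ d ^ 2) (g : ℤ[X])
    (hg : g = X ^ 4 - C (6 * c) * X ^ 2 - C (8 * d) * X - C (3 * c ^ 2))
    (hirr : Irreducible (g.map (Int.castRingHom ℚ))) (B : Finset ℕ) :
    ∃ ℓ : ℕ, ℓ.Prime ∧ ℓ ∉ B ∧ ∀ (A : ValuationSubring Qb) (τ : GQ), A.LiesOverPrime ℓ →
      A.IsFrobeniusAt τ ℓ →
        τ ζ = ζ ∧ (∀ i, τ (w0 i) = w0 i) ∧
          ∀ x : Qb, eval x (g.map (Int.castRingHom Qb)) = 0 → τ x ≠ x := by
  classical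
  have hnorm : (stab ζ w0).Normal := stab_normal hζ I4
  -- the shape of `g` over `ℚ̄`
  have hgQb : g.map (Int.castRingHom Qb) =
      X ^ 4 - C (6 * (((c : ℚ) : Qb))) * X ^ 2 - C (8 * (((d : ℚ) : Qb))) * X
        - C (3 * (((c : ℚ) : Qb)) ^ 2) := by
    rw [hg]
    simp only [Polynomial.map_sub, Polynomial.map_mul, Polynomial.map_pow, Polynomial.map_X,
      Polynomial.map_C]
    simp only [eq_intCast]
    push_cast
    rfl
  have hmonic : (g.map (Int.castRingHom Qb)).Monic := by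
    apply Monic.map
    rw [hg]
    have e : (X ^ 4 - C (6 * c) * X ^ 2 - C (8 * d) * X - C (3 * c ^ 2) : ℤ[X]) =
        X ^ 4 - (C (6 * c) * X ^ 2 + C (8 * d) * X + C (3 * c ^ 2)) := by ring
    rw [e]
    apply monic_X_pow_sub
    compute_degree!
  have hdegZ : g.natDegree = 4 := by
    rw [hg]
    compute_degree!
  have hgmonicZ : g.Monic := by
    rw [hg]
    have e : (X ^ 4 - C (6 * c) * X ^ 2 - C (8 * d) * X - C (3 * c ^ 2) : ℤ[X]) =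
        X ^ 4 - (C (6 * c) * X ^ 2 + C (8 * d) * X + C (3 * c ^ 2)) := by ring
    rw [e]
    apply monic_X_pow_sub
    compute_degree!
  have hdegQb : (g.map (Int.castRingHom Qb)).natDegree = 4 := by
    rw [hgmonicZ.natDegree_map, hdegZ]
  have hdegQ : (g.map (Int.castRingHom ℚ)).natDegree = 4 := by
    rw [hgmonicZ.natDegree_map, hdegZ]
  obtain ⟨x1, x2, x3, x4, hfac⟩ := exists_four_roots _ hmonic hdegQb
  obtain ⟨h1, h2, h3, h4⟩ := QuarticDisc.sym_of_prod_eq (((c : ℚ) : Qb)) (((d : ℚ) : Qb))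
    x1 x2 x3 x4 (hfac.symm.trans hgQb)
  -- a valuation subring over `3`
  obtain ⟨A3, -, hA3, -⟩ := exists_isFrobeniusAt 3 Nat.prime_three
  have hH : ∀ σ ∈ A3.inertiaSubgroupIn ℚ, ∃ m : ℕ, Odd m ∧ σ ^ m ∈ stab ζ w0 :=
    fun σ hσ => ⟨25, by decide, pow_mem_stab_of_mem_inertia W hΔ hW hζ I3 A3 hA3 hσ⟩
  have hne : ((c : ℚ)) ^ 3 ≠ ((d : ℚ)) ^ 2 := by
    intro h
    apply hcd
    exact_mod_cast h
  obtain ⟨τ₁, hτ₁, hmv⟩ := SqrtNegThree.exists_mem_moves_root (stab ζ w0) A3 hA3 hH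
    (c : ℚ) (d : ℚ) hne x1 x2 x3 x4 h1 h2 h3 h4
  -- each `x_j` is a root
  have hroot : ∀ x : Qb, x = x1 ∨ x = x2 ∨ x = x3 ∨ x = x4 →
      aeval x (g.map (Int.castRingHom ℚ)) = 0 := by
    intro x hx
    rw [aeval_map_int, hfac]
    rcases hx with rfl | rfl | rfl | rfl <;> simp
  have hmoves : ∃ σ ∈ stab ζ w0, ∃ x : Qb, aeval x (g.map (Int.castRingHom ℚ)) = 0 ∧ σ x ≠ x := by
    refine ⟨τ₁, hτ₁, ?_⟩
    rcases hmv with h | h | h | h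
    · exact ⟨x1, hroot x1 (Or.inl rfl), h⟩
    · exact ⟨x2, hroot x2 (Or.inr (Or.inl rfl)), h⟩
    · exact ⟨x3, hroot x3 (Or.inr (Or.inr (Or.inl rfl))), h⟩
    · exact ⟨x4, hroot x4 (Or.inr (Or.inr (Or.inr rfl))), h⟩
  obtain ⟨τ₀, hτ₀, hder⟩ := RootAction.exists_derangement_of_moves (g.map (Int.castRingHom ℚ))
    hirr hdegQ (stab ζ w0) hmoves
  -- Chebotarev
  have hfix : ∀ x ∈ ({ζ, w0 0, w0 1} : Finset Qb), ∀ γ : GQ, τ₀ (γ x) = γ x := by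
    intro x hx γ
    simp only [Finset.mem_insert, Finset.mem_singleton] at hx
    rcases hx with rfl | rfl | rfl
    · exact apply_conj_zeta hζ hτ₀.1 γ
    · exact I4 τ₀ γ hτ₀.1 hτ₀.2 0
    · exact I4 τ₀ γ hτ₀.1 hτ₀.2 1
  have hder' : ∀ x : Qb, g ≠ 0 → aeval x g = 0 → τ₀ x ≠ x := by
    intro x _ hx
    have := hder 1 x (by rw [aeval_map_int, ← aeval_int]; exact hx)
    simpa using this
  obtain ⟨ℓ, hℓ, hℓB, h⟩ :=
    ChebSplit.exists_prime_fix_derange_roots ({ζ, w0 0, w0 1} : Finset Qb) g τ₀ hfix hder' B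
  refine ⟨ℓ, hℓ, hℓB, fun A τ hA hτ => ?_⟩
  obtain ⟨hf, hd⟩ := h A τ hA hτ
  refine ⟨hf ζ (by simp), fun i => ?_, fun x hx => ?_⟩
  · fin_cases i
    · exact hf (w0 0) (by simp)
    · exact hf (w0 1) (by simp)
  · exact hd x hgmonicZ.ne_zero (by rw [aeval_int]; exact hx)

/-- **T2a for `11a`**: `g = Cert11.g0Z = X⁴ - 2976 X² - 160064 X - 738048`. -/
theorem exists_prime_split_derange_g0Z (W : WeierstrassCurve ℤ) (hΔ : W.Δ ≠ 0)
    (hW : W.IsSemistableModel) (ζ : Qb) (hζ : ζ ^ 4 + ζ ^ 3 + ζ ^ 2 + ζ + 1 = 0)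
    (w0 : Fin 2 → Qb)
    (I3 : ∀ ρ : GQ, ρ ζ = ζ → (∀ P : TN W 5, ρ • P = P) →
      ∃ k : ℕ, ∀ i, ρ (w0 i) = ζ ^ k * w0 i)
    (I4 : ∀ ρ σ : GQ, ρ ζ = ζ → (∀ i, ρ (w0 i) = w0 i) → ∀ i, ρ (σ (w0 i)) = σ (w0 i))
    (B : Finset ℕ) :
    ∃ ℓ : ℕ, ℓ.Prime ∧ ℓ ∉ B ∧ ∀ (A : ValuationSubring Qb) (τ : GQ), A.LiesOverPrime ℓ →
      A.IsFrobeniusAt τ ℓ →
        τ ζ = ζ ∧ (∀ i, τ (w0 i) = w0 i) ∧
          ∀ x : Qb, eval x (Cert11.g0Z.map (Int.castRingHom Qb)) = 0 → τ x ≠ x :=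
  exists_prime_split_derange W hΔ hW ζ hζ w0 I3 I4 496 20008 (by norm_num) Cert11.g0Z
    (by unfold Cert11.g0Z; norm_num) Cert11.irreducible_g0Q B

/-- **T2a for `c₆ = -20008`**: `g = Cert11.g0Z'`. -/
theorem exists_prime_split_derange_g0Z' (W : WeierstrassCurve ℤ) (hΔ : W.Δ ≠ 0)
    (hW : W.IsSemistableModel) (ζ : Qb) (hζ : ζ ^ 4 + ζ ^ 3 + ζ ^ 2 + ζ + 1 = 0)
    (w0 : Fin 2 → Qb)
    (I3 : ∀ ρ : GQ, ρ ζ = ζ → (∀ P : TN W 5, ρ • P = P) →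
      ∃ k : ℕ, ∀ i, ρ (w0 i) = ζ ^ k * w0 i)
    (I4 : ∀ ρ σ : GQ, ρ ζ = ζ → (∀ i, ρ (w0 i) = w0 i) → ∀ i, ρ (σ (w0 i)) = σ (w0 i))
    (B : Finset ℕ) :
    ∃ ℓ : ℕ, ℓ.Prime ∧ ℓ ∉ B ∧ ∀ (A : ValuationSubring Qb) (τ : GQ), A.LiesOverPrime ℓ →
      A.IsFrobeniusAt τ ℓ →
        τ ζ = ζ ∧ (∀ i, τ (w0 i) = w0 i) ∧
          ∀ x : Qb, eval x (Cert11.g0Z'.map (Int.castRingHom Qb)) = 0 → τ x ≠ x :=
  exists_prime_split_derange W hΔ hW ζ hζ w0 I3 I4 496 (-20008) (by norm_num) Cert11.g0Z'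
    (by unfold Cert11.g0Z'; norm_num) Cert11.irreducible_g0Q' B

end Fermat.Agent.G35.Irr3.PrimeSel
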