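import Mathlib
import Fermat.Prelude.Def_EllipticCurve_FrobeniusTrace
import Fermat.Prelude.Def_FLTPrelim_Ramification
import Fermat.Agent.Common_helper32.FrobeniusExists

/-!
# GATE-Q / Q6f (helper24): residues of Frobenius-fixed elements are rational

`L` any field, `A` a valuation subring of `L` over the rational prime `l`, `τ` a Frobenius lift at
`(A, l)` (Prelude `ValuationSubring.IsFrobeniusAt`).

* `frob_sub_pow_mem_nonunits` : `τ x - x ^ l ∈ 𝔪_A` for `x ∈ A`;
* `charP_residueField` : the residue field of `A` has characteristic `l`;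
* `exists_int_sub_mem_nonunits_of_pow` : `x ∈ A`, `x ^ l - x ∈ 𝔪_A` ⟹ `∃ n : ℤ, x - n ∈ 𝔪_A`;
* **`exists_int_sub_mem_nonunits`** : `x ∈ A`, `τ x = x` ⟹ `∃ n : ℤ, x - n ∈ 𝔪_A`
  (the residue class of a Frobenius-fixed element lies in the prime field);
* `exists_nat_lt_sub_mem_nonunits` : the integer can be taken in `[0, l)`;
* `intCast_mem_nonunits_iff` : for `d : ℤ`, `(d : L) ∈ 𝔪_A ↔ (l : ℤ) ∣ d`;
* `mem_of_not_dvd` : `d • x` integral over `ℤ`, `l ∤ d` ⟹ `x ∈ A`;
* **`finite_bad_primes`** : for `x` algebraic over `ℤ` (e.g. any `x ∈ ℚ̄`), the set of primes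
  `l` having a valuation subring `A` over `l` with `x ∉ A ∨ x⁻¹ ∉ A` is finite;
* `finite_bad_primes_finset` / `exists_finset_units_Qb` : the same for finitely many elements, as
  a `Finset` bound: `∃ B, ∀ l prime ∉ B, ∀ A over l, ∀ x ∈ T, x ∈ A ∧ x⁻¹ ∈ A`
  (i.e. a nonzero `x ∈ T` is a unit of `A`).
-/

set_option autoImplicit false

open Fermat.Agent.Common_helper32

namespace Fermat.Agent.G35.Irr3.ResidueRat

section Frob

variable {K L : Type*} [Field K] [Field L] [Algebra K L]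

/-- A Frobenius lift at `(A, l)` is congruent to the `l`-th power map on `A`. -/
theorem frob_sub_pow_mem_nonunits {A : ValuationSubring L} {τ : L ≃ₐ[K] L} {l : ℕ}
    (hτ : A.IsFrobeniusAt τ l) {x : L} (hx : x ∈ A) : τ x - x ^ l ∈ A.nonunits := by
  have h := hτ.smul_residue_eq (IsLocalRing.residue A ⟨x, hx⟩)
  rw [← IsLocalRing.ResidueField.residue_smul, ← map_pow, ← sub_eq_zero, ← map_sub,
    IsLocalRing.residue_eq_zero_iff, A.valuation_lt_one_iff] at h
  rw [A.mem_nonunits_iff]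
  exact h

end Frob

section Residue

variable {L : Type*} [Field L]

/-- The residue field of a valuation subring over `l` has characteristic `l`. -/
theorem charP_residueField {A : ValuationSubring L} {l : ℕ} (hl : l.Prime)
    (hA : A.LiesOverPrime l) : CharP (IsLocalRing.ResidueField A) l := by
  have h0 : ((l : ℕ) : IsLocalRing.ResidueField A) = 0 := by
    have hlA : (l : L) ∈ A := natCast_mem A l
    have h1 : IsLocalRing.residue A ⟨(l : L), hlA⟩ = 0 := by
      rw [IsLocalRing.residue_eq_zero_iff, A.valuation_lt_one_iff]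
      exact (A.mem_nonunits_iff).1 hA
    have h2 : (⟨(l : L), hlA⟩ : A) = ((l : ℕ) : A) := by
      apply Subtype.ext
      simp
    rw [h2, map_natCast] at h1
    exact h1
  have := CharP.ringChar_of_prime_eq_zero hl h0
  exact this ▸ ringChar.charP _

/-- `x ∈ A` with `x ^ l ≡ x` modulo the maximal ideal is congruent to a rational integer. -/
theorem exists_int_sub_mem_nonunits_of_pow {A : ValuationSubring L} {l : ℕ} (hl : l.Prime)
    (hA : A.LiesOverPrime l) {x : L} (hx : x ∈ A) (h : x ^ l - x ∈ A.nonunits) :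
    ∃ n : ℤ, x - n ∈ A.nonunits := by
  have : Fact l.Prime := ⟨hl⟩
  have := charP_residueField hl hA
  set xb : IsLocalRing.ResidueField A := IsLocalRing.residue A ⟨x, hx⟩ with hxb
  have hpow : xb ^ l = xb := by
    rw [hxb, ← map_pow, ← sub_eq_zero, ← map_sub, IsLocalRing.residue_eq_zero_iff,
      A.valuation_lt_one_iff]
    exact (A.mem_nonunits_iff).1 h
  have hbot : xb ∈ (⊥ : Subfield (IsLocalRing.ResidueField A)) :=
    (Subfield.mem_bot_iff_pow_eq_self (IsLocalRing.ResidueField A) l).2 hpow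
  obtain ⟨n, hn⟩ := (mem_bot_iff_intCast l (IsLocalRing.ResidueField A)).1 hbot
  refine ⟨n, ?_⟩
  have h3 : IsLocalRing.residue A (⟨x, hx⟩ - ((n : ℤ) : A)) = 0 := by
    rw [map_sub, map_intCast, ← hxb, hn, sub_self]
  rw [IsLocalRing.residue_eq_zero_iff, A.valuation_lt_one_iff] at h3
  rw [A.mem_nonunits_iff]
  simpa using h3

end Residue

section Main

variable {K L : Type*} [Field K] [Field L] [Algebra K L]

/-- **Q6f (a)**: the residue class of a Frobenius-fixed element of `A` lies in the prime field. -/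
theorem exists_int_sub_mem_nonunits {A : ValuationSubring L} {l : ℕ} (hl : l.Prime)
    (hA : A.LiesOverPrime l) {τ : L ≃ₐ[K] L} (hτ : A.IsFrobeniusAt τ l) {x : L} (hx : x ∈ A)
    (hfix : τ x = x) : ∃ n : ℤ, x - n ∈ A.nonunits := by
  refine exists_int_sub_mem_nonunits_of_pow hl hA hx ?_
  have h := frob_sub_pow_mem_nonunits hτ hx
  rw [hfix] at h
  have : x ^ l - x = -(x - x ^ l) := by ring
  rw [this]
  rw [A.mem_nonunits_iff] at h ⊢
  rwa [Valuation.map_neg]

end Main

section Units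

variable {L : Type*} [Field L]

/-- A rational integer lies in the maximal ideal of `A` (over `l`) iff it is divisible by `l`. -/
theorem intCast_mem_nonunits_iff {A : ValuationSubring L} {l : ℕ} (hl : l.Prime)
    (hA : A.LiesOverPrime l) (d : ℤ) : ((d : ℤ) : L) ∈ A.nonunits ↔ (l : ℤ) ∣ d := by
  constructor
  · intro hd
    by_contra hnd
    have hcop : IsCoprime (l : ℤ) d := by
      rw [Int.isCoprime_iff_gcd_eq_one]
      have hp : Prime (l : ℤ) := Nat.prime_iff_prime_int.1 hl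
      exact Int.isCoprime_iff_gcd_eq_one.1 ((hp.coprime_iff_not_dvd).2 hnd)
    obtain ⟨a, b, hab⟩ := hcop
    have h1 : ((a : ℤ) : L) * (l : L) + ((b : ℤ) : L) * ((d : ℤ) : L) = 1 := by
      have := congrArg (fun z : ℤ => (z : L)) hab
      simpa using this
    have hA' : (l : L) ∈ A.nonunits := hA
    have hmem : (1 : L) ∈ A.nonunits := by
      rw [← h1]
      rw [A.mem_nonunits_iff] at hA' hd ⊢
      have ha : A.valuation ((a : ℤ) : L) ≤ 1 := (A.valuation_le_one_iff _).2 (intCast_mem A a)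
      have hb : A.valuation ((b : ℤ) : L) ≤ 1 := (A.valuation_le_one_iff _).2 (intCast_mem A b)
      refine lt_of_le_of_lt (Valuation.map_add _ _ _) (max_lt ?_ ?_)
      · rw [map_mul]
        exact mul_lt_one_of_nonneg_of_lt_one_right ha zero_le hA'
      · rw [map_mul]
        exact mul_lt_one_of_nonneg_of_lt_one_right hb zero_le hd
    rw [A.mem_nonunits_iff, map_one] at hmem
    exact lt_irrefl _ hmem
  · rintro ⟨c, rfl⟩
    have hA' : (l : L) ∈ A.nonunits := hA
    rw [A.mem_nonunits_iff] at hA' ⊢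
    have hc : A.valuation ((c : ℤ) : L) ≤ 1 := (A.valuation_le_one_iff _).2 (intCast_mem A c)
    push_cast
    rw [map_mul]
    exact mul_lt_one_of_nonneg_of_lt_one_left zero_le hA' hc

/-- If `d • x` is integral over `ℤ` and `l ∤ d`, then `x` lies in every valuation subring over
`l`. -/
theorem mem_of_not_dvd {A : ValuationSubring L} {l : ℕ} (hl : l.Prime)
    (hA : A.LiesOverPrime l) {d : ℤ} (hd : ¬ (l : ℤ) ∣ d) {x : L} (hx : IsIntegral ℤ (d • x)) :
    x ∈ A := by
  have hdx : d • x ∈ A := isIntegral_mem_valuationSubring A _ hx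
  have hdu : ((d : ℤ) : L) ∉ A.nonunits := fun h => hd ((intCast_mem_nonunits_iff hl hA d).1 h)
  have hdA : ((d : ℤ) : L) ∈ A := intCast_mem A d
  have hval : A.valuation ((d : ℤ) : L) = 1 := by
    rw [A.mem_nonunits_iff, not_lt] at hdu
    exact le_antisymm ((A.valuation_le_one_iff _).2 hdA) hdu
  rw [← A.valuation_le_one_iff]
  have h2 : A.valuation (d • x) ≤ 1 := (A.valuation_le_one_iff _).2 hdx
  rw [zsmul_eq_mul, map_mul, hval, one_mul] at h2
  exact h2

/-- The integer in `exists_int_sub_mem_nonunits_of_pow` can be taken in `[0, l)`. -/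
theorem exists_nat_lt_sub_mem_nonunits {A : ValuationSubring L} {l : ℕ} (hl : l.Prime)
    (hA : A.LiesOverPrime l) {x : L} (h : ∃ n : ℤ, x - n ∈ A.nonunits) :
    ∃ m : ℕ, m < l ∧ x - m ∈ A.nonunits := by
  obtain ⟨n, hn⟩ := h
  have hl0 : (l : ℤ) ≠ 0 := Int.natCast_ne_zero.2 hl.ne_zero
  have hnn : 0 ≤ n % (l : ℤ) := Int.emod_nonneg n hl0
  refine ⟨(n % (l : ℤ)).toNat, ?_, ?_⟩
  · have := Int.emod_lt_of_pos n (Int.natCast_pos.2 hl.pos)
    omega
  · have hcast : (((n % (l : ℤ)).toNat : ℕ) : L) = ((n % (l : ℤ) : ℤ) : L) := by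
      rw [← Int.cast_natCast, Int.toNat_of_nonneg hnn]
    rw [hcast]
    have hdvd : (l : ℤ) ∣ n - n % (l : ℤ) := Int.dvd_self_sub_emod
    have h2 : ((n - n % (l : ℤ) : ℤ) : L) ∈ A.nonunits :=
      (intCast_mem_nonunits_iff hl hA _).2 hdvd
    have h3 : x - ((n % (l : ℤ) : ℤ) : L) = (x - n) + ((n - n % (l : ℤ) : ℤ) : L) := by
      push_cast; ring
    rw [h3]
    rw [A.mem_nonunits_iff] at hn h2 ⊢
    exact lt_of_le_of_lt (Valuation.map_add _ _ _) (max_lt hn h2)

end Units

section Bad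

variable {L : Type*} [Field L]

/-- **Q6f (b)**: an algebraic number is a unit (or `0`) at all but finitely many primes. -/
theorem finite_bad_primes {x : L} (halg : IsAlgebraic ℤ x) :
    {l : ℕ | l.Prime ∧ ∃ A : ValuationSubring L, A.LiesOverPrime l ∧ (x ∉ A ∨ x⁻¹ ∉ A)}.Finite := by
  obtain ⟨d, hd0, hd⟩ := halg.exists_integral_multiple
  obtain ⟨d', hd'0, hd'⟩ := halg.inv.exists_integral_multiple
  have hfin : {l : ℕ | l.Prime ∧ (l : ℤ) ∣ d * d'}.Finite := by
    have h0 : d * d' ≠ 0 := mul_ne_zero hd0 hd'0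
    refine Set.Finite.subset (Set.finite_Iic (d * d').natAbs) ?_
    rintro l ⟨-, hl⟩
    rw [Set.mem_Iic]
    have := Int.natAbs_dvd_natAbs.2 hl
    rw [Int.natAbs_natCast] at this
    exact Nat.le_of_dvd (Int.natAbs_pos.2 h0) this
  refine hfin.subset ?_
  rintro l ⟨hl, A, hA, hbad⟩
  refine ⟨hl, ?_⟩
  by_contra hnd
  have h1 : ¬ (l : ℤ) ∣ d := fun h => hnd (Dvd.dvd.mul_right h d')
  have h2 : ¬ (l : ℤ) ∣ d' := fun h => hnd (Dvd.dvd.mul_left h d)
  rcases hbad with hb | hb
  · exact hb (mem_of_not_dvd hl hA h1 hd)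
  · exact hb (mem_of_not_dvd hl hA h2 hd')

/-- The same for finitely many nonzero algebraic numbers, as a `Finset` bound. -/
theorem finite_bad_primes_finset (T : Finset L) (halg : ∀ x ∈ T, IsAlgebraic ℤ x) :
    ∃ B : Finset ℕ, ∀ l : ℕ, l.Prime → l ∉ B → ∀ A : ValuationSubring L, A.LiesOverPrime l →
      ∀ x ∈ T, x ∈ A ∧ x⁻¹ ∈ A := by
  classical
  have hfin : (⋃ x ∈ T, {l : ℕ | l.Prime ∧ ∃ A : ValuationSubring L, A.LiesOverPrime l ∧
      (x ∉ A ∨ x⁻¹ ∉ A)}).Finite :=
    Set.Finite.biUnion T.finite_toSet fun x hx => finite_bad_primes (halg x hx)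
  refine ⟨hfin.toFinset, fun l hl hlB A hA x hx => ?_⟩
  by_contra hcon
  apply hlB
  rw [Set.Finite.mem_toFinset, Set.mem_iUnion₂]
  refine ⟨x, hx, hl, A, hA, ?_⟩
  by_contra h
  push Not at h
  exact hcon h

end Bad

section Qbar

/-- Every element of `ℚ̄` is algebraic over `ℤ`. -/
theorem isAlgebraic_int_Qb (x : AlgebraicClosure ℚ) : IsAlgebraic ℤ x := by
  have h : IsAlgebraic ℚ x := Algebra.IsAlgebraic.isAlgebraic x
  exact (IsFractionRing.isAlgebraic_iff ℤ ℚ (AlgebraicClosure ℚ)).2 h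

/-- **Q6f (b) over `ℚ̄`.** -/
theorem finite_bad_primes_Qb (x : AlgebraicClosure ℚ) :
    {l : ℕ | l.Prime ∧ ∃ A : ValuationSubring (AlgebraicClosure ℚ), A.LiesOverPrime l ∧
      (x ∉ A ∨ x⁻¹ ∉ A)}.Finite :=
  finite_bad_primes (isAlgebraic_int_Qb x)

/-- Finitely many nonzero elements of `ℚ̄` are simultaneously units at every place over every prime
outside a finite set. -/
theorem exists_finset_units_Qb (T : Finset (AlgebraicClosure ℚ)) :
    ∃ B : Finset ℕ, ∀ l : ℕ, l.Prime → l ∉ B →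
      ∀ A : ValuationSubring (AlgebraicClosure ℚ), A.LiesOverPrime l →
        ∀ x ∈ T, x ∈ A ∧ x⁻¹ ∈ A :=
  finite_bad_primes_finset T fun x _ => isAlgebraic_int_Qb x

end Qbar

end Fermat.Agent.G35.Irr3.ResidueRat
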